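import Fermat.Agent.DEU.Rho

/-!
# DEU — Deuring's dimension count, part 1: Riemann's theorem on the residue side

Hypotheses `Hyp` : Riemann's inequality for `F` with constant `g`, orthonormal bases (`q2`),
the anchor `red (L(m·Pinf)) ⊆ L̄(m·Qinf)` and ONE bound `dim L̄(n₀·Qinf) ≤ n₀ + 1 − g`.
Conclusions of this file:

* `finrank_redSpace_rr` : `dim red(L(𝔞)) = dim L(𝔞)`;
* `riemann_lower_res` : Riemann's inequality for `Fb` with the same `g`;
* `riemann_upper_res` : `dim L̄(𝔟) ≤ deg 𝔟 + 1 − g` for `deg 𝔟 ≥ n₀ + g`;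
* `degree_le_degree_rho` : `deg 𝔞 ≤ deg ρ(𝔞)` for `deg 𝔞 ≥ n₀ + 2g`.
-/

set_option autoImplicit false

open AlgebraicCurve Module

namespace Fermat.Agent.DEU

open Fermat.Agent.ES.R

variable {K F k Fb : Type*} [Field K] [Field F] [Algebra K F] [Field k] [Field Fb] [Algebra k Fb]

/-- The multiple `m · P` of a place, as a divisor. -/
noncomputable def mulPlace (P : Place K F) (m : ℤ) : Divisor K F := Finsupp.single P m

@[simp] theorem degree_mulPlace
    (hres : ∀ v : Place K F, Function.Bijective (algebraMap K v.ResidueField))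
    (P : Place K F) (m : ℤ) : Divisor.degree (mulPlace P m) = m := by
  rw [mulPlace, Divisor.degree_single, place_deg_eq_one P (hres P)]
  simp

theorem mulPlace_add (P : Place K F) (m n : ℤ) :
    mulPlace P (m + n) = mulPlace P m + mulPlace P n := by
  rw [mulPlace, mulPlace, mulPlace, Finsupp.single_add]

/-- The hypotheses of Deuring's dimension count. -/
structure Hyp (R : RedData K F k Fb) (Pinf : Place K F) (Qinf : Place k Fb) (g n₀ : ℕ) : Prop where
  hresF : ∀ v : Place K F, Function.Bijective (algebraMap K v.ResidueField)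
  hresk : ∀ v : Place k Fb, Function.Bijective (algebraMap k v.ResidueField)
  hpdF : HasPrincipalDivisors K F
  hpdk : HasPrincipalDivisors k Fb
  riemann : ∀ 𝔞 : Divisor K F,
    Divisor.degree 𝔞 + 1 - g ≤ (finrank K ↥(riemannRochSpace 𝔞) : ℤ)
  q2 : ∀ V : Submodule K F, Module.Finite K V → finrank K V ≤ finrank k ↥(R.redSpace V)
  anchor : ∀ m : ℕ, R.redSpace (riemannRochSpace (mulPlace Pinf m)) ≤
    riemannRochSpace (mulPlace Qinf m)
  bound : (finrank k ↥(riemannRochSpace (mulPlace Qinf n₀)) : ℤ) + g ≤ n₀ + 1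

/-! ### Generic: `dim L(B) ≤ deg B + 1` -/

theorem rr_finrank_le_degree_add_one [HasPrincipalDivisors K F]
    (hres : ∀ v : Place K F, Function.Bijective (algebraMap K v.ResidueField))
    (P₀ : Place K F) (B : Divisor K F) (hB : 0 ≤ Divisor.degree B + 1) :
    (finrank K ↥(riemannRochSpace B) : ℤ) ≤ Divisor.degree B + 1 := by
  set A : Divisor K F := B - mulPlace P₀ (Divisor.degree B + 1) with hA
  have hAB : A ≤ B := by
    rw [hA, sub_le_self_iff, mulPlace]
    intro v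
    by_cases hv : v = P₀
    · subst hv; simpa using hB
    · rw [Finsupp.single_eq_of_ne hv]; simp
  have hdegA : Divisor.degree A = -1 := by
    rw [hA, map_sub, degree_mulPlace hres]; ring
  have hbot : riemannRochSpace A = ⊥ := rr_eq_bot_of_degree_neg (by rw [hdegA]; norm_num)
  have h1 := rr_finrank_le hres hAB
  rw [hbot, finrank_bot, hdegA] at h1
  push_cast at h1
  linarith

theorem rr_ne_bot_of_finrank_pos {D : Divisor K F}
    (h : 0 < finrank K ↥(riemannRochSpace D)) : riemannRochSpace D ≠ ⊥ := by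
  intro hb
  rw [hb, finrank_bot] at h
  exact lt_irrefl _ h

namespace Hyp

variable {R : RedData K F k Fb} {Pinf : Place K F} {Qinf : Place k Fb} {g n₀ : ℕ}
  (H : Hyp R Pinf Qinf g n₀)

include H

theorem finite_rr (𝔞 : Divisor K F) : Module.Finite K ↥(riemannRochSpace 𝔞) :=
  have := H.hpdF
  rr_finite Pinf H.hresF 𝔞

theorem finite_rr_res (𝔟 : Divisor k Fb) : Module.Finite k ↥(riemannRochSpace 𝔟) :=
  have := H.hpdk
  rr_finite Qinf H.hresk 𝔟

/-- `dim red(L(𝔞)) = dim L(𝔞)`. -/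
theorem finrank_redSpace_rr (𝔞 : Divisor K F) :
    finrank k ↥(R.redSpace (riemannRochSpace 𝔞)) = finrank K ↥(riemannRochSpace 𝔞) := by
  have := H.finite_rr 𝔞
  exact le_antisymm (R.finrank_redSpace_le _) (H.q2 _ inferInstance)

theorem rr_ne_bot_of_degree {𝔞 : Divisor K F} (h : (g : ℤ) ≤ Divisor.degree 𝔞) :
    riemannRochSpace 𝔞 ≠ ⊥ := by
  refine rr_ne_bot_of_finrank_pos ?_
  have := H.riemann 𝔞
  have h2 : (0 : ℤ) < (finrank K ↥(riemannRochSpace 𝔞) : ℤ) := by linarith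
  exact_mod_cast h2

/-- `dim L(𝔞) ≤ dim L̄(ρ 𝔞)`. -/
theorem finrank_rr_le_rho {𝔞 : Divisor K F} (h𝔞 : riemannRochSpace 𝔞 ≠ ⊥) :
    finrank K ↥(riemannRochSpace 𝔞) ≤ finrank k ↥(riemannRochSpace (R.rho 𝔞)) := by
  have := H.hpdF
  have := H.hpdk
  have := H.finite_rr_res (R.rho 𝔞)
  rw [← H.finrank_redSpace_rr 𝔞]
  exact Submodule.finrank_mono (R.redSpace_rr_le_rr_rho H.hresF H.hresk Pinf h𝔞)

/-- The anchor: `ρ (m·Pinf) ≤ m·Qinf`. -/
theorem rho_mulPlace_le (m : ℕ) (hm : g ≤ m) : R.rho (mulPlace Pinf m) ≤ mulPlace Qinf m := by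
  have := H.hpdF
  have := H.hpdk
  refine R.rho_le_of_le_rr H.hresF H.hresk Pinf (H.rr_ne_bot_of_degree ?_) (H.anchor m)
  rw [degree_mulPlace H.hresF]
  exact_mod_cast hm

/-- **Riemann's inequality on the residue side, with the same `g`.** -/
theorem riemann_lower_res (𝔟 : Divisor k Fb) :
    Divisor.degree 𝔟 + 1 - g ≤ (finrank k ↥(riemannRochSpace 𝔟) : ℤ) := by
  have := H.hpdF
  have := H.hpdk
  refine riemann_transfer H.hresk g (fun M => ?_) 𝔟
  -- `B = ρ (m·Pinf)`, `m = max (M + g) g`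
  set m : ℕ := (M + g).toNat + g with hm
  have hmg : g ≤ m := Nat.le_add_left _ _
  have hmM : M + g ≤ m := by
    have := Int.self_le_toNat (M + g)
    rw [hm]; push_cast; linarith
  have hne : riemannRochSpace (mulPlace Pinf (m : ℤ)) ≠ ⊥ := by
    refine H.rr_ne_bot_of_degree ?_
    rw [degree_mulPlace H.hresF]; exact_mod_cast hmg
  have h1 := H.rho_mulPlace_le m hmg
  have hdeg : Divisor.degree (R.rho (mulPlace Pinf (m : ℤ))) ≤ m := by
    have := degree_mono h1
    rwa [degree_mulPlace H.hresk] at this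
  have h2 := H.riemann (mulPlace Pinf (m : ℤ))
  rw [degree_mulPlace H.hresF] at h2
  have h3 : (finrank K ↥(riemannRochSpace (mulPlace Pinf (m : ℤ))) : ℤ) ≤
      finrank k ↥(riemannRochSpace (R.rho (mulPlace Pinf (m : ℤ)))) := by
    exact_mod_cast H.finrank_rr_le_rho hne
  have h0 := R.degree_rho_nonneg H.hresF H.hresk Pinf hne
  have h4 := rr_finrank_le_degree_add_one H.hresk Qinf (R.rho (mulPlace Pinf (m : ℤ)))
    (by linarith)
  refine ⟨R.rho (mulPlace Pinf (m : ℤ)), ?_, ?_⟩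
  · linarith
  · linarith

/-- **The upper bound on the residue side**: `dim L̄(𝔟) ≤ deg 𝔟 + 1 − g` for
`deg 𝔟 ≥ n₀ + g`. -/
theorem riemann_upper_res (𝔟 : Divisor k Fb) (h𝔟 : (n₀ : ℤ) + g ≤ Divisor.degree 𝔟) :
    (finrank k ↥(riemannRochSpace 𝔟) : ℤ) ≤ Divisor.degree 𝔟 + 1 - g := by
  have := H.hpdk
  -- a nonzero element of `L̄(𝔟 - n₀ Qinf)`
  have h1 := H.riemann_lower_res (𝔟 - mulPlace Qinf n₀)
  rw [map_sub, degree_mulPlace H.hresk] at h1
  have hpos : 0 < finrank k ↥(riemannRochSpace (𝔟 - mulPlace Qinf n₀)) := by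
    have : (0 : ℤ) < finrank k ↥(riemannRochSpace (𝔟 - mulPlace Qinf n₀)) := by linarith
    exact_mod_cast this
  obtain ⟨h, hh, hh0⟩ := (Submodule.ne_bot_iff _).mp (rr_ne_bot_of_finrank_pos hpos)
  obtain ⟨Z, hZ, hZdeg⟩ := HasPrincipalDivisors.exists_divisor (K := k) h hh0
  -- `𝔟' = 𝔟 + div h ≥ n₀ Qinf`
  have hle : mulPlace Qinf n₀ ≤ 𝔟 + Z := by
    rw [Finsupp.le_def]
    intro v
    rw [mem_riemannRochSpace_iff] at hh
    have := (hh v).resolve_left hh0
    rw [Finsupp.sub_apply] at this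
    rw [Finsupp.add_apply, hZ v]
    linarith
  have h2 := rr_finrank_le H.hresk hle
  rw [map_add, hZdeg, add_zero, degree_mulPlace H.hresk] at h2
  have h3 : finrank k ↥(riemannRochSpace (𝔟 + Z)) = finrank k ↥(riemannRochSpace 𝔟) := by
    refine rr_finrank_eq_of_principal (z := h⁻¹) (inv_ne_zero hh0) (fun v => ?_)
    rw [Finsupp.add_apply, hZ v, v.ord_inv]
    ring
  rw [h3] at h2
  have h4 := H.bound
  linarith

/-- **The lower bound**: `deg 𝔞 ≤ deg ρ(𝔞)` for `deg 𝔞 ≥ n₀ + 2g`. -/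
theorem degree_le_degree_rho (𝔞 : Divisor K F) (h𝔞 : (n₀ : ℤ) + 2 * g ≤ Divisor.degree 𝔞) :
    Divisor.degree 𝔞 ≤ Divisor.degree (R.rho 𝔞) := by
  have := H.hpdF
  have := H.hpdk
  have hne : riemannRochSpace 𝔞 ≠ ⊥ := H.rr_ne_bot_of_degree (by linarith)
  have h1 := H.riemann 𝔞
  have h2 : (finrank K ↥(riemannRochSpace 𝔞) : ℤ) ≤
      finrank k ↥(riemannRochSpace (R.rho 𝔞)) := by
    exact_mod_cast H.finrank_rr_le_rho hne
  have h0 := R.degree_rho_nonneg H.hresF H.hresk Pinf hne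
  by_cases hbig : (n₀ : ℤ) + g ≤ Divisor.degree (R.rho 𝔞)
  · have h3 := H.riemann_upper_res (R.rho 𝔞) hbig
    linarith
  · push Not at hbig
    have h3 := rr_finrank_le_degree_add_one H.hresk Qinf (R.rho 𝔞) (by linarith)
    linarith

end Hyp

end Fermat.Agent.DEU
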