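import Fermat.Agent.DEU.OrdCount
import Fermat.Agent.S24.PlaceBasic

/-!
# DEU-anchor, abstract core

`Fb / k` a field with places (prelude `AlgebraicCurve.Place`).

* `deuAnchor_exists_sep` : two distinct places are separated by a function
  (`0 < ord_P a`, `ord_Q a < 0`).
* `deuAnchor_ord_aeval` : `ord_v (p(x)) = deg p · ord_v x` at a pole `v` of `x`.
* `deuAnchor_not_finrank_le` : if `x` has a pole of order `n` at `P` and another pole `Q ≠ P`,
  then `[Fb : k(x)] > n` (the easy half of `Σ e_i f_i ≤ n`, for two places).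
-/

set_option autoImplicit false

open AlgebraicCurve Polynomial

namespace Fermat.Agent.DEU

open Fermat.Agent.S24

variable {k Fb : Type*} [Field k] [Field Fb] [Algebra k Fb]

/-! ## sums with a dominant term -/

/-- a sum of terms of order `> m` is zero or of order `> m` -/
theorem deuAnchor_ord_sum_gt (v : Place k Fb) {ι : Type*} (s : Finset ι) (f : ι → Fb) (m : ℤ)
    (h : ∀ i ∈ s, f i = 0 ∨ m < v.ord (f i)) :
    (∑ i ∈ s, f i) = 0 ∨ m < v.ord (∑ i ∈ s, f i) := by
  classical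
  induction s using Finset.induction_on with
  | empty => left; simp
  | insert a s ha ih =>
    rw [Finset.sum_insert ha]
    have h2 := ih (fun i hi => h i (Finset.mem_insert_of_mem hi))
    rcases eq_or_ne (f a) 0 with hfa | hfa
    · rw [hfa, zero_add]; exact h2
    · have h1 : m < v.ord (f a) := (h a (Finset.mem_insert_self a s)).resolve_left hfa
      rcases eq_or_ne (∑ i ∈ s, f i) 0 with hs | hs
      · rw [hs, add_zero]; exact Or.inr h1
      · have h2' := h2.resolve_left hs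
        by_cases h0 : f a + ∑ i ∈ s, f i = 0
        · exact Or.inl h0
        · exact Or.inr (lt_of_lt_of_le (lt_min h1 h2') (PlaceAux.le_ord_add v hfa hs h0))

/-- a sum with a unique term of minimal order is nonzero, of that order -/
theorem deuAnchor_ord_sum_dominant (v : Place k Fb) {ι : Type*} (s : Finset ι) (f : ι → Fb)
    (i₀ : ι) (hi₀ : i₀ ∈ s) (h0 : f i₀ ≠ 0)
    (h : ∀ i ∈ s, i ≠ i₀ → f i = 0 ∨ v.ord (f i₀) < v.ord (f i)) :
    (∑ i ∈ s, f i) ≠ 0 ∧ v.ord (∑ i ∈ s, f i) = v.ord (f i₀) := by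
  classical
  rw [← Finset.add_sum_erase s f hi₀]
  have h2 := deuAnchor_ord_sum_gt v (s.erase i₀) f (v.ord (f i₀))
    (fun i hi => h i (Finset.mem_of_mem_erase hi) (Finset.ne_of_mem_erase hi))
  rcases eq_or_ne (∑ i ∈ s.erase i₀, f i) 0 with hs | hs
  · rw [hs, add_zero]; exact ⟨h0, rfl⟩
  · have h2' := h2.resolve_left hs
    have heq := PlaceAux.ord_add_eq_of_lt v h0 hs h2'
    refine ⟨?_, heq⟩
    intro hz
    have hneg : f i₀ = -(∑ i ∈ s.erase i₀, f i) := eq_neg_of_add_eq_zero_left hz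
    rw [hneg, PlaceAux.ord_neg] at h2'
    exact lt_irrefl _ h2'

/-! ## separation of two places -/

/-- a place contained in another place is equal to it (discrete valuation rings are maximal) -/
theorem deuAnchor_eq_of_le (P Q : Place k Fb)
    (h : P.toValuationSubring ≤ Q.toValuationSubring) : P = Q := by
  obtain ⟨π, hπ⟩ := IsDiscreteValuationRing.exists_irreducible P.toValuationSubring
  have hπ0 : (π : Fb) ≠ 0 := by
    simpa [ne_eq, ZeroMemClass.coe_eq_zero] using hπ.ne_zero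
  have hπQ : (π : Fb) ∈ Q.toValuationSubring := h π.2
  have hunit : ∀ u : P.toValuationSubringˣ, ((u : P.toValuationSubring) : Fb) ∈ Q.toValuationSubring :=
    fun u => h (u : P.toValuationSubring).2
  -- `π⁻¹ ∉ O_Q`
  have hπinv : ((π : Fb))⁻¹ ∉ Q.toValuationSubring := by
    intro hinv
    apply Q.ne_top'
    rw [eq_top_iff]
    intro y _
    rcases eq_or_ne y 0 with rfl | hy
    · exact zero_mem _
    obtain ⟨u, hu⟩ := P.exists_unit_mul_zpow hy hπ
    rw [hu]
    refine mul_mem (hunit u) ?_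
    rcases le_or_gt 0 (P.ord y) with hn | hn
    · lift P.ord y to ℕ using hn with d
      rw [zpow_natCast]
      exact pow_mem hπQ d
    · obtain ⟨d, hd⟩ : ∃ d : ℕ, P.ord y = -(d : ℤ) := ⟨(-P.ord y).toNat, by omega⟩
      rw [hd, zpow_neg, zpow_natCast, ← inv_pow]
      exact pow_mem hinv d
  apply Place.ext
  apply le_antisymm h
  intro x hx
  rcases eq_or_ne x 0 with rfl | hx0
  · exact zero_mem _
  rw [← PlaceAux.ord_nonneg_iff P hx0]
  by_contra hneg
  rw [not_le] at hneg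
  obtain ⟨u, hu⟩ := P.exists_unit_mul_zpow hx0 hπ
  obtain ⟨d, hd⟩ : ∃ d : ℕ, P.ord x = -((d : ℤ) + 1) := ⟨(-P.ord x - 1).toNat, by omega⟩
  apply hπinv
  -- `π⁻¹ = u⁻¹ * x * π ^ d`
  have hu0 : ((u : P.toValuationSubring) : Fb) ≠ 0 := by
    simp [ne_eq, ZeroMemClass.coe_eq_zero]
  have hval : ((π : Fb))⁻¹ = (((u⁻¹ : P.toValuationSubringˣ) : P.toValuationSubring) : Fb) * x *
      (π : Fb) ^ d := by
    have hinv : (((u⁻¹ : P.toValuationSubringˣ) : P.toValuationSubring) : Fb) *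
        ((u : P.toValuationSubring) : Fb) = 1 := by
      have h2 : ((((u⁻¹ : P.toValuationSubringˣ) : P.toValuationSubring) *
          (u : P.toValuationSubring) : P.toValuationSubring) : Fb) = 1 := by
        rw [u.inv_mul]; rfl
      exact h2
    conv_rhs => rw [hu, hd]
    rw [zpow_neg, zpow_add₀ hπ0, zpow_natCast, zpow_one]
    have h1 : (((u⁻¹ : P.toValuationSubringˣ) : P.toValuationSubring) : Fb) *
        (((u : P.toValuationSubring) : Fb) * ((π : Fb) ^ d * (π : Fb))⁻¹) * (π : Fb) ^ d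
        = ((((u⁻¹ : P.toValuationSubringˣ) : P.toValuationSubring) : Fb) *
          ((u : P.toValuationSubring) : Fb)) * (((π : Fb) ^ d * (π : Fb))⁻¹ * (π : Fb) ^ d) := by
      ring
    rw [h1, hinv, one_mul, mul_inv, mul_comm ((π : Fb) ^ d)⁻¹, mul_assoc,
      inv_mul_cancel₀ (pow_ne_zero d hπ0), mul_one]
  rw [hval]
  exact mul_mem (mul_mem (hunit u⁻¹) hx) (pow_mem hπQ d)

/-- two distinct places are separated by a function -/
theorem deuAnchor_exists_sep (P Q : Place k Fb) (h : P ≠ Q) :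
    ∃ a : Fb, a ≠ 0 ∧ 0 < P.ord a ∧ Q.ord a < 0 := by
  have h1 : ¬ P.toValuationSubring ≤ Q.toValuationSubring := fun hle =>
    h (deuAnchor_eq_of_le P Q hle)
  have h2 : ¬ Q.toValuationSubring ≤ P.toValuationSubring := fun hle =>
    h (deuAnchor_eq_of_le Q P hle).symm
  obtain ⟨x, hxP, hxQ⟩ := SetLike.not_le_iff_exists.mp h1
  obtain ⟨y, hyQ, hyP⟩ := SetLike.not_le_iff_exists.mp h2
  have hx0 : x ≠ 0 := fun h0 => hxQ (h0 ▸ zero_mem _)
  have hy0 : y ≠ 0 := fun h0 => hyP (h0 ▸ zero_mem _)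
  have hxP' := (PlaceAux.ord_nonneg_iff P hx0).mpr hxP
  have hxQ' : ¬ 0 ≤ Q.ord x := fun h0 => hxQ ((PlaceAux.ord_nonneg_iff Q hx0).mp h0)
  have hyQ' := (PlaceAux.ord_nonneg_iff Q hy0).mpr hyQ
  have hyP' : ¬ 0 ≤ P.ord y := fun h0 => hyP ((PlaceAux.ord_nonneg_iff P hy0).mp h0)
  refine ⟨x * y⁻¹, mul_ne_zero hx0 (inv_ne_zero hy0), ?_, ?_⟩
  · rw [P.ord_mul hx0 (inv_ne_zero hy0), P.ord_inv]; omega
  · rw [Q.ord_mul hx0 (inv_ne_zero hy0), Q.ord_inv]; omega

/-! ## orders of polynomial and rational expressions at a pole -/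

theorem deuAnchor_ne_zero_of_ord_neg (v : Place k Fb) {x : Fb} (hx : v.ord x < 0) : x ≠ 0 := by
  rintro rfl
  simp at hx

theorem deuAnchor_ord_pow (v : Place k Fb) (x : Fb) (n : ℕ) : v.ord (x ^ n) = n * v.ord x := by
  have := v.ord_zpow x (n : ℤ)
  rwa [zpow_natCast] at this

theorem deuAnchor_ord_smul (v : Place k Fb) {c : k} (hc : c ≠ 0) {x : Fb} (hx : x ≠ 0) :
    v.ord (c • x) = v.ord x := by
  rw [Algebra.smul_def, v.ord_mul (by simpa using hc) hx, PlaceAux.ord_algebraMap, zero_add]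

/-- `ord_v (p(x)) = deg p · ord_v x` at a pole `v` of `x`. -/
theorem deuAnchor_ord_aeval (v : Place k Fb) {x : Fb} (hx : v.ord x < 0) (p : k[X])
    (hp : p ≠ 0) :
    aeval x p ≠ 0 ∧ v.ord (aeval x p) = p.natDegree * v.ord x := by
  classical
  have hx0 := deuAnchor_ne_zero_of_ord_neg v hx
  rw [Polynomial.aeval_eq_sum_range]
  have hlead : p.coeff p.natDegree ≠ 0 := by
    rw [Polynomial.coeff_natDegree]; exact Polynomial.leadingCoeff_ne_zero.mpr hp
  have hdom := deuAnchor_ord_sum_dominant v (Finset.range (p.natDegree + 1))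
    (fun i => p.coeff i • x ^ i) p.natDegree (Finset.self_mem_range_succ _)
    (by
      show p.coeff p.natDegree • x ^ p.natDegree ≠ 0
      exact smul_ne_zero hlead (pow_ne_zero _ hx0))
    (by
      intro i hi hne
      by_cases hc : p.coeff i = 0
      · left; show p.coeff i • x ^ i = 0; rw [hc, zero_smul]
      · right
        show v.ord (p.coeff p.natDegree • x ^ p.natDegree) < v.ord (p.coeff i • x ^ i)
        rw [deuAnchor_ord_smul v hlead (pow_ne_zero _ hx0),
          deuAnchor_ord_smul v hc (pow_ne_zero _ hx0), deuAnchor_ord_pow, deuAnchor_ord_pow]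
        have hi' : i < p.natDegree := by
          have := Finset.mem_range.mp hi
          omega
        have : ((i : ℤ)) < (p.natDegree : ℤ) := by exact_mod_cast hi'
        nlinarith)
  refine ⟨hdom.1, ?_⟩
  rw [hdom.2]
  show v.ord (p.coeff p.natDegree • x ^ p.natDegree) = _
  rw [deuAnchor_ord_smul v hlead (pow_ne_zero _ hx0), deuAnchor_ord_pow]

/-- a nonzero element of `k(x)` has order `m · ord_v x` at every pole `v` of `x`, with `m`
independent of `v`. -/
theorem deuAnchor_ord_adjoin {x : Fb} (c : Fb) (hc : c ∈ IntermediateField.adjoin k {x})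
    (hc0 : c ≠ 0) :
    ∃ m : ℤ, ∀ v : Place k Fb, v.ord x < 0 → v.ord c = m * v.ord x := by
  obtain ⟨r, s, hrs⟩ := IntermediateField.mem_adjoin_simple_iff k c |>.mp hc
  have hr : aeval x r ≠ 0 := by
    intro h; rw [h, zero_div] at hrs; exact hc0 hrs
  have hs : aeval x s ≠ 0 := by
    intro h; rw [h, div_zero] at hrs; exact hc0 hrs
  have hr0 : r ≠ 0 := by rintro rfl; simp at hr
  have hs0 : s ≠ 0 := by rintro rfl; simp at hs
  refine ⟨(r.natDegree : ℤ) - s.natDegree, fun v hv => ?_⟩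
  rw [hrs, div_eq_mul_inv, v.ord_mul hr (inv_ne_zero hs), v.ord_inv,
    (deuAnchor_ord_aeval v hv r hr0).2, (deuAnchor_ord_aeval v hv s hs0).2]
  ring

/-! ## two poles force a large degree -/

theorem deuAnchor_one_add_pow (P Q : Place k Fb) {a : Fb} (ha0 : a ≠ 0) (haP : 0 < P.ord a)
    (haQ : Q.ord a < 0) (M : ℕ) (hM : 1 ≤ M) :
    1 + a ^ M ≠ 0 ∧ P.ord (1 + a ^ M) = 0 ∧ Q.ord (1 + a ^ M) = M * Q.ord a := by
  have haM : a ^ M ≠ 0 := pow_ne_zero M ha0
  have hMpos : (0 : ℤ) < M := by exact_mod_cast hM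
  have hP1 : P.ord (1 : Fb) < P.ord (a ^ M) := by
    rw [Place.ord_one, deuAnchor_ord_pow]
    exact mul_pos hMpos haP
  have hQ1 : Q.ord (a ^ M) < Q.ord (1 : Fb) := by
    rw [Place.ord_one, deuAnchor_ord_pow]
    exact mul_neg_of_pos_of_neg hMpos haQ
  have hPeq := PlaceAux.ord_add_eq_of_lt P one_ne_zero haM hP1
  have hQeq := PlaceAux.ord_add_eq_of_lt Q haM one_ne_zero hQ1
  rw [add_comm] at hQeq
  refine ⟨?_, ?_, ?_⟩
  · intro h0
    rw [h0, Place.ord_zero, deuAnchor_ord_pow] at hQeq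
    have := mul_neg_of_pos_of_neg hMpos haQ
    omega
  · rw [hPeq, Place.ord_one]
  · rw [hQeq, deuAnchor_ord_pow]

/-- If `x` has a pole of order `n ≥ 1` at `P` and a pole at another place `Q`, then
`n < [Fb : k(x)]`. -/
theorem deuAnchor_lt_finrank (P Q : Place k Fb) (hPQ : P ≠ Q) (x : Fb) (n : ℕ)
    (hP : P.ord x = -(n : ℤ)) (hn : 1 ≤ n) (hQ : Q.ord x < 0)
    [FiniteDimensional (IntermediateField.adjoin k {x}) Fb] :
    n < Module.finrank (IntermediateField.adjoin k {x}) Fb := by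
  classical
  obtain ⟨a, ha0, haP, haQ⟩ := deuAnchor_exists_sep P Q hPQ
  obtain ⟨π, hπ⟩ := IsDiscreteValuationRing.exists_irreducible P.toValuationSubring
  have hπ0 : (π : Fb) ≠ 0 := by
    simpa [ne_eq, ZeroMemClass.coe_eq_zero] using hπ.ne_zero
  set t : Fb := (π : Fb) with ht
  have ht0 : t ≠ 0 := hπ0
  have htP : P.ord t = 1 := P.ord_coe_irreducible hπ
  have hnpos : (0 : ℤ) < n := by exact_mod_cast hn
  have hxP : P.ord x < 0 := by rw [hP]; omega
  -- `y`
  obtain ⟨hy1, hy2, hy3⟩ := deuAnchor_one_add_pow P Q ha0 haP haQ n hn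
  set y : Fb := a ^ n * (1 + a ^ n)⁻¹ with hy
  have hy0 : y ≠ 0 := mul_ne_zero (pow_ne_zero n ha0) (inv_ne_zero hy1)
  have hyP : (n : ℤ) ≤ P.ord y := by
    rw [hy, P.ord_mul (pow_ne_zero n ha0) (inv_ne_zero hy1), P.ord_inv, hy2, deuAnchor_ord_pow]
    nlinarith
  have hyQ : Q.ord y = 0 := by
    rw [hy, Q.ord_mul (pow_ne_zero n ha0) (inv_ne_zero hy1), Q.ord_inv, hy3, deuAnchor_ord_pow]
    ring
  -- `z`
  set M' : ℕ := (-Q.ord t).toNat + 1 with hM'
  obtain ⟨hz1, hz2, hz3⟩ := deuAnchor_one_add_pow P Q ha0 haP haQ M' (by omega)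
  set z : Fb := t * (1 + a ^ M')⁻¹ with hz
  have hz0 : z ≠ 0 := mul_ne_zero ht0 (inv_ne_zero hz1)
  have hzP : P.ord z = 1 := by
    rw [hz, P.ord_mul ht0 (inv_ne_zero hz1), P.ord_inv, hz2, htP]; ring
  have hzQ : 0 ≤ Q.ord z := by
    rw [hz, Q.ord_mul ht0 (inv_ne_zero hz1), Q.ord_inv, hz3]
    have h1 : (-Q.ord t) ≤ ((-Q.ord t).toNat : ℤ) := Int.self_le_toNat _
    have h2 : ((M' : ℕ) : ℤ) = ((-Q.ord t).toNat : ℤ) + 1 := by rw [hM']; push_cast; ring
    have h3 : (M' : ℤ) * Q.ord a ≤ -(M' : ℤ) := by nlinarith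
    omega
  -- the family
  let e : Fin (n + 1) → Fb := fun i => if (i : ℕ) < n then z ^ (i : ℕ) else y
  have he0 : ∀ i, e i ≠ 0 := by
    intro i
    show (if (i : ℕ) < n then z ^ (i : ℕ) else y) ≠ 0
    split_ifs
    · exact pow_ne_zero _ hz0
    · exact hy0
  have hlast : ∀ i : Fin (n + 1), i ≠ Fin.last n → (i : ℕ) < n := by
    intro i hi
    have h1 : (i : ℕ) ≠ n := fun h => hi (Fin.ext (by simpa using h))
    have h2 := i.2
    omega
  have heP : ∀ i : Fin (n + 1), i ≠ Fin.last n → P.ord (e i) = (i : ℕ) := by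
    intro i hi
    show P.ord (if (i : ℕ) < n then z ^ (i : ℕ) else y) = _
    rw [if_pos (hlast i hi), deuAnchor_ord_pow, hzP, mul_one]
  have heQ : ∀ i : Fin (n + 1), i ≠ Fin.last n → 0 ≤ Q.ord (e i) := by
    intro i hi
    show 0 ≤ Q.ord (if (i : ℕ) < n then z ^ (i : ℕ) else y)
    rw [if_pos (hlast i hi), deuAnchor_ord_pow]
    positivity
  have heL : e (Fin.last n) = y := by
    show (if ((Fin.last n : Fin (n + 1)) : ℕ) < n then z ^ ((Fin.last n : Fin (n + 1)) : ℕ)
      else y) = y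
    rw [if_neg (by simp)]
  have hli : LinearIndependent (IntermediateField.adjoin k {x}) e := by
    rw [Fintype.linearIndependent_iff]
    intro g hg
    by_contra hne
    push Not at hne
    obtain ⟨j, hj⟩ := hne
    have hgc : ∀ i, g i ≠ 0 → ((g i : IntermediateField.adjoin k {x}) : Fb) ≠ 0 := by
      intro i hi h0
      exact hi (Subtype.ext h0)
    have hM : ∀ i, ∃ m : ℤ, g i ≠ 0 → ∀ v : Place k Fb, v.ord x < 0 →
        v.ord ((g i : IntermediateField.adjoin k {x}) : Fb) = m * v.ord x := by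
      intro i
      by_cases hi : g i = 0
      · exact ⟨0, fun h => absurd hi h⟩
      · obtain ⟨m, hm⟩ := deuAnchor_ord_adjoin (k := k) (x := x)
          ((g i : IntermediateField.adjoin k {x}) : Fb) (g i).2 (hgc i hi)
        exact ⟨m, fun _ => hm⟩
    choose M hMspec using hM
    let f : Fin (n + 1) → Fb := fun i => ((g i : IntermediateField.adjoin k {x}) : Fb) * e i
    have hsum : ∑ i, f i = 0 := by
      rw [← hg]
      exact Finset.sum_congr rfl fun i _ => rfl
    have hf0 : ∀ i, g i = 0 → f i = 0 := by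
      intro i hi
      show ((g i : IntermediateField.adjoin k {x}) : Fb) * e i = 0
      rw [hi]; simp
    have hfne : ∀ i, g i ≠ 0 → f i ≠ 0 := fun i hi => mul_ne_zero (hgc i hi) (he0 i)
    have hfP : ∀ i, i ≠ Fin.last n → g i ≠ 0 → P.ord (f i) = -(n : ℤ) * M i + (i : ℕ) := by
      intro i hi hgi
      show P.ord (((g i : IntermediateField.adjoin k {x}) : Fb) * e i) = _
      rw [P.ord_mul (hgc i hgi) (he0 i), hMspec i hgi P hxP, heP i hi, hP]
      ring
    have hfPL : g (Fin.last n) ≠ 0 →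
        -(n : ℤ) * M (Fin.last n) + n ≤ P.ord (f (Fin.last n)) := by
      intro hgi
      show _ ≤ P.ord (((g (Fin.last n) : IntermediateField.adjoin k {x}) : Fb) * e (Fin.last n))
      rw [P.ord_mul (hgc _ hgi) (he0 _), hMspec _ hgi P hxP, heL, hP]
      nlinarith
    have hfQ : ∀ i, i ≠ Fin.last n → g i ≠ 0 → M i * Q.ord x ≤ Q.ord (f i) := by
      intro i hi hgi
      show _ ≤ Q.ord (((g i : IntermediateField.adjoin k {x}) : Fb) * e i)
      rw [Q.ord_mul (hgc i hgi) (he0 i), hMspec i hgi Q hQ]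
      have := heQ i hi
      omega
    have hfQL : g (Fin.last n) ≠ 0 → Q.ord (f (Fin.last n)) = M (Fin.last n) * Q.ord x := by
      intro hgi
      show Q.ord (((g (Fin.last n) : IntermediateField.adjoin k {x}) : Fb) * e (Fin.last n)) = _
      rw [Q.ord_mul (hgc _ hgi) (he0 _), hMspec _ hgi Q hQ, heL, hyQ, add_zero]
    by_cases hcase : g (Fin.last n) ≠ 0 ∧ ∀ i, i ≠ Fin.last n → g i ≠ 0 → M i < M (Fin.last n)
    · -- `Q`-dominant at the last index
      obtain ⟨hgL, hlt⟩ := hcase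
      have hdom := deuAnchor_ord_sum_dominant Q Finset.univ f (Fin.last n) (Finset.mem_univ _)
        (hfne _ hgL) (by
          intro i _ hi
          by_cases hgi : g i = 0
          · exact Or.inl (hf0 i hgi)
          · right
            rw [hfQL hgL]
            refine lt_of_lt_of_le ?_ (hfQ i hi hgi)
            have := hlt i hi hgi
            nlinarith)
      exact hdom.1 hsum
    · -- `P`-dominant at a minimal index
      have hcase' : g (Fin.last n) ≠ 0 → ∃ i, i ≠ Fin.last n ∧ g i ≠ 0 ∧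
          M (Fin.last n) ≤ M i := by
        intro hgL
        by_contra hno
        push Not at hno
        exact hcase ⟨hgL, fun i hi hgi => hno i hi hgi⟩
      set S' : Finset (Fin (n + 1)) :=
        Finset.univ.filter (fun i => i ≠ Fin.last n ∧ g i ≠ 0) with hS'
      have hS'ne : S'.Nonempty := by
        by_cases hgL : g (Fin.last n) = 0
        · refine ⟨j, ?_⟩
          rw [hS', Finset.mem_filter]
          refine ⟨Finset.mem_univ _, ?_, hj⟩
          rintro rfl
          exact hj hgL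
        · obtain ⟨i, hi, hgi, -⟩ := hcase' hgL
          exact ⟨i, by rw [hS', Finset.mem_filter]; exact ⟨Finset.mem_univ _, hi, hgi⟩⟩
      obtain ⟨i₀, hi₀S, hi₀min⟩ := Finset.exists_min_image S' (fun i => P.ord (f i)) hS'ne
      rw [hS', Finset.mem_filter] at hi₀S
      obtain ⟨-, hi₀L, hgi₀⟩ := hi₀S
      have hdom := deuAnchor_ord_sum_dominant P Finset.univ f i₀ (Finset.mem_univ _)
        (hfne _ hgi₀) (by
          intro i _ hi
          by_cases hgi : g i = 0
          · exact Or.inl (hf0 i hgi)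
          · right
            by_cases hiL : i = Fin.last n
            · subst hiL
              obtain ⟨i₁, hi₁, hgi₁, hM₁⟩ := hcase' hgi
              have h1 := hi₀min i₁ (by rw [hS', Finset.mem_filter]; exact ⟨Finset.mem_univ _, hi₁, hgi₁⟩)
              rw [hfP i₁ hi₁ hgi₁] at h1
              have h2 := hfPL hgi
              have h3 : ((i₁ : ℕ) : ℤ) < n := by exact_mod_cast hlast i₁ hi₁
              nlinarith
            · have h1 := hi₀min i (by rw [hS', Finset.mem_filter]; exact ⟨Finset.mem_univ _, hiL, hgi⟩)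
              refine lt_of_le_of_ne h1 ?_
              rw [hfP i hiL hgi, hfP i₀ hi₀L hgi₀]
              intro heq
              apply hi
              have h3 : ((i : ℕ) : ℤ) < n := by exact_mod_cast hlast i hiL
              have h4 : ((i₀ : ℕ) : ℤ) < n := by exact_mod_cast hlast i₀ hi₀L
              have h5 : (n : ℤ) ∣ ((i : ℕ) : ℤ) - ((i₀ : ℕ) : ℤ) :=
                ⟨M i - M i₀, by linarith⟩
              have h6 : ((i : ℕ) : ℤ) - ((i₀ : ℕ) : ℤ) = 0 := by
                apply Int.eq_zero_of_abs_lt_dvd h5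
                rw [abs_lt]
                constructor <;> omega
              apply Fin.ext
              omega)
      exact hdom.1 hsum
  have := hli.fintype_card_le_finrank
  simp only [Fintype.card_fin] at this
  omega

end Fermat.Agent.DEU

namespace Fermat.Agent.DEU

open Fermat.Agent.S24
open scoped IntermediateField.algebraAdjoinAdjoin

section Laurent

variable {k : Type*} [Field k]

/-- integrality over a smaller subalgebra implies integrality over a larger one -/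
theorem deuAnchor_isIntegral_mono {L : Type*} [CommRing L] [Algebra k L] {S T : Subalgebra k L}
    (h : S ≤ T) {x : L} (hx : IsIntegral S x) : IsIntegral T x := by
  obtain ⟨p, hp, hpx⟩ := hx
  refine ⟨p.map (Subalgebra.inclusion h).toRingHom, hp.map _, ?_⟩
  rw [Polynomial.eval₂_map]
  exact hpx

variable (E : IntermediateField k (LaurentSeries k))

/-- the elements of `E` integral over `R₀`, as a subalgebra -/
noncomputable def deuAnchorW (R₀ : Subalgebra k (LaurentSeries k)) :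
    Subalgebra k (LaurentSeries k) :=
  E.toSubalgebra ⊓ (integralClosure R₀ (LaurentSeries k)).restrictScalars k

theorem mem_deuAnchorW {R₀ : Subalgebra k (LaurentSeries k)} {x : LaurentSeries k} :
    x ∈ deuAnchorW E R₀ ↔ x ∈ E ∧ IsIntegral R₀ x := Iff.rfl

theorem deuAnchorW_le (R₀ : Subalgebra k (LaurentSeries k)) (hR₀E : ∀ x ∈ R₀, x ∈ E) :
    R₀ ≤ deuAnchorW E R₀ := fun x hx =>
  ⟨hR₀E x hx, isIntegral_algebraMap (R := R₀) (x := ⟨x, hx⟩)⟩

/-- every element of `E` is a fraction of elements integral over `R₀` -/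
theorem deuAnchor_hfrac (R₀ : Subalgebra k (LaurentSeries k))
    (w₀ : LaurentSeries k) (hw₀ : w₀ ∈ R₀) (hw₀E : w₀ ∈ E)
    (halg : Algebra.IsAlgebraic (IntermediateField.adjoin k {(⟨w₀, hw₀E⟩ : E)}) E) :
    ∀ x ∈ E, ∃ a ∈ deuAnchorW E R₀, ∃ b ∈ deuAnchorW E R₀, b ≠ 0 ∧ x * b = a := by
  intro x hxE
  set w' : E := ⟨w₀, hw₀E⟩ with hw'
  have h1 : Algebra.IsAlgebraic (Algebra.adjoin k {w'}) E :=
    IsFractionRing.comap_isAlgebraic_iff.mpr halg
  obtain ⟨b, hb0, hab⟩ := (h1.isAlgebraic (⟨x, hxE⟩ : E)).exists_integral_multiple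
  -- `adjoin k {w'}` maps into `R₀`
  have hadj' : ∀ c : E, c ∈ Algebra.adjoin k {w'} → (c : LaurentSeries k) ∈ R₀ := by
    intro c hc
    induction hc using Algebra.adjoin_induction with
    | mem y hy =>
      rw [Set.mem_singleton_iff] at hy
      rw [hy]; exact hw₀
    | algebraMap r => exact R₀.algebraMap_mem r
    | add y z _ _ hy hz => exact R₀.add_mem hy hz
    | mul y z _ _ hy hz => exact R₀.mul_mem hy hz
  have hadj : ∀ c : Algebra.adjoin k {w'}, (((c : E) : LaurentSeries k)) ∈ R₀ :=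
    fun c => hadj' c c.2
  let φ : Algebra.adjoin k {w'} →+* R₀ :=
    { toFun := fun c => ⟨((c : E) : LaurentSeries k), hadj c⟩
      map_one' := rfl
      map_mul' := fun _ _ => rfl
      map_zero' := rfl
      map_add' := fun _ _ => rfl }
  have hint : IsIntegral R₀ ((((b • (⟨x, hxE⟩ : E) : E)) : LaurentSeries k)) := by
    obtain ⟨p, hp, hpx⟩ := hab
    refine ⟨p.map φ, hp.map _, ?_⟩
    rw [Polynomial.eval₂_map]
    have h2 : (algebraMap R₀ (LaurentSeries k)).comp φ =
        (algebraMap E (LaurentSeries k)).comp (algebraMap (Algebra.adjoin k {w'}) E) := rfl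
    rw [h2]
    have h3 := Polynomial.hom_eval₂ p (algebraMap (Algebra.adjoin k {w'}) E)
      (algebraMap E (LaurentSeries k)) (b • (⟨x, hxE⟩ : E))
    rw [hpx, map_zero] at h3
    exact h3.symm
  have hbx : (((b • (⟨x, hxE⟩ : E) : E)) : LaurentSeries k) = x * ((b : E) : LaurentSeries k) := by
    rw [mul_comm]
    rfl
  refine ⟨x * ((b : E) : LaurentSeries k), ⟨?_, hbx ▸ hint⟩, ((b : E) : LaurentSeries k),
    ⟨(b : E).2, isIntegral_algebraMap (R := R₀) (x := ⟨_, hadj b⟩)⟩, ?_, rfl⟩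
  · exact E.mul_mem hxE (b : E).2
  · intro h0
    exact hb0 (Subtype.ext (Subtype.ext h0))

variable {E}

theorem deuAnchor_ord_nonneg_iff_mem (P : Place k E) (y : E) :
    0 ≤ P.ord y ↔ y ∈ P.toValuationSubring := by
  constructor
  · exact PlaceAux.mem_of_ord_nonneg P
  · intro h
    rcases eq_or_ne y 0 with rfl | hy
    · simp
    · exact (PlaceAux.ord_nonneg_iff P hy).mpr h

/-- **DEU-anchor, core.**  `E ⊆ k((q))` a field with a place `Qinf` whose order function is the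
`q`-order, `R₀ ⊆ E` a `k`-subalgebra such that the elements of `E` integral over `R₀` of `q`-order
`≥ 0` are constants, and `E` algebraic over `k(w₀)` for one `w₀ ∈ R₀`.  Then every element of `E`
integral over `R₀` is regular at every place `P ≠ Qinf`. -/
theorem deuAnchor_regular (Qinf : Place k E)
    (hQ : ∀ x : E, x ≠ 0 → Qinf.ord x = (x : LaurentSeries k).order)
    (R₀ : Subalgebra k (LaurentSeries k))
    (h0 : ∀ x ∈ E, IsIntegral R₀ x → 0 ≤ x.order →
      x ∈ Set.range (algebraMap k (LaurentSeries k)))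
    (w₀ : LaurentSeries k) (hw₀ : w₀ ∈ R₀) (hw₀E : w₀ ∈ E)
    (halg : Algebra.IsAlgebraic (IntermediateField.adjoin k {(⟨w₀, hw₀E⟩ : E)}) E)
    (x : LaurentSeries k) (hxE : x ∈ E) (hx : IsIntegral R₀ x)
    (P : Place k E) (hP : P ≠ Qinf) : 0 ≤ P.ord ⟨x, hxE⟩ := by
  by_contra hneg
  rw [not_le] at hneg
  have hx0 : (⟨x, hxE⟩ : E) ≠ 0 := deuAnchor_ne_zero_of_ord_neg P hneg
  have hWE : ∀ y ∈ deuAnchorW E R₀, y ∈ E := fun y hy => hy.1
  have h0W : ∀ y ∈ deuAnchorW E R₀, 0 ≤ y.order →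
      y ∈ Set.range (algebraMap k (LaurentSeries k)) := fun y hy => h0 y hy.1 hy.2
  have hxW : x ∈ deuAnchorW E R₀ := ⟨hxE, hx⟩
  have hord_neg : x.order < 0 := by
    by_contra hnn
    rw [not_lt] at hnn
    obtain ⟨c, hc⟩ := h0 x hxE hx hnn
    have hxc : (⟨x, hxE⟩ : E) = algebraMap k E c := Subtype.ext hc.symm
    rw [hxc, PlaceAux.ord_algebraMap] at hneg
    exact lt_irrefl _ hneg
  obtain ⟨n, hn⟩ : ∃ n : ℕ, x.order = -(n : ℤ) := ⟨(-x.order).toNat, by omega⟩
  have hn1 : 1 ≤ n := by omega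
  obtain ⟨hfd, hfr⟩ := deuOrd_finrank_le (deuAnchorW E R₀) h0W x hxW n hn1 hn E hWE
    (deuAnchor_hfrac E R₀ w₀ hw₀ hw₀E halg)
  haveI := hfd
  have hQx : Qinf.ord (⟨x, hxE⟩ : E) = -(n : ℤ) := by rw [hQ _ hx0]; exact hn
  have := deuAnchor_lt_finrank Qinf P (Ne.symm hP) (⟨x, hxE⟩ : E) n hQx hn1 hneg
  omega

theorem deuAnchor_ord_mul_nonneg (P : Place k E) {a b : LaurentSeries k} (ha : a ∈ E)
    (hb : b ∈ E) (h1 : 0 ≤ P.ord (⟨a, ha⟩ : E)) (h2 : 0 ≤ P.ord (⟨b, hb⟩ : E)) :
    0 ≤ P.ord (⟨a * b, E.mul_mem ha hb⟩ : E) := by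
  have heq : (⟨a * b, E.mul_mem ha hb⟩ : E) = ⟨a, ha⟩ * ⟨b, hb⟩ := Subtype.ext (by simp)
  rw [heq, deuAnchor_ord_nonneg_iff_mem]
  exact mul_mem ((deuAnchor_ord_nonneg_iff_mem P _).mp h1)
    ((deuAnchor_ord_nonneg_iff_mem P _).mp h2)

theorem deuAnchor_ord_add_nonneg (P : Place k E) {a b : LaurentSeries k} (ha : a ∈ E)
    (hb : b ∈ E) (h1 : 0 ≤ P.ord (⟨a, ha⟩ : E)) (h2 : 0 ≤ P.ord (⟨b, hb⟩ : E)) :
    0 ≤ P.ord (⟨a + b, E.add_mem ha hb⟩ : E) := by
  have heq : (⟨a + b, E.add_mem ha hb⟩ : E) = ⟨a, ha⟩ + ⟨b, hb⟩ := Subtype.ext (by simp)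
  rw [heq, deuAnchor_ord_nonneg_iff_mem]
  exact add_mem ((deuAnchor_ord_nonneg_iff_mem P _).mp h1)
    ((deuAnchor_ord_nonneg_iff_mem P _).mp h2)

theorem deuAnchor_ord_algebraMap_nonneg (P : Place k E) (c : k) :
    0 ≤ P.ord (⟨algebraMap k (LaurentSeries k) c, E.algebraMap_mem c⟩ : E) := by
  have heq : (⟨algebraMap k (LaurentSeries k) c, E.algebraMap_mem c⟩ : E) = algebraMap k E c :=
    Subtype.ext rfl
  rw [heq, PlaceAux.ord_algebraMap]

/-- the functions regular outside `Qinf`, as a subalgebra of `k((q))` -/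
def deuAnchorB (Qinf : Place k E) : Subalgebra k (LaurentSeries k) where
  carrier := {y | ∃ h : y ∈ E, ∀ P : Place k E, P ≠ Qinf → 0 ≤ P.ord ⟨y, h⟩}
  mul_mem' := by
    rintro a b ⟨ha, ha'⟩ ⟨hb, hb'⟩
    exact ⟨E.mul_mem ha hb, fun P hP => deuAnchor_ord_mul_nonneg P ha hb (ha' P hP) (hb' P hP)⟩
  add_mem' := by
    rintro a b ⟨ha, ha'⟩ ⟨hb, hb'⟩
    exact ⟨E.add_mem ha hb, fun P hP => deuAnchor_ord_add_nonneg P ha hb (ha' P hP) (hb' P hP)⟩
  algebraMap_mem' := by
    intro c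
    exact ⟨E.algebraMap_mem c, fun P _ => deuAnchor_ord_algebraMap_nonneg P c⟩

theorem mem_deuAnchorB {Qinf : Place k E} {y : LaurentSeries k} :
    y ∈ deuAnchorB Qinf ↔ ∃ h : y ∈ E, ∀ P : Place k E, P ≠ Qinf → 0 ≤ P.ord ⟨y, h⟩ := Iff.rfl

/-- **DEU-bound, core.**  In the situation of `deuAnchor_regular`, if moreover every function
regular at all places is constant, then every element of `E` regular outside `Qinf` is integral
over `R₀`. -/
theorem deuAnchor_isIntegral_of_regular (Qinf : Place k E)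
    (hQ : ∀ x : E, x ≠ 0 → Qinf.ord x = (x : LaurentSeries k).order)
    (R₀ : Subalgebra k (LaurentSeries k))
    (h0 : ∀ x ∈ E, IsIntegral R₀ x → 0 ≤ x.order →
      x ∈ Set.range (algebraMap k (LaurentSeries k)))
    (w₀ : LaurentSeries k) (hw₀ : w₀ ∈ R₀) (hw₀E : w₀ ∈ E)
    (hw₀c : w₀ ∉ Set.range (algebraMap k (LaurentSeries k)))
    (halg : Algebra.IsAlgebraic (IntermediateField.adjoin k {(⟨w₀, hw₀E⟩ : E)}) E)
    (hconst : ∀ x : E, (∀ P : Place k E, 0 ≤ P.ord x) → x ∈ Set.range (algebraMap k E))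
    (x : LaurentSeries k) (hxE : x ∈ E)
    (hx : ∀ P : Place k E, P ≠ Qinf → 0 ≤ P.ord ⟨x, hxE⟩) : IsIntegral R₀ x := by
  have hw₀int : IsIntegral R₀ w₀ := isIntegral_algebraMap (R := R₀) (x := ⟨w₀, hw₀⟩)
  have h0B : ∀ y ∈ deuAnchorB Qinf, 0 ≤ y.order →
      y ∈ Set.range (algebraMap k (LaurentSeries k)) := by
    rintro y ⟨hyE, hy⟩ hord
    have hall : ∀ P : Place k E, 0 ≤ P.ord (⟨y, hyE⟩ : E) := by
      intro P
      by_cases hP : P = Qinf
      · rcases eq_or_ne (⟨y, hyE⟩ : E) 0 with h | h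
        · rw [h]; simp
        · rw [hP, hQ _ h]; exact hord
      · exact hy P hP
    obtain ⟨c, hc⟩ := hconst _ hall
    exact ⟨c, congrArg Subtype.val hc⟩
  have hw₀B : w₀ ∈ deuAnchorB Qinf :=
    ⟨hw₀E, fun P hP => deuAnchor_regular Qinf hQ R₀ h0 w₀ hw₀ hw₀E halg w₀ hw₀E hw₀int P hP⟩
  have hord_neg : w₀.order < 0 := by
    by_contra hnn
    rw [not_lt] at hnn
    exact hw₀c (h0 w₀ hw₀E hw₀int hnn)
  obtain ⟨n, hn⟩ : ∃ n : ℕ, w₀.order = -(n : ℤ) := ⟨(-w₀.order).toNat, by omega⟩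
  have hn1 : 1 ≤ n := by omega
  have hint := deuOrd_isIntegral (deuAnchorB Qinf) h0B w₀ hw₀B n hn1 hn x ⟨hxE, hx⟩
  exact deuAnchor_isIntegral_mono (Algebra.adjoin_le (by
    intro y hy
    rw [Set.mem_singleton_iff] at hy
    rw [hy]; exact hw₀)) hint

end Laurent

end Fermat.Agent.DEU
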