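import Fermat.Agent.ES.RiemannGeneric

/-!
# DEU — reduction of divisors by Deuring's dimension count: definitions

`F/K` and `Fb/k` are function fields (in the sense of the prelude's `Place`s), `R : RedData K F k Fb`
is a "constant reduction": a subring `O ⊆ F` (the valuation ring of a Gauss-type valuation of `F`
extending the valuation ring `A` of `K`) with a ring homomorphism `red : O → Fb` such that

* `A → k` is onto and `red` is compatible with it on constants;
* every `f ≠ 0` of `F` can be scaled by a constant into `O` with nonzero reduction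
  (the value group of the valuation of `F` is the value group of `A`);
* an element of `O` with nonzero reduction is a unit of `O`.

For a `K`-subspace `V ⊆ F` the reduction `R.redSpace V = {red f | f ∈ V ∩ O}` is a `k`-subspace
of `Fb` with `dim_k (R.redSpace V) ≤ dim_K V` (`finrank_redSpace_le`).
-/

set_option autoImplicit false

open AlgebraicCurve Module

namespace Fermat.Agent.DEU

variable (K F k Fb : Type*) [Field K] [Field F] [Algebra K F] [Field k] [Field Fb] [Algebra k Fb]

/-- A constant reduction of `F/K` to `Fb/k`. -/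
structure RedData where
  /-- the valuation ring of the constant field -/
  A : ValuationSubring K
  /-- the residue map on constants -/
  res : A →+* k
  res_surjective : Function.Surjective res
  /-- the integral elements of `F` -/
  O : Subring F
  /-- the reduction map -/
  red : O →+* Fb
  algebraMap_mem : ∀ a : A, algebraMap K F (a : K) ∈ O
  red_algebraMap : ∀ a : A,
    red ⟨algebraMap K F (a : K), algebraMap_mem a⟩ = algebraMap k Fb (res a)
  inv_mem : ∀ f : O, red f ≠ 0 → ((f : F))⁻¹ ∈ O
  exists_scale : ∀ f : F, f ≠ 0 →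
    ∃ c : K, c ≠ 0 ∧ ∃ h : algebraMap K F c * f ∈ O, red ⟨algebraMap K F c * f, h⟩ ≠ 0

variable {K F k Fb}

namespace RedData

variable (R : RedData K F k Fb)

/-- A constant of `A`, as an element of `O`. -/
def const (a : R.A) : R.O := ⟨algebraMap K F (a : K), R.algebraMap_mem a⟩

@[simp] theorem coe_const (a : R.A) : ((R.const a : R.O) : F) = algebraMap K F (a : K) := rfl

@[simp] theorem red_const (a : R.A) : R.red (R.const a) = algebraMap k Fb (R.res a) :=
  R.red_algebraMap a

/-- The inverse of an element with nonzero reduction. -/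
def inv (f : R.O) (hf : R.red f ≠ 0) : R.O := ⟨((f : F))⁻¹, R.inv_mem f hf⟩

@[simp] theorem coe_inv (f : R.O) (hf : R.red f ≠ 0) : ((R.inv f hf : R.O) : F) = ((f : F))⁻¹ :=
  rfl

theorem coe_ne_zero_of_red_ne_zero {f : R.O} (hf : R.red f ≠ 0) : (f : F) ≠ 0 := by
  intro h
  apply hf
  have : f = 0 := Subtype.ext h
  rw [this, map_zero]

theorem mul_inv_cancel (f : R.O) (hf : R.red f ≠ 0) : f * R.inv f hf = 1 := by
  apply Subtype.ext
  rw [Subring.coe_mul, coe_inv, Subring.coe_one]
  exact mul_inv_cancel₀ (R.coe_ne_zero_of_red_ne_zero hf)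

theorem red_inv (f : R.O) (hf : R.red f ≠ 0) : R.red (R.inv f hf) = (R.red f)⁻¹ := by
  have h := congrArg R.red (R.mul_inv_cancel f hf)
  rw [map_mul, map_one] at h
  exact eq_inv_of_mul_eq_one_right h

/-- The reduction of a `K`-subspace of `F`. -/
def redSpace (V : Submodule K F) : Submodule k Fb where
  carrier := {w | ∃ f : R.O, (f : F) ∈ V ∧ R.red f = w}
  zero_mem' := ⟨0, by simp, map_zero _⟩
  add_mem' := by
    rintro _ _ ⟨f, hf, rfl⟩ ⟨g, hg, rfl⟩
    exact ⟨f + g, by rw [Subring.coe_add]; exact V.add_mem hf hg, map_add _ _ _⟩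
  smul_mem' := by
    rintro c _ ⟨f, hf, rfl⟩
    obtain ⟨a, rfl⟩ := R.res_surjective c
    refine ⟨R.const a * f, ?_, ?_⟩
    · rw [Subring.coe_mul, coe_const, ← Algebra.smul_def]
      exact V.smul_mem _ hf
    · rw [map_mul, red_const, Algebra.smul_def]

theorem mem_redSpace {V : Submodule K F} {w : Fb} :
    w ∈ R.redSpace V ↔ ∃ f : R.O, (f : F) ∈ V ∧ R.red f = w := Iff.rfl

theorem red_mem_redSpace {V : Submodule K F} (f : R.O) (hf : (f : F) ∈ V) :
    R.red f ∈ R.redSpace V := ⟨f, hf, rfl⟩

theorem redSpace_mono {V W : Submodule K F} (h : V ≤ W) : R.redSpace V ≤ R.redSpace W := by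
  rintro _ ⟨f, hf, rfl⟩
  exact ⟨f, h hf, rfl⟩

theorem redSpace_ne_bot {V : Submodule K F} (hV : V ≠ ⊥) : R.redSpace V ≠ ⊥ := by
  obtain ⟨f, hfV, hf0⟩ := (Submodule.ne_bot_iff V).mp hV
  obtain ⟨c, -, h, hred⟩ := R.exists_scale f hf0
  intro hbot
  have hmem : R.red ⟨algebraMap K F c * f, h⟩ ∈ R.redSpace V := by
    refine R.red_mem_redSpace _ ?_
    show algebraMap K F c * f ∈ V
    rw [← Algebra.smul_def]
    exact V.smul_mem _ hfV
  rw [hbot, Submodule.mem_bot] at hmem
  exact hred hmem

end RedData

end Fermat.Agent.DEU
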