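import Fermat.Agent.ES.RiemannGeneric

/-!
# DEU — the divisor of a finite-dimensional space of functions

`F/K` a function field in the prelude's language, all places of degree one
(`hres`), principal divisors of degree `0`.  For a nonzero finite-dimensional `K`-subspace
`M ⊆ F` there is a LEAST divisor `D` with `M ≤ L(D)` (`exists_isLeast_bound`), written `dv M`;
at every place its coefficient is attained (`exists_ord_eq_neg_dv`), hence
`dv M + dv M' ≤ dv M''` whenever `M · M' ⊆ M''` (`dv_add_le`) and `dv (h • M) = dv M - div h`.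
-/

set_option autoImplicit false

open AlgebraicCurve Module

namespace Fermat.Agent.DEU

open Fermat.Agent.ES.R

variable {K F : Type*} [Field K] [Field F] [Algebra K F]

/-! ### Degrees and order -/

theorem dv_eq_zero_of_nonneg_of_degree_le
    (hres : ∀ v : Place K F, Function.Bijective (algebraMap K v.ResidueField))
    {E : Divisor K F} (h0 : 0 ≤ E) (hdeg : Divisor.degree E ≤ 0) : E = 0 := by
  classical
  rw [degree_eq_sum] at hdeg
  have hnn : ∀ v ∈ E.support, 0 ≤ E v * (v.deg : ℤ) := by
    intro v _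
    have : 0 ≤ E v := by simpa using Finsupp.le_def.mp h0 v
    positivity
  have hsum : E.sum (fun v n => n * (v.deg : ℤ)) = 0 :=
    le_antisymm hdeg (Finset.sum_nonneg hnn)
  have hall := (Finset.sum_eq_zero_iff_of_nonneg hnn).mp hsum
  ext v
  by_cases hv : v ∈ E.support
  · have h1 := hall v hv
    rw [place_deg_eq_one v (hres v)] at h1
    simpa using h1
  · simpa using Finsupp.notMem_support_iff.mp hv

/-- `X ≤ D` and `deg D ≤ deg X` force `X = D`. -/
theorem dv_eq_of_le_of_degree_le
    (hres : ∀ v : Place K F, Function.Bijective (algebraMap K v.ResidueField))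
    {X D : Divisor K F} (h : X ≤ D) (hdeg : Divisor.degree D ≤ Divisor.degree X) : X = D := by
  have h1 : D - X = 0 := by
    refine dv_eq_zero_of_nonneg_of_degree_le hres (sub_nonneg.mpr h) ?_
    rw [map_sub]
    linarith
  exact (sub_eq_zero.mp h1).symm

/-! ### Bounds of a subspace -/

/-- The divisors `D` with `M ≤ L(D)`. -/
def bounds (M : Submodule K F) : Set (Divisor K F) := {D | M ≤ riemannRochSpace D}

theorem mem_bounds {M : Submodule K F} {D : Divisor K F} :
    D ∈ bounds M ↔ M ≤ riemannRochSpace D := Iff.rfl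

theorem rr_inf_le (D D' : Divisor K F) :
    riemannRochSpace D ⊓ riemannRochSpace D' ≤ riemannRochSpace (D ⊓ D') := by
  rintro f ⟨hf, hf'⟩
  rw [SetLike.mem_coe, mem_riemannRochSpace_iff] at hf hf'
  rw [mem_riemannRochSpace_iff]
  intro v
  rcases hf v with h0 | h1
  · exact Or.inl h0
  rcases hf' v with h0 | h2
  · exact Or.inl h0
  right
  rw [Finsupp.inf_apply]
  rcases inf_le_iff.mp (le_refl (D v ⊓ D' v)) with h | h
  · linarith
  · linarith

theorem inf_mem_bounds {M : Submodule K F} {D D' : Divisor K F} (h : D ∈ bounds M)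
    (h' : D' ∈ bounds M) : D ⊓ D' ∈ bounds M :=
  (le_inf h h').trans (rr_inf_le D D')

theorem bounds_mono {M : Submodule K F} {D D' : Divisor K F} (h : D ∈ bounds M)
    (hle : D ≤ D') : D' ∈ bounds M :=
  h.trans (rr_mono hle)

/-- A function lies in `L(D)` for some `D`. -/
theorem exists_mem_rr [HasPrincipalDivisors K F] (f : F) : ∃ D : Divisor K F,
    f ∈ riemannRochSpace D := by
  rcases eq_or_ne f 0 with rfl | hf
  · exact ⟨0, zero_mem _⟩
  obtain ⟨Z, hZ, -⟩ := HasPrincipalDivisors.exists_divisor (K := K) f hf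
  refine ⟨-Z, ?_⟩
  rw [mem_riemannRochSpace_iff]
  intro v
  right
  rw [Finsupp.neg_apply, neg_neg, hZ v]

theorem exists_bound_span [HasPrincipalDivisors K F] (s : Finset F) :
    ∃ D : Divisor K F, Submodule.span K (s : Set F) ≤ riemannRochSpace D := by
  classical
  induction s using Finset.induction_on with
  | empty => exact ⟨0, by simp⟩
  | insert a s _ ih =>
    obtain ⟨D, hD⟩ := ih
    obtain ⟨D', hD'⟩ := exists_mem_rr (K := K) a
    refine ⟨D ⊔ D', ?_⟩
    rw [Finset.coe_insert, Submodule.span_insert, sup_le_iff]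
    constructor
    · rw [Submodule.span_singleton_le_iff_mem]
      exact rr_mono le_sup_right hD'
    · exact hD.trans (rr_mono le_sup_left)

theorem bounds_nonempty [HasPrincipalDivisors K F] (M : Submodule K F) [Module.Finite K M] :
    (bounds M).Nonempty := by
  obtain ⟨s, hs⟩ := (Submodule.fg_iff_finiteDimensional M).mpr inferInstance
  obtain ⟨D, hD⟩ := exists_bound_span (K := K) s
  exact ⟨D, by rw [mem_bounds, ← hs]; exact hD⟩

theorem degree_nonneg_of_mem_bounds [HasPrincipalDivisors K F] {M : Submodule K F} (hM : M ≠ ⊥)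
    {D : Divisor K F} (hD : D ∈ bounds M) : 0 ≤ Divisor.degree D := by
  by_contra hneg
  push Not at hneg
  apply hM
  rw [eq_bot_iff]
  exact (mem_bounds.mp hD).trans (le_of_eq (rr_eq_bot_of_degree_neg hneg))

/-- **The least bound exists.** -/
theorem exists_isLeast_bound [HasPrincipalDivisors K F]
    (hres : ∀ v : Place K F, Function.Bijective (algebraMap K v.ResidueField))
    (M : Submodule K F) (hM : M ≠ ⊥) [Module.Finite K M] :
    ∃ D : Divisor K F, IsLeast (bounds M) D := by
  classical
  -- a bound of minimal degree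
  have hne : ∃ n : ℕ, ∃ D ∈ bounds M, Divisor.degree D = n := by
    obtain ⟨D, hD⟩ := bounds_nonempty M
    exact ⟨(Divisor.degree D).toNat, D, hD,
      (Int.toNat_of_nonneg (degree_nonneg_of_mem_bounds hM hD)).symm⟩
  obtain ⟨D, hD, hdeg⟩ := Nat.find_spec hne
  refine ⟨D, hD, fun D' hD' => ?_⟩
  have hinf := inf_mem_bounds hD hD'
  have h1 : Divisor.degree D ≤ Divisor.degree (D ⊓ D') := by
    have h0 := degree_nonneg_of_mem_bounds hM hinf
    by_contra hlt
    push Not at hlt
    have hmem : ∃ D'' ∈ bounds M, Divisor.degree D'' = ((Divisor.degree (D ⊓ D')).toNat : ℕ) :=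
      ⟨D ⊓ D', hinf, (Int.toNat_of_nonneg h0).symm⟩
    have := Nat.find_min' hne hmem
    have h2 : (Nat.find hne : ℤ) ≤ ((Divisor.degree (D ⊓ D')).toNat : ℤ) := by exact_mod_cast this
    rw [Int.toNat_of_nonneg h0, ← hdeg] at h2
    linarith
  have h2 : D ⊓ D' = D := dv_eq_of_le_of_degree_le hres inf_le_left h1
  rw [← h2]
  exact inf_le_right

/-- The least divisor `D` with `M ≤ L(D)` (`0` if there is none). -/
noncomputable def dv (M : Submodule K F) : Divisor K F :=
  open Classical in if h : ∃ D : Divisor K F, IsLeast (bounds M) D then h.choose else 0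

theorem dv_isLeast [HasPrincipalDivisors K F]
    (hres : ∀ v : Place K F, Function.Bijective (algebraMap K v.ResidueField))
    (M : Submodule K F) (hM : M ≠ ⊥) [Module.Finite K M] : IsLeast (bounds M) (dv M) := by
  have h := exists_isLeast_bound hres M hM
  rw [dv, dif_pos h]
  exact h.choose_spec

theorem le_rr_dv [HasPrincipalDivisors K F]
    (hres : ∀ v : Place K F, Function.Bijective (algebraMap K v.ResidueField))
    (M : Submodule K F) (hM : M ≠ ⊥) [Module.Finite K M] : M ≤ riemannRochSpace (dv M) :=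
  (dv_isLeast hres M hM).1

theorem dv_le_of_le_rr [HasPrincipalDivisors K F]
    (hres : ∀ v : Place K F, Function.Bijective (algebraMap K v.ResidueField))
    (M : Submodule K F) (hM : M ≠ ⊥) [Module.Finite K M] {D : Divisor K F}
    (hD : M ≤ riemannRochSpace D) : dv M ≤ D :=
  (dv_isLeast hres M hM).2 hD

theorem dv_eq_of_isLeast {M : Submodule K F} {D : Divisor K F} (hD : IsLeast (bounds M) D) :
    dv M = D := by
  have h : ∃ D : Divisor K F, IsLeast (bounds M) D := ⟨D, hD⟩
  rw [dv, dif_pos h]
  exact h.choose_spec.unique hD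

theorem degree_dv_nonneg [HasPrincipalDivisors K F]
    (hres : ∀ v : Place K F, Function.Bijective (algebraMap K v.ResidueField))
    (M : Submodule K F) (hM : M ≠ ⊥) [Module.Finite K M] : 0 ≤ Divisor.degree (dv M) :=
  degree_nonneg_of_mem_bounds hM (dv_isLeast hres M hM).1

theorem dv_mono [HasPrincipalDivisors K F]
    (hres : ∀ v : Place K F, Function.Bijective (algebraMap K v.ResidueField))
    {M M' : Submodule K F} (hM : M ≠ ⊥) [Module.Finite K M] (hM' : M' ≠ ⊥)
    [Module.Finite K M'] (h : M ≤ M') : dv M ≤ dv M' :=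
  dv_le_of_le_rr hres M hM (h.trans (le_rr_dv hres M' hM'))

/-! ### The coefficient is attained -/

theorem exists_ord_eq_neg_of_isLeast {M : Submodule K F} {D : Divisor K F}
    (hD : IsLeast (bounds M) D) (Q : Place K F) :
    ∃ w ∈ M, w ≠ 0 ∧ Q.ord w = -D Q := by
  classical
  by_contra hcon
  push Not at hcon
  have hb : D - Finsupp.single Q 1 ∈ bounds M := by
    intro w hw
    have hwD := hD.1 hw
    rw [mem_riemannRochSpace_iff] at hwD ⊢
    intro v
    rcases eq_or_ne w 0 with rfl | hw0
    · exact Or.inl rfl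
    right
    have h1 := (hwD v).resolve_left hw0
    rw [Finsupp.sub_apply]
    by_cases hv : v = Q
    · subst hv
      rw [Finsupp.single_eq_same]
      have h2 := hcon w hw hw0
      omega
    · rw [Finsupp.single_eq_of_ne hv]
      linarith
  have h3 := hD.2 hb
  have h4 := Finsupp.le_def.mp h3 Q
  rw [Finsupp.sub_apply, Finsupp.single_eq_same] at h4
  linarith

theorem exists_ord_eq_neg_dv [HasPrincipalDivisors K F]
    (hres : ∀ v : Place K F, Function.Bijective (algebraMap K v.ResidueField))
    (M : Submodule K F) (hM : M ≠ ⊥) [Module.Finite K M] (Q : Place K F) :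
    ∃ w ∈ M, w ≠ 0 ∧ Q.ord w = -(dv M) Q :=
  exists_ord_eq_neg_of_isLeast (dv_isLeast hres M hM) Q

/-- If `M · M' ⊆ M''` then `dv M + dv M' ≤ dv M''`. -/
theorem dv_add_le [HasPrincipalDivisors K F]
    (hres : ∀ v : Place K F, Function.Bijective (algebraMap K v.ResidueField))
    {M M' M'' : Submodule K F} (hM : M ≠ ⊥) [Module.Finite K M] (hM' : M' ≠ ⊥)
    [Module.Finite K M'] (hM'' : M'' ≠ ⊥) [Module.Finite K M'']
    (hmul : ∀ w ∈ M, ∀ w' ∈ M', w * w' ∈ M'') : dv M + dv M' ≤ dv M'' := by
  rw [Finsupp.le_def]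
  intro Q
  obtain ⟨w, hw, hw0, hwQ⟩ := exists_ord_eq_neg_dv hres M hM Q
  obtain ⟨w', hw', hw'0, hw'Q⟩ := exists_ord_eq_neg_dv hres M' hM' Q
  have h1 := le_rr_dv hres M'' hM'' (hmul w hw w' hw')
  rw [mem_riemannRochSpace_iff] at h1
  have h2 := (h1 Q).resolve_left (mul_ne_zero hw0 hw'0)
  rw [Q.ord_mul hw0 hw'0, hwQ, hw'Q] at h2
  rw [Finsupp.add_apply]
  linarith

end Fermat.Agent.DEU
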