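import Fermat.Agent.DEU.Equiv
import Fermat.Agent.DEU.Inst
import Fermat.Agent.PR.Frob

/-!
# DEU / ModPR, piece MPR-eq: equivariance of the reduction of places of `F_N`

`R = deuInst_redData N A hRedF` the constant reduction of `F = F_N / ℚ̄` at `A` (to
`F̄ = F_{N,k}`, `k = kA A`), `r : Place ℚ̄ F → Place k F̄` canonical in large degree
(`hleast`, the 4th clause of `Hyp.exists_reduction`).

* `deuEqMod_mem_O_iff`, `deuEqMod_red_smul` : the decomposition group preserves `R.O` and
  `red (σ f) = σ̄ (red f)`;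
* `deuEqMod_r_decomposition` : `r (σ • P) = σ̄ • r P` for `σ` in the decomposition group of `A`;
* `deuEqMod_r_inertia` : `r (σ • P) = r P` for `σ` in the inertia group;
* `deuEqMod_r_frobenius` : `r (φ • P) = Fr • r P` for a Frobenius element `φ`;
* `deuEqMod_mapDomain_smul`, `deuEqMod_mapDomain_principal` : `mapDomain (τ • ·)` is the action of
  `τ` on divisors, and it preserves principal divisors;
* `deuEqMod_mapDomain_r_smul` : `r_* (σ • D) = σ̄ • r_* D` on divisors.
-/

set_option autoImplicit false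
set_option synthInstance.maxHeartbeats 400000
set_option maxHeartbeats 1000000

noncomputable section

namespace Fermat.Agent.DEU

open ModularCurve AlgebraicCurve Module Fermat.Agent.ES Fermat.Agent.S24 Fermat.Agent.ES.M
  Fermat.Agent.ES.R Fermat.Agent.PR

/-! ### Generic: the action on divisors -/

section Generic

variable {K F : Type*} [Field K] [Field F] [Algebra K F]

theorem deuEqMod_mapDomain_smul (τ : SemilinearAut K F) (D : Divisor K F) :
    Finsupp.mapDomain (fun Q : Place K F => τ • Q) D = τ • D := rfl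

theorem deuEqMod_mapDomain_principal (τ : SemilinearAut K F) {D : Divisor K F}
    (hD : D ∈ Divisor.principal (K := K) (F := F)) :
    Finsupp.mapDomain (fun Q : Place K F => τ • Q) D ∈ Divisor.principal (K := K) (F := F) :=
  SemilinearAut.smul_mem_principal τ hD

/-- explicit form: the image of `div f` is `div (τ f)` -/
theorem deuEqMod_mapDomain_div (τ : SemilinearAut K F) {D : Divisor K F} {f : F}
    (hD : ∀ v : Place K F, D v = v.ord f) (w : Place K F) :
    Finsupp.mapDomain (fun Q : Place K F => τ • Q) D w = w.ord (τ • f) := by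
  rw [deuEqMod_mapDomain_smul, SemilinearAut.divisor_smul_apply, hD (τ⁻¹ • w)]
  have h := SemilinearAut.ord_smul τ (τ⁻¹ • w) f
  rw [smul_inv_smul] at h
  exact h.symm

variable {k Fb : Type*} [Field k] [Field Fb] [Algebra k Fb]

/-- equivariance of `r` on places gives equivariance of `r_*` on divisors -/
theorem deuEqMod_mapDomain_r_smul_of (σ : SemilinearAut K F) (τ : SemilinearAut k Fb)
    (r : Place K F → Place k Fb) (h : ∀ P : Place K F, r (σ • P) = τ • r P) (D : Divisor K F) :
    Finsupp.mapDomain r (σ • D) = τ • Finsupp.mapDomain r D := by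
  rw [SemilinearAut.divisor_smul_def, SemilinearAut.divisor_smul_def,
    ← Finsupp.mapDomain_comp, ← Finsupp.mapDomain_comp]
  congr 1
  funext P
  exact h P

end Generic

/-! ### The decomposition group and the constant reduction of `F_N` -/

variable (N : ℕ) [NeZero N] (A : ValuationSubring Kb) (hRedF : StmtRedF N A)

omit [NeZero N] in
theorem deuEqMod_gaussInt_smul_iff (σ : Kb ≃ₐ[ℚ] Kb) (hσ : σ ∈ A.decompositionSubgroup ℚ)
    (f : FF N) :
    GaussInt N A f ↔ GaussInt N A (arithmeticGalois (modularFunctionFieldFull N) σ • f) := by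
  constructor
  · exact pr_gaussInt_smul N A σ hσ
  · intro h
    have hσ' : σ⁻¹ ∈ A.decompositionSubgroup ℚ := inv_mem hσ
    have h1 := pr_gaussInt_smul N A σ⁻¹ hσ' h
    rwa [map_inv, inv_smul_smul] at h1

/-- the decomposition group preserves the Gauss-integral elements -/
theorem deuEqMod_mem_O_iff (σ : Kb ≃ₐ[ℚ] Kb) (hσ : σ ∈ A.decompositionSubgroup ℚ) (f : FF N) :
    f ∈ (deuInst_redData N A hRedF).O ↔
      arithmeticGalois (modularFunctionFieldFull N) σ • f ∈ (deuInst_redData N A hRedF).O :=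
  deuEqMod_gaussInt_smul_iff N A σ hσ f

/-- `red (σ f) = σ̄ (red f)` for `σ` in the decomposition group -/
theorem deuEqMod_red_smul (σ : Kb ≃ₐ[ℚ] Kb) (hσ : σ ∈ A.decompositionSubgroup ℚ)
    (f : (deuInst_redData N A hRedF).O)
    (h : arithmeticGalois (modularFunctionFieldFull N) σ • (f : FF N) ∈
      (deuInst_redData N A hRedF).O) :
    (deuInst_redData N A hRedF).red ⟨arithmeticGalois (modularFunctionFieldFull N) σ • (f : FF N), h⟩
      = prSemilinear N (prResAut σ hσ) • (deuInst_redData N A hRedF).red f := by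
  have h1 : GaussRed N A (f : FF N)
      (((deuInst_redData N A hRedF).red f : ↥(modularFunctionFieldFullC (kA A) N)) :
        LaurentSeries (kA A)) :=
    (deuInst_red_iff N A hRedF (f : FF N) _).mpr ⟨f.2, rfl⟩
  have h2 := pr_gaussRed_prSemilinear N A σ hσ h1
  obtain ⟨h', h3⟩ := (deuInst_red_iff N A hRedF _ _).mp h2
  exact Subtype.ext h3

variable (hresF : ∀ v : Place Kb (FF N), Function.Bijective (algebraMap Kb v.ResidueField))
  (d₀ : ℤ) (r : Place Kb (FF N) → Place (kA A) ↥(modularFunctionFieldFullC (kA A) N))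
  (hleast : ∀ D : Divisor Kb (FF N), d₀ ≤ Divisor.degree D →
    IsLeast (bounds ((deuInst_redData N A hRedF).redSpace (riemannRochSpace D)))
      (Finsupp.mapDomain r D))

include hresF hleast in
/-- **MPR-eq, decomposition group**: `r (σ • P) = σ̄ • r P`. -/
theorem deuEqMod_r_decomposition (σ : Kb ≃ₐ[ℚ] Kb) (hσ : σ ∈ A.decompositionSubgroup ℚ)
    (P : Place Kb (FF N)) :
    r (arithmeticGalois (modularFunctionFieldFull N) σ • P)
      = prSemilinear N (prResAut σ hσ) • r P :=
  r_smul_of_isLeast (deuInst_redData N A hRedF) (arithmeticGalois (modularFunctionFieldFull N) σ)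
    (prSemilinear N (prResAut σ hσ)) (deuEqMod_mem_O_iff N A hRedF σ hσ)
    (deuEqMod_red_smul N A hRedF σ hσ) hresF d₀ r hleast P

include hresF hleast in
/-- **MPR-eq, inertia**: `r (σ • P) = r P`. -/
theorem deuEqMod_r_inertia (σ : Kb ≃ₐ[ℚ] Kb) (hσ : σ ∈ A.inertiaSubgroupIn ℚ)
    (P : Place Kb (FF N)) :
    r (arithmeticGalois (modularFunctionFieldFull N) σ • P) = r P := by
  have h := deuEqMod_r_decomposition N A hRedF hresF d₀ r hleast σ
    (kron_mem_decomposition_of_mem_inertia hσ) P
  rw [prSemilinear_inertia N A σ hσ, one_smul] at h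
  exact h

include hresF hleast in
/-- **MPR-eq, Frobenius**: `r (φ • P) = Fr • r P`. -/
theorem deuEqMod_r_frobenius {ℓ : ℕ} (hℓ : ℓ.Prime) (hA : A.LiesOverPrime ℓ)
    (φ : Kb ≃ₐ[ℚ] Kb) (hφ : A.IsFrobeniusAt φ ℓ) (P : Place Kb (FF N)) :
    r (arithmeticGalois (modularFunctionFieldFull N) φ • P) = prFrobA N A hℓ hA • r P := by
  rw [prFrobA_eq_prSemilinear N A hℓ hA φ hφ]
  exact deuEqMod_r_decomposition N A hRedF hresF d₀ r hleast φ hφ.mem_decompositionSubgroup P

include hresF hleast in
/-- on divisors: `r_* (σ • D) = σ̄ • r_* D` -/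
theorem deuEqMod_mapDomain_r_smul (σ : Kb ≃ₐ[ℚ] Kb) (hσ : σ ∈ A.decompositionSubgroup ℚ)
    (D : Divisor Kb (FF N)) :
    Finsupp.mapDomain r (arithmeticGalois (modularFunctionFieldFull N) σ • D)
      = prSemilinear N (prResAut σ hσ) • Finsupp.mapDomain r D :=
  deuEqMod_mapDomain_r_smul_of _ _ r
    (deuEqMod_r_decomposition N A hRedF hresF d₀ r hleast σ hσ) D

include hresF hleast in
theorem deuEqMod_mapDomain_r_inertia (σ : Kb ≃ₐ[ℚ] Kb) (hσ : σ ∈ A.inertiaSubgroupIn ℚ)
    (D : Divisor Kb (FF N)) :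
    Finsupp.mapDomain r (arithmeticGalois (modularFunctionFieldFull N) σ • D)
      = Finsupp.mapDomain r D := by
  have h := deuEqMod_mapDomain_r_smul_of (arithmeticGalois (modularFunctionFieldFull N) σ)
    (1 : SemilinearAut (kA A) ↥(modularFunctionFieldFullC (kA A) N)) r
    (fun P => by rw [one_smul]; exact deuEqMod_r_inertia N A hRedF hresF d₀ r hleast σ hσ P) D
  rwa [one_smul] at h

include hresF hleast in
theorem deuEqMod_mapDomain_r_frobenius {ℓ : ℕ} (hℓ : ℓ.Prime) (hA : A.LiesOverPrime ℓ)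
    (φ : Kb ≃ₐ[ℚ] Kb) (hφ : A.IsFrobeniusAt φ ℓ) (D : Divisor Kb (FF N)) :
    Finsupp.mapDomain r (arithmeticGalois (modularFunctionFieldFull N) φ • D)
      = prFrobA N A hℓ hA • Finsupp.mapDomain r D :=
  deuEqMod_mapDomain_r_smul_of _ _ r
    (deuEqMod_r_frobenius N A hRedF hresF d₀ r hleast hℓ hA φ hφ) D

end Fermat.Agent.DEU
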