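import Fermat.Agent.S24.PlacesCore
import Fermat.Agent.S24.PolyClosure

/-!
# DEU / MPR-res, step 4: the fundamental identity for a SEPARATING element, any characteristic

`S24/PolyClosure.lean` proves `Σ_{v, ord_v x > 0} ord_v x = [F : K(x)]` in characteristic `0`.  The
only use of the characteristic is the separability of `F / K(x)`.  Here the same with
`[Algebra.IsSeparable K⟮x⟯ F]` as a hypothesis.
-/

set_option autoImplicit false
set_option linter.style.haveILetI false

open AlgebraicCurve IntermediateField Polynomial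

namespace Fermat.Agent.DEU

open Fermat.Agent.S24

variable {K F : Type*} [Field K] [Field F] [Algebra K F]

theorem resFund_intClosure_facts (x : F) (hx : Transcendental K x) [FiniteDimensional K⟮x⟯ F]
    [Algebra.IsSeparable K⟮x⟯ F] :
    letI := polyAlgebra (K := K) x
    IsDedekindDomain (intClosure (K := K) x) ∧ IsFractionRing (intClosure (K := K) x) F ∧
      Module.Finite K[X] (intClosure (K := K) x) := by
  letI := polyAlgebra (K := K) x
  letI := polyAlgebraAdjoin (K := K) x
  haveI := polyAlgebraAdjoin_tower (K := K) x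
  haveI := polyAlgebraAdjoin_isFractionRing (K := K) x hx
  refine ⟨?_, ?_, ?_⟩
  · exact integralClosure.isDedekindDomain K[X] K⟮x⟯ F
  · exact integralClosure.isFractionRing_of_finite_extension K⟮x⟯ F
  · exact IsIntegralClosure.finite K[X] K⟮x⟯ F (integralClosure K[X] F)

theorem resFund_sum_ramificationIdx_eq_finrank [IsAlgClosed K] (x : F) (hx : Transcendental K x)
    [FiniteDimensional K⟮x⟯ F] [Algebra.IsSeparable K⟮x⟯ F] :
    letI := polyAlgebra (K := K) x
    ∃ (_ : Fintype ((Ideal.span {(X : K[X])}).primesOver (intClosure (K := K) x))),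
      ∑ P : (Ideal.span {(X : K[X])}).primesOver (intClosure (K := K) x),
        P.1.ramificationIdx K[X] = Module.finrank K⟮x⟯ F := by
  letI := polyAlgebra (K := K) x
  letI := polyAlgebraAdjoin (K := K) x
  haveI := polyAlgebraAdjoin_tower (K := K) x
  haveI := polyAlgebraAdjoin_isFractionRing (K := K) x hx
  obtain ⟨hD, hF, hfin⟩ := resFund_intClosure_facts (K := K) x hx
  haveI := hD
  haveI := hF
  haveI := hfin
  haveI hpmax : (Ideal.span {(X : K[X])}).IsMaximal :=
    PrincipalIdealRing.isMaximal_of_irreducible Polynomial.irreducible_X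
  let ft : Fintype ((Ideal.span {(X : K[X])}).primesOver (intClosure (K := K) x)) :=
    (Algebra.QuasiFinite.finite_primesOver _).fintype
  refine ⟨ft, ?_⟩
  haveI hTF : Module.IsTorsionFree K[X] F :=
    Module.isTorsionFree_iff_algebraMap_injective.mpr
      (fun p q hpq => (transcendental_iff_injective.mp hx) hpq)
  haveI hTB : Module.IsTorsionFree K[X] (intClosure (K := K) x) :=
    IsIntegralClosure.isTorsionFree K[X] F
  haveI hflat : Module.Flat K[X] (intClosure (K := K) x) :=
    (IsDedekindDomain.flat_iff_torsion_eq_bot).mpr (Submodule.isTorsionFree_iff_torsion_eq_bot.mp hTB)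
  have key := Ideal.sum_ramification_inertia_eq_finrank (Ideal.span {(X : K[X])})
    (intClosure (K := K) x)
  rw [IsFractionRing.finrank_eq K[X] K⟮x⟯ (intClosure (K := K) x) F, ← key]
  refine Finset.sum_congr rfl fun P _ => ?_
  haveI : P.1.IsPrime := P.2.1
  haveI : P.1.LiesOver (Ideal.span {(X : K[X])}) := P.2.2
  haveI : P.1.IsMaximal := Ideal.IsMaximal.of_liesOver_isMaximal P.1 (Ideal.span {(X : K[X])})
  rw [Ideal.inertiaDeg_eq_of_isMaximal (Ideal.span {(X : K[X])}) P.1]
  have e : K ≃+* (K[X] ⧸ Ideal.span {(X : K[X])}) :=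
    ((Polynomial.quotientSpanXSubCAlgEquiv (0 : K)).symm.toRingEquiv).trans
      (Ideal.quotEquivOfEq (by rw [map_zero, sub_zero]))
  have h1 : Module.finrank (K[X] ⧸ Ideal.span {(X : K[X])}) ((intClosure (K := K) x) ⧸ P.1) = 1 :=
    polyClosure_finrank_eq_one (k' := K[X] ⧸ Ideal.span {(X : K[X])})
      (L := (intClosure (K := K) x) ⧸ P.1)
      ((Ideal.Quotient.maximal_ideal_iff_isField_quotient _).mp hpmax) e
  rw [h1, mul_one]

/-- The sum of the orders of a separating element `x` over the places where `x` vanishes is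
`[F : K(x)]` (any characteristic). -/
theorem resFund_sum_ord_eq_finrank [IsAlgClosed K] (x : F) (hx : Transcendental K x)
    [FiniteDimensional K⟮x⟯ F] [Algebra.IsSeparable K⟮x⟯ F] :
    ∃ V : Finset (Place K F), (∀ v, v ∈ V ↔ 0 < v.ord x) ∧
      ∑ v ∈ V, v.ord x = (Module.finrank K⟮x⟯ F : ℤ) :=
  sum_ord_eq_finrank_of x hx (resFund_intClosure_facts x hx)
    (resFund_sum_ramificationIdx_eq_finrank x hx)

/-- Approximation among the zeros of a separating element. -/
theorem resFund_exists_ord_neg (x : F) (hx : Transcendental K x) [FiniteDimensional K⟮x⟯ F]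
    [Algebra.IsSeparable K⟮x⟯ F]
    (v : Place K F) (S : Finset (Place K F)) (hvx : 0 < v.ord x) (hv : v ∉ S)
    (hS : ∀ u ∈ S, 0 < u.ord x) :
    ∃ h : F, v.ord h < 0 ∧ ∀ u ∈ S, 0 ≤ u.ord h :=
  exists_ord_neg_of x (resFund_intClosure_facts x hx) v S hvx hv hS

end Fermat.Agent.DEU
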