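import Fermat.Agent.DEU.ResSep

/-!
# DEU / MPR-res, step 1 (main): MacLane's criterion

`k` perfect of characteristic `p`, `k ⊂ F ⊂ E`, `z ∈ F` not a `p`-th power in `E`, `F` algebraic
over `k(z)`: then `F / k(z)` is separable.
-/

set_option autoImplicit false
set_option linter.unusedSectionVars false
set_option linter.style.haveILetI false

open Polynomial IntermediateField

namespace Fermat.Agent.DEU

variable {k E : Type*} [Field k] [Field E] [Algebra k E] (p : ℕ) [Fact p.Prime] [CharP k p]
  [PerfectRing k p]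

theorem resSep_isSeparable (F : IntermediateField k E) (z : F) (hz : ∀ w : E, w ^ p ≠ (z : E))
    [Algebra.IsAlgebraic k⟮z⟯ F] : Algebra.IsSeparable k⟮z⟯ F := by
  classical
  have hp : p.Prime := Fact.out
  haveI : CharP E p := charP_of_injective_algebraMap (algebraMap k E).injective p
  haveI : CharP F p := charP_of_injective_algebraMap (algebraMap k F).injective p
  haveI : CharP k⟮z⟯ p := charP_of_injective_algebraMap (algebraMap k k⟮z⟯).injective p
  refine ⟨fun w => ?_⟩
  have hint : IsIntegral k⟮z⟯ w := (Algebra.IsAlgebraic.isAlgebraic w).isIntegral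
  have hirr := minpoly.irreducible hint
  rcases Polynomial.separable_or p hirr with h | ⟨-, g, hg, hgf⟩
  · exact h
  exfalso
  have h0 : aeval (w ^ p) g = 0 := by rw [← expand_aeval, hgf, minpoly.aeval]
  have hdec : ∀ n, ResSepT (k := k) p z ((g.coeff n : k⟮z⟯) : F) :=
    fun n => resSep_decomp (g.coeff n).2
  choose a ha hag using hdec
  let hpoly : Fin p → (k⟮z⟯)[X] :=
    fun i => ∑ n ∈ g.support, C (⟨a n i, ha n i⟩ : k⟮z⟯) * X ^ n
  have haev : ∀ i, aeval w (hpoly i) = ∑ n ∈ g.support, a n i * w ^ n := by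
    intro i
    simp only [hpoly, map_sum, map_mul, aeval_C, map_pow, aeval_X]
    rfl
  have keyF : ∑ i : Fin p, (aeval w (hpoly i)) ^ p * z ^ (i : ℕ) = 0 := by
    have e1 : ∀ i : Fin p, (aeval w (hpoly i)) ^ p * z ^ (i : ℕ) =
        ∑ n ∈ g.support, (a n i) ^ p * z ^ (i : ℕ) * (w ^ p) ^ n := by
      intro i
      rw [haev, sum_pow_char, Finset.sum_mul]
      refine Finset.sum_congr rfl fun n _ => ?_
      rw [mul_pow, ← pow_mul, ← pow_mul, mul_comm n p]
      ring
    rw [Finset.sum_congr rfl fun i _ => e1 i, Finset.sum_comm]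
    have e2 : aeval (w ^ p) g = ∑ n ∈ g.support, ((g.coeff n : k⟮z⟯) : F) * (w ^ p) ^ n := by
      rw [aeval_eq_sum_range, Finset.sum_subset (s₁ := g.support)
        (s₂ := Finset.range (g.natDegree + 1))]
      · exact Finset.sum_congr rfl fun n _ => by rw [Algebra.smul_def]; rfl
      · intro n hn
        rw [Finset.mem_range]
        exact Nat.lt_succ_of_le (le_natDegree_of_mem_supp n hn)
      · intro n _ hn
        rw [mem_support_iff, not_not] at hn
        rw [hn]
        simp
    rw [← h0, e2]
    refine Finset.sum_congr rfl fun n _ => ?_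
    rw [← Finset.sum_mul, ← hag n]
  have keyE : ∑ i : Fin p, ((aeval w (hpoly i) : F) : E) ^ p * ((z : F) : E) ^ (i : ℕ) = 0 := by
    have := congrArg (fun t : F => (t : E)) keyF
    simpa using this
  have hzero := resSep_li p (z : E) hz (fun i => ((aeval w (hpoly i) : F) : E)) keyE
  have hzeroF : ∀ i, aeval w (hpoly i) = 0 := fun i => Subtype.ext (hzero i)
  -- degrees
  have hgpos : 0 < g.natDegree := Irreducible.natDegree_pos hg
  have hfdeg : (minpoly k⟮z⟯ w).natDegree = g.natDegree * p := by
    rw [← hgf, natDegree_expand]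
  have hlt : g.natDegree < (minpoly k⟮z⟯ w).natDegree := by
    rw [hfdeg]
    calc g.natDegree = g.natDegree * 1 := (mul_one _).symm
      _ < g.natDegree * p := Nat.mul_lt_mul_of_pos_left hp.one_lt hgpos
  have hpolydeg : ∀ i, (hpoly i).natDegree ≤ g.natDegree := by
    intro i
    refine natDegree_sum_le_of_forall_le _ _ fun n hn => ?_
    exact (natDegree_C_mul_X_pow_le _ _).trans (le_natDegree_of_mem_supp n hn)
  have hpoly0 : ∀ i, hpoly i = 0 := by
    intro i
    by_contra hne
    have h1 := minpoly.degree_le_of_ne_zero k⟮z⟯ w hne (hzeroF i)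
    have h2 := natDegree_le_natDegree h1
    exact absurd (h2.trans (hpolydeg i)) (not_le.mpr hlt)
  have hcoeff : ∀ i, ∀ n ∈ g.support, a n i = 0 := by
    intro i n hn
    have h1 : (hpoly i).coeff n = (⟨a n i, ha n i⟩ : k⟮z⟯) := by
      simp only [hpoly, finsetSum_coeff, coeff_C_mul, coeff_X_pow]
      rw [Finset.sum_eq_single n]
      · simp
      · intro m _ hmn
        simp [hmn.symm]
      · intro h; exact absurd hn h
    rw [hpoly0 i, coeff_zero] at h1
    exact (congrArg (fun t : k⟮z⟯ => (t : F)) h1).symm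
  obtain ⟨n, hn⟩ : g.support.Nonempty := by
    rw [Finset.nonempty_iff_ne_empty, Ne, support_eq_empty]
    exact hg.ne_zero
  have hgn : ((g.coeff n : k⟮z⟯) : F) = 0 := by
    rw [hag n]
    refine Finset.sum_eq_zero fun i _ => ?_
    rw [hcoeff i n hn, zero_pow hp.ne_zero, zero_mul]
  exact (mem_support_iff.mp hn) (Subtype.ext hgn)

end Fermat.Agent.DEU
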