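import Fermat.Agent.DEU.Inst
import Fermat.Agent.DEU.ResFund
import Fermat.Agent.DEU.ResSepMain
import Fermat.Agent.ES.I2.E
import Fermat.Agent.RED.ResField
import Fermat.Agent.S24.Transc

/-!
# DEU / MPR-good — `j` is a good function: the poles of `j` reduce to poles of `j̄`

`R = deuInst_redData N A hRedF` the constant reduction of `F = F_N = ℚ̄(j(q^d) : d ∣ N)` at a
valuation ring `A ⊂ ℚ̄` over a prime `ℓ ∤ N`, `F̄ = k(j̄(q^d) : d ∣ N)`, and
`r : Place ℚ̄ F → Place k F̄` ANY map with `r_* (div u) = div ū` (clause 2 of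
`Hyp.exists_reduction`).  Then `j ∈ O`, `red j = j̄`, and every pole `P` of `j` has
`ord_{r P} (j̄) < 0` (`deuGood_good`): this is `W1.PRData.GoodFn j`.

Proof: `deg (j)_∞ = [F : ℚ̄(j)] = ψ(N) = [F̄ : k(j̄)] = deg (j̄)_∞` (fundamental identity on both
sides, `resFund_sum_ord_eq_finrank`; Igusa's degree theorem `relfinrank_full_eq_dedekindPsi`; the
separability of `F̄ / k(j̄)` is MacLane's criterion `resSep_isSeparable`, `j̄ = q⁻¹ + …` is not an
`ℓ`-th power), and `(j̄)_∞ ≤ r_* (j)_∞`, so nothing can cancel (`deuGood_core`).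
-/

set_option autoImplicit false
set_option synthInstance.maxHeartbeats 400000
set_option maxHeartbeats 1000000
set_option linter.style.haveILetI false
set_option linter.unusedSectionVars false

open AlgebraicCurve Module IntermediateField

namespace Fermat.Agent.DEU

/-! ## The abstract statement -/

/-- **No cancellation.**  If `r_* (div t) = div t̄`, the pole divisor of `t` has degree `≤ n` and the
pole divisor of `t̄` has degree `≥ n`, then every pole of `t` reduces to a pole of `t̄`. -/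
theorem deuGood_core {K F k Fk : Type*} [Field K] [Field F] [Algebra K F] [Field k] [Field Fk]
    [Algebra k Fk] (r : Place K F → Place k Fk) (t : F) (tb : Fk) (D : Divisor K F)
    (hD : ∀ P, D P = P.ord t) (hdiv : ∀ Q : Place k Fk, Finsupp.mapDomain r D Q = Q.ord tb)
    (n : ℤ)
    (VK : Finset (Place K F)) (hVK : ∀ v, v ∈ VK ↔ v.ord t < 0)
    (hK : ∑ v ∈ VK, -(v.ord t) ≤ n)
    (Vk : Finset (Place k Fk)) (hVk : ∀ v, v ∈ Vk ↔ v.ord tb < 0)
    (hk : n ≤ ∑ v ∈ Vk, -(v.ord tb))
    (P : Place K F) (hP : P.ord t < 0) : (r P).ord tb < 0 := by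
  classical
  by_contra hcon
  have hrP : r P ∉ Vk := fun h => hcon ((hVk _).mp h)
  have hPV : P ∈ VK := (hVK P).mpr hP
  -- the formula for `r_* D`
  have hmap : ∀ Q : Place k Fk,
      Q.ord tb = ∑ P' ∈ D.support, if r P' = Q then P'.ord t else 0 := by
    intro Q
    rw [← hdiv Q, Finsupp.mapDomain, Finsupp.sum_apply, Finsupp.sum]
    refine Finset.sum_congr rfl fun P' _ => ?_
    rw [Finsupp.single_apply, hD]
  have hsub : VK ⊆ D.support := by
    intro v hv
    rw [Finsupp.mem_support_iff, hD]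
    exact ne_of_lt ((hVK v).mp hv)
  -- (A) `-ord_Q t̄ ≤ m(Q)`
  have hA : ∀ Q : Place k Fk,
      -(Q.ord tb) ≤ ∑ P' ∈ VK, if r P' = Q then -(P'.ord t) else 0 := by
    intro Q
    have h1 : ∑ P' ∈ VK, (if r P' = Q then -(P'.ord t) else 0) =
        ∑ P' ∈ D.support, if r P' = Q then max 0 (-(P'.ord t)) else 0 := by
      rw [← Finset.sum_subset hsub]
      · refine Finset.sum_congr rfl fun P' hP' => ?_
        have := (hVK P').mp hP'
        rw [max_eq_right (by omega)]
      · intro P' _ hP'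
        have : ¬ P'.ord t < 0 := fun h => hP' ((hVK P').mpr h)
        rw [max_eq_left (by omega)]
        simp
    rw [h1, hmap Q, ← Finset.sum_neg_distrib]
    refine Finset.sum_le_sum fun P' _ => ?_
    split_ifs
    · exact le_max_right _ _
    · simp
  -- (B) summing over the poles of `t̄`
  have hB : ∑ Q ∈ Vk, ∑ P' ∈ VK, (if r P' = Q then -(P'.ord t) else 0) =
      ∑ P' ∈ VK, if r P' ∈ Vk then -(P'.ord t) else 0 := by
    rw [Finset.sum_comm]
    refine Finset.sum_congr rfl fun P' _ => ?_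
    rw [Finset.sum_ite_eq]
  -- (C) the pole `P` is lost
  have hC : ∑ P' ∈ VK, (if r P' ∈ Vk then -(P'.ord t) else 0) < ∑ P' ∈ VK, -(P'.ord t) := by
    refine Finset.sum_lt_sum (fun P' hP' => ?_) ⟨P, hPV, ?_⟩
    · have := (hVK P').mp hP'
      split_ifs
      · exact le_rfl
      · omega
    · rw [if_neg hrP]
      omega
  have h2 : ∑ v ∈ Vk, -(v.ord tb) ≤
      ∑ Q ∈ Vk, ∑ P' ∈ VK, (if r P' = Q then -(P'.ord t) else 0) :=
    Finset.sum_le_sum fun Q _ => hA Q
  rw [hB] at h2
  omega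

section Generic

variable {K F : Type*} [Field K] [Field F] [Algebra K F]

theorem deuGood_adjoin_inv (x : F) : K⟮x⁻¹⟯ = K⟮x⟯ := by
  apply le_antisymm
  · rw [adjoin_simple_le_iff]
    exact inv_mem (mem_adjoin_simple_self K x)
  · rw [adjoin_simple_le_iff]
    have h := inv_mem (mem_adjoin_simple_self K x⁻¹)
    rwa [inv_inv] at h

/-- The fundamental identity for the POLES of a separating element. -/
theorem deuGood_sum_poles [IsAlgClosed K] (x : F) (hx : Transcendental K x)
    [FiniteDimensional K⟮x⟯ F] [Algebra.IsSeparable K⟮x⟯ F] :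
    ∃ V : Finset (Place K F), (∀ v, v ∈ V ↔ v.ord x < 0) ∧
      ∑ v ∈ V, -(v.ord x) = (Module.finrank K⟮x⟯ F : ℤ) := by
  have key : ∀ E : IntermediateField K F, E = K⟮x⟯ →
      FiniteDimensional E F ∧ Algebra.IsSeparable E F ∧
        Module.finrank E F = Module.finrank K⟮x⟯ F := by
    rintro _ rfl
    exact ⟨inferInstance, inferInstance, rfl⟩
  obtain ⟨h1, h2, h3⟩ := key K⟮x⁻¹⟯ (deuGood_adjoin_inv x)
  haveI := h1
  haveI := h2
  have hx' : Transcendental K x⁻¹ := fun halg => hx (by simpa using halg.inv)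
  obtain ⟨V, hV, hsum⟩ := resFund_sum_ord_eq_finrank (K := K) x⁻¹ hx'
  refine ⟨V, fun v => ?_, ?_⟩
  · rw [hV v, Place.ord_inv]
    omega
  · rw [← h3, ← hsum]
    refine Finset.sum_congr rfl fun v _ => ?_
    rw [Place.ord_inv]

/-- The divisor of a separating element. -/
theorem deuGood_exists_divisor [IsAlgClosed K] (x : F) (hx : Transcendental K x)
    [FiniteDimensional K⟮x⟯ F] [Algebra.IsSeparable K⟮x⟯ F] :
    ∃ D : Divisor K F, ∀ P : Place K F, D P = P.ord x := by
  classical
  obtain ⟨V₀, hV₀, -⟩ := resFund_sum_ord_eq_finrank (K := K) x hx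
  obtain ⟨V₁, hV₁, -⟩ := deuGood_sum_poles (K := K) x hx
  refine ⟨Finsupp.onFinset (V₀ ∪ V₁) (fun P => P.ord x) ?_, fun P => rfl⟩
  intro P hP
  rw [Finset.mem_union, hV₀, hV₁]
  omega

end Generic

/-- **Good reduction of a function, abstract form.**  `t` and `t̄` separating of the same degree,
`r_* (div t) = div t̄`: the poles of `t` reduce to poles of `t̄`. -/
theorem deuGood_of_finrank_le {K F k Fk : Type*} [Field K] [Field F] [Algebra K F] [Field k]
    [Field Fk] [Algebra k Fk] [IsAlgClosed K] [IsAlgClosed k]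
    (r : Place K F → Place k Fk) (t : F) (tb : Fk)
    (hdiv : ∀ D : Divisor K F, (∀ P, D P = P.ord t) →
      ∀ Q : Place k Fk, Finsupp.mapDomain r D Q = Q.ord tb)
    (ht : Transcendental K t) (htb : Transcendental k tb)
    [FiniteDimensional K⟮t⟯ F] [Algebra.IsSeparable K⟮t⟯ F]
    [FiniteDimensional k⟮tb⟯ Fk] [Algebra.IsSeparable k⟮tb⟯ Fk]
    (hle : Module.finrank K⟮t⟯ F ≤ Module.finrank k⟮tb⟯ Fk)
    (P : Place K F) (hP : P.ord t < 0) : (r P).ord tb < 0 := by
  obtain ⟨D, hD⟩ := deuGood_exists_divisor (K := K) t ht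
  obtain ⟨VK, hVK, hsumK⟩ := deuGood_sum_poles (K := K) t ht
  obtain ⟨Vk, hVk, hsumk⟩ := deuGood_sum_poles (K := k) tb htb
  refine deuGood_core r t tb D hD (hdiv D hD) (Module.finrank K⟮t⟯ F : ℤ) VK hVK hsumK.le
    Vk hVk ?_ P hP
  rw [hsumk]
  exact_mod_cast hle

/-! ## The concrete instance: `t = j` -/

open ModularCurve Fermat.Agent.ES Fermat.Agent.S24 Fermat.Agent.ES.M

section Resid

variable (k : Type*) [Field k] (N : ℕ) [NeZero N]

/-- `j̄` as an element of `F̄ = k(j̄(q^d) : d ∣ N)` -/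
noncomputable def deuGood_jk : ↥(modularFunctionFieldFullC k N) :=
  ⟨jqModC k, jqModC_mem_full k N⟩

@[simp] theorem deuGood_jk_coe :
    ((deuGood_jk k N : ↥(modularFunctionFieldFullC k N)) : LaurentSeries k) = jqModC k := rfl

theorem deuGood_transcendental_jk : Transcendental k (deuGood_jk k N) := by
  intro halg
  apply Fermat.Agent.S28.kdj_transcendental_jqModC k
  have := (isAlgebraic_algHom_iff (modularFunctionFieldFullC k N).val
    (Subtype.val_injective)).mpr halg
  exact this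

/-- `[F̄ : k(j̄)] = ψ(N)` (Igusa) -/
theorem deuGood_finrank_jk (hN : (N : k) ≠ 0) :
    Module.finrank k⟮deuGood_jk k N⟯ ↥(modularFunctionFieldFullC k N) = dedekindPsi N := by
  have h0 := Fermat.Agent.S28.relfinrank_full_eq_dedekindPsi k N hN
  have h1 := IntermediateField.finrank_comap
    (A := (adjoin k {jqModC k} : IntermediateField k (LaurentSeries k)))
    (modularFunctionFieldFullC k N).val
  rw [IntermediateField.fieldRange_val] at h1
  have hcomap : (adjoin k {jqModC k} : IntermediateField k (LaurentSeries k)).comap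
      (modularFunctionFieldFullC k N).val = k⟮deuGood_jk k N⟯ := by
    have hlift : IntermediateField.lift
        (k⟮deuGood_jk k N⟯ : IntermediateField k ↥(modularFunctionFieldFullC k N)) =
        (adjoin k {jqModC k} : IntermediateField k (LaurentSeries k)) := by
      rw [IntermediateField.lift_adjoin_simple, deuGood_jk_coe]
    ext x
    have h2 : x ∈ (adjoin k {jqModC k} : IntermediateField k (LaurentSeries k)).comap
        (modularFunctionFieldFullC k N).val ↔
        (x : LaurentSeries k) ∈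
          (adjoin k {jqModC k} : IntermediateField k (LaurentSeries k)) := Iff.rfl
    rw [h2, ← hlift]
    exact IntermediateField.mem_lift x
  rw [hcomap] at h1
  rw [h1, h0]

theorem deuGood_finiteDimensional_jk (hN : (N : k) ≠ 0) :
    FiniteDimensional k⟮deuGood_jk k N⟯ ↥(modularFunctionFieldFullC k N) :=
  FiniteDimensional.of_finrank_pos (by
    rw [deuGood_finrank_jk k N hN]
    exact Nat.pos_of_ne_zero (Fermat.Agent.ES.I2.i2e_dedekindPsi_ne_zero N))

/-- `j̄ = q⁻¹ + …` is not a `p`-th power in `k((q))` -/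
theorem deuGood_jqModC_ne_pow (p : ℕ) (hp : p.Prime) (w : LaurentSeries k) :
    w ^ p ≠ jqModC k := by
  intro hw
  have h1 := congrArg HahnSeries.order hw
  rw [HahnSeries.order_pow, Fermat.Agent.S28.order_jqModC, nsmul_eq_mul] at h1
  have h2 : ((p : ℕ) : ℤ) ∣ ((1 : ℕ) : ℤ) := ⟨-w.order, by push_cast; linarith⟩
  have h3 : p ∣ 1 := Int.natCast_dvd_natCast.mp h2
  exact hp.one_lt.ne' (Nat.dvd_one.mp h3)

/-- `F̄ / k(j̄)` is separable (MacLane) -/
theorem deuGood_isSeparable_jk (p : ℕ) [Fact p.Prime] [CharP k p] [PerfectRing k p]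
    (hN : (N : k) ≠ 0) :
    Algebra.IsSeparable k⟮deuGood_jk k N⟯ ↥(modularFunctionFieldFullC k N) := by
  haveI := deuGood_finiteDimensional_jk k N hN
  exact resSep_isSeparable p (modularFunctionFieldFullC k N) (deuGood_jk k N)
    (fun w => deuGood_jqModC_ne_pow k p Fact.out w)

end Resid

variable (N : ℕ) [NeZero N] (A : ValuationSubring Kb)

omit [NeZero N] in
/-- `j` is Gauss-integral with reduction `j̄` -/
theorem deuGood_gaussRed_jF [NeZero N] : GaussRed N A (jF N) (jqModC (kA A)) := by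
  have hI : kronIncl A (jqModC A) = jBar := by
    rw [Fermat.Agent.ES.I2.i2e_jBar_eq]
    exact coeffMap_jqModC _
  refine ⟨jqModC A, 1, ?_, ?_, ?_, ?_, ?_⟩
  · rw [hI]; exact jBar_mem N
  · rw [map_one]; exact one_mem _
  · rw [map_one]; exact one_ne_zero
  · rw [map_one, mul_one, hI]; rfl
  · rw [map_one, mul_one]
    exact (coeffMap_jqModC _).symm

theorem deuGood_jF_mem (hRedF : StmtRedF N A) : jF N ∈ (deuInst_redData N A hRedF).O :=
  ((deuInst_red_iff N A hRedF (jF N) (jqModC (kA A))).mp (deuGood_gaussRed_jF N A)).1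

theorem deuGood_red_jF (hRedF : StmtRedF N A) (h : jF N ∈ (deuInst_redData N A hRedF).O) :
    (deuInst_redData N A hRedF).red ⟨jF N, h⟩ = deuGood_jk (kA A) N := by
  obtain ⟨h', hh'⟩ := (deuInst_red_iff N A hRedF (jF N) (jqModC (kA A))).mp
    (deuGood_gaussRed_jF N A)
  exact Subtype.ext hh'

theorem deuGood_red_jF_ne_zero (hRedF : StmtRedF N A)
    (h : jF N ∈ (deuInst_redData N A hRedF).O) :
    (deuInst_redData N A hRedF).red ⟨jF N, h⟩ ≠ 0 := by
  rw [deuGood_red_jF N A hRedF h]
  intro h0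
  exact deuGood_transcendental_jk (kA A) N (h0 ▸ isAlgebraic_zero)

/-- **MPR-good.**  For every map `r` on places with `r_* (div u) = div ū`, the function `j` is
Gauss-integral and every pole of `j` reduces to a pole of `j̄ = red j`. -/
theorem deuGood_good (ℓ : ℕ) (hℓ : ℓ.Prime) (hℓN : ¬ ℓ ∣ N) (hA : A.LiesOverPrime ℓ)
    (hRedF : StmtRedF N A)
    (r : Place Kb (FF N) → Place (kA A) ↥(modularFunctionFieldFullC (kA A) N))
    (hdiv : ∀ u : (deuInst_redData N A hRedF).O, (deuInst_redData N A hRedF).red u ≠ 0 →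
      ∀ D : Divisor Kb (FF N), (∀ P : Place Kb (FF N), D P = P.ord (u : FF N)) →
        ∀ Q : Place (kA A) ↥(modularFunctionFieldFullC (kA A) N),
          Finsupp.mapDomain r D Q = Q.ord ((deuInst_redData N A hRedF).red u)) :
    ∃ ht : jF N ∈ (deuInst_redData N A hRedF).O, ∀ P : Place Kb (FF N),
      P.ord (jF N) < 0 → (r P).ord ((deuInst_redData N A hRedF).red ⟨jF N, ht⟩) < 0 := by
  have ht := deuGood_jF_mem N A hRedF
  refine ⟨ht, fun P hP => ?_⟩
  have hNk : ((N : ℕ) : kA A) ≠ 0 := redF_natCast_ne_zero N A ℓ hℓ hℓN hA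
  haveI : IsAlgClosed (kA A) := Fermat.Agent.RED.isAlgClosed_residueField A
  haveI : Fact ℓ.Prime := ⟨hℓ⟩
  haveI : CharP (kA A) ℓ := kron_charP_residueField hℓ hA
  haveI := deuGood_finiteDimensional_jk (kA A) N hNk
  haveI := deuGood_isSeparable_jk (kA A) N ℓ hNk
  haveI : FiniteDimensional Kb⟮jF N⟯ (FF N) :=
    FiniteDimensional.of_finrank_pos (by
      rw [Fermat.Agent.ES.I2.i2e_finrank N]
      exact Nat.pos_of_ne_zero (Fermat.Agent.ES.I2.i2e_dedekindPsi_ne_zero N))
  rw [deuGood_red_jF N A hRedF ht]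
  refine deuGood_of_finrank_le r (jF N) (deuGood_jk (kA A) N) ?_ (transcendental_jF N)
    (deuGood_transcendental_jk (kA A) N) ?_ P hP
  · intro D hD Q
    have := hdiv ⟨jF N, ht⟩ (deuGood_red_jF_ne_zero N A hRedF ht) D hD Q
    rwa [deuGood_red_jF N A hRedF ht] at this
  · rw [Fermat.Agent.ES.I2.i2e_finrank N, deuGood_finrank_jk (kA A) N hNk]

end Fermat.Agent.DEU
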