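import Fermat.Agent.ES.M.CuspInfty
import Fermat.Agent.ES.HModular
import Fermat.Agent.ES.RiemannGeneric
import Fermat.Agent.RED.ResField
import Fermat.Prelude.Def_ModularCurve_ArithmeticGalois

/-!
# MPR-inf (piece of GEO-PR / `ModPR`): infinitely many places, `j` is Galois-fixed

* `deuInf_exists_zero` : a function with a pole has a zero (principal divisors have degree `0`);
* `deuInf_infinite_of_pole` : over an infinite constant field `K` with principal divisors and
  rational places, a function field with a function `t` having a pole has infinitely many places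
  (a zero of `t - c` for every `c ∈ K`);
* `deuInf_infinite_FF` : `Place ℚ̄ (FF N)` is infinite;
* `deuInf_infinite_k` : `Place k F̄` is infinite as soon as `F̄` has principal divisors, rational
  places and a function with a pole (`k` = residue field of a valuation ring of `ℚ̄`);
* `deuInf_smul_jF` : `arithmeticGalois σ • jF N = jF N`.
-/

set_option autoImplicit false

open AlgebraicCurve ModularCurve

namespace Fermat.Agent.DEU

open Fermat.Agent.S24 Fermat.Agent.ES.R

section Generic

variable {K F : Type*} [Field K] [Field F] [Algebra K F]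

/-- a pole of `f` is a pole of `f - c` -/
theorem deuInf_ord_sub_const_neg (Q : Place K F) {f : F} (hf : Q.ord f < 0) (c : K) :
    Q.ord (f - algebraMap K F c) < 0 := by
  have hf0 : f ≠ 0 := by
    rintro rfl
    rw [Place.ord_zero] at hf
    exact lt_irrefl _ hf
  rcases eq_or_ne c 0 with rfl | hc
  · rwa [map_zero, sub_zero]
  · have hc' : -algebraMap K F c ≠ 0 := by simpa using hc
    have h1 : Q.ord (-algebraMap K F c) = 0 := by
      rw [PlaceAux.ord_neg, PlaceAux.ord_algebraMap]
    have := PlaceAux.ord_add_eq_of_lt Q hf0 hc' (by rw [h1]; exact hf)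
    rw [sub_eq_add_neg, this]
    exact hf

/-- a function with a pole has a zero -/
theorem deuInf_exists_zero [HasPrincipalDivisors K F]
    (hres : ∀ v : Place K F, Function.Bijective (algebraMap K v.ResidueField))
    {f : F} (hf : f ≠ 0) (P₀ : Place K F) (hP₀ : P₀.ord f < 0) :
    ∃ v : Place K F, 0 < v.ord f := by
  classical
  obtain ⟨D, hD, hdeg⟩ := HasPrincipalDivisors.exists_divisor (K := K) f hf
  by_contra hne
  simp only [not_exists, not_lt] at hne
  have h0 : 0 ≤ -D - Finsupp.single P₀ (1 : ℤ) := by
    rw [Finsupp.le_def]
    intro v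
    rw [Finsupp.sub_apply, Finsupp.neg_apply, hD v, Finsupp.single_apply]
    simp only [Finsupp.coe_zero, Pi.zero_apply]
    split_ifs with h
    · subst h; omega
    · have := hne v; omega
  have h1 := degree_nonneg h0
  rw [map_sub, map_neg, hdeg, Divisor.degree_single, place_deg_eq_one _ (hres P₀)] at h1
  norm_num at h1

/-- infinitely many places -/
theorem deuInf_infinite_of_pole [HasPrincipalDivisors K F] [Infinite K]
    (hres : ∀ v : Place K F, Function.Bijective (algebraMap K v.ResidueField))
    (t : F) (P₀ : Place K F) (hP₀ : P₀.ord t < 0) :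
    (Set.univ : Set (Place K F)).Infinite := by
  have hne : ∀ c : K, t - algebraMap K F c ≠ 0 := by
    intro c h
    have := deuInf_ord_sub_const_neg P₀ hP₀ c
    rw [h, Place.ord_zero] at this
    exact lt_irrefl _ this
  have hz : ∀ c : K, ∃ v : Place K F, 0 < v.ord (t - algebraMap K F c) := fun c =>
    deuInf_exists_zero hres (hne c) P₀ (deuInf_ord_sub_const_neg P₀ hP₀ c)
  choose z hzpos using hz
  have hinj : Function.Injective z := by
    intro c c' h
    by_contra hcc
    have h1 := hzpos c
    have h2 := hzpos c'
    rw [← h] at h2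
    have hd : algebraMap K F (c' - c) ≠ 0 := by
      rw [map_ne_zero]; exact sub_ne_zero.mpr (Ne.symm hcc)
    have hsum : (t - algebraMap K F c) + -(t - algebraMap K F c') = algebraMap K F (c' - c) := by
      rw [map_sub]; ring
    have h3 := PlaceAux.le_ord_add (z c) (hne c) (neg_ne_zero.mpr (hne c')) (by rw [hsum]; exact hd)
    rw [hsum, PlaceAux.ord_neg, PlaceAux.ord_algebraMap] at h3
    have := le_min h1.le h2.le
    rcases min_le_iff.mp h3 with h4 | h4 <;> omega
  rw [Set.infinite_univ_iff]
  exact Infinite.of_injective z hinj

end Generic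

section Concrete

variable (N : ℕ) [NeZero N]

/-- `X₀(N)` has infinitely many points over `ℚ̄`. -/
theorem deuInf_infinite_FF : (Set.univ : Set (Place Kb (FF N))).Infinite := by
  obtain ⟨P, hP, -⟩ := Fermat.Agent.ES.M.exists_isCuspInfty N
  have := Fermat.Agent.ES.H.hasPrincipalDivisors_FF N
  refine deuInf_infinite_of_pole (Fermat.Agent.ES.H.residue_bijective_FF N) (jF N) P ?_
  rw [hP.ord_jF]
  norm_num

omit [NeZero N] in
/-- the reduction of `X₀(N)` has infinitely many points over the residue field, as soon as it
has principal divisors, rational places, and a function with a pole -/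
theorem deuInf_infinite_k (A : ValuationSubring Kb)
    (hpd : HasPrincipalDivisors (IsLocalRing.ResidueField A)
      ↥(modularFunctionFieldFullC (IsLocalRing.ResidueField A) N))
    (hres : ∀ v : Place (IsLocalRing.ResidueField A)
        ↥(modularFunctionFieldFullC (IsLocalRing.ResidueField A) N),
      Function.Bijective (algebraMap (IsLocalRing.ResidueField A) v.ResidueField))
    (t : ↥(modularFunctionFieldFullC (IsLocalRing.ResidueField A) N))
    (Q : Place (IsLocalRing.ResidueField A)
      ↥(modularFunctionFieldFullC (IsLocalRing.ResidueField A) N))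
    (hQ : Q.ord t < 0) :
    (Set.univ : Set (Place (IsLocalRing.ResidueField A)
      ↥(modularFunctionFieldFullC (IsLocalRing.ResidueField A) N))).Infinite := by
  have : IsAlgClosed (IsLocalRing.ResidueField A) := Fermat.Agent.RED.isAlgClosed_residueField A
  have : Infinite (IsLocalRing.ResidueField A) := IsAlgClosed.instInfinite
  exact deuInf_infinite_of_pole hres t Q hQ

/-- `j` is fixed by the arithmetic Galois action. -/
theorem deuInf_smul_jF (σ : Kb ≃ₐ[ℚ] Kb) :
    arithmeticGalois (modularFunctionFieldFull N) σ • jF N = jF N := by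
  apply Subtype.ext
  rw [coe_arithmeticGalois_smul]
  show coeffMap (σ : Kb →+* Kb) (coeffMap (algebraMap ℚ Kb) jq) = coeffMap (algebraMap ℚ Kb) jq
  rw [coeffMap_coeffMap]
  exact coeffMap_congr (RingHom.ext fun a => σ.commutes a) _

end Concrete

end Fermat.Agent.DEU
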