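import Fermat.Agent.DEU.Main1

/-!
# DEU — Deuring's dimension count, part 2: additivity and the homomorphism `ρ̃`

* `degree_rho` : `deg ρ(𝔞) = deg 𝔞` for `deg 𝔞 ≥ n₀ + 2g`;
* `rho_add` : `ρ(𝔞 + 𝔟) = ρ(𝔞) + ρ(𝔟)` for `deg 𝔞, deg 𝔟 ≥ n₀ + 2g`;
* `rhoExt` : the extension `ρ̃(𝔡) = ρ(𝔡 + c·P∞) − ρ(c·P∞)` to all divisors; it is additive,
  degree preserving, monotone, equal to `ρ` in large degree, and `ρ̃(div u) = div(ū)`.
-/

set_option autoImplicit false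

open AlgebraicCurve Module

namespace Fermat.Agent.DEU

open Fermat.Agent.ES.R

variable {K F k Fb : Type*} [Field K] [Field F] [Algebra K F] [Field k] [Field Fb] [Algebra k Fb]

namespace RedData

variable (R : RedData K F k Fb)

/-- The shift used in the definition of `rhoExt`. -/
noncomputable def shift (d₀ : ℕ) (𝔡 : Divisor K F) : ℕ := d₀ + (Divisor.degree 𝔡).natAbs

/-- The extension of `ρ` to all divisors. -/
noncomputable def rhoExt (Pinf : Place K F) (d₀ : ℕ) (𝔡 : Divisor K F) : Divisor k Fb :=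
  R.rho (𝔡 + mulPlace Pinf (shift d₀ 𝔡)) - R.rho (mulPlace Pinf (shift d₀ 𝔡))

end RedData

theorem shift_ge (d₀ : ℕ) (𝔡 : Divisor K F) : (d₀ : ℤ) ≤ RedData.shift d₀ 𝔡 := by
  rw [RedData.shift]; push_cast; linarith [abs_nonneg (Divisor.degree 𝔡)]

theorem shift_ge' (d₀ : ℕ) (𝔡 : Divisor K F) :
    (d₀ : ℤ) ≤ Divisor.degree 𝔡 + RedData.shift d₀ 𝔡 := by
  rw [RedData.shift]; push_cast
  have := neg_abs_le (Divisor.degree 𝔡)
  linarith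

namespace Hyp

variable {R : RedData K F k Fb} {Pinf : Place K F} {Qinf : Place k Fb} {g n₀ : ℕ}
  (H : Hyp R Pinf Qinf g n₀)

include H

/-- `deg ρ(𝔞) = deg 𝔞` in large degree. -/
theorem degree_rho (𝔞 : Divisor K F) (h𝔞 : (n₀ : ℤ) + 2 * g ≤ Divisor.degree 𝔞) :
    Divisor.degree (R.rho 𝔞) = Divisor.degree 𝔞 := by
  have := H.hpdF
  have := H.hpdk
  refine le_antisymm ?_ (H.degree_le_degree_rho 𝔞 h𝔞)
  set m : ℕ := (Divisor.degree 𝔞 + n₀ + 2 * g).toNat + g with hm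
  have hmg : g ≤ m := Nat.le_add_left _ _
  have hm1 : Divisor.degree 𝔞 + n₀ + 2 * g ≤ m := by
    have := Int.self_le_toNat (Divisor.degree 𝔞 + n₀ + 2 * g)
    rw [hm]; push_cast; linarith
  set 𝔟 : Divisor K F := mulPlace Pinf m - 𝔞 with h𝔟
  have hdeg𝔟 : Divisor.degree 𝔟 = m - Divisor.degree 𝔞 := by
    rw [h𝔟, map_sub, degree_mulPlace H.hresF]
  have h𝔟big : (n₀ : ℤ) + 2 * g ≤ Divisor.degree 𝔟 := by rw [hdeg𝔟]; linarith
  have hne𝔞 : riemannRochSpace 𝔞 ≠ ⊥ := H.rr_ne_bot_of_degree (by linarith)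
  have hne𝔟 : riemannRochSpace 𝔟 ≠ ⊥ := H.rr_ne_bot_of_degree (by linarith)
  have h1 := R.rho_add_le H.hresF H.hresk Pinf hne𝔞 hne𝔟
  have h2 : 𝔞 + 𝔟 = mulPlace Pinf m := by rw [h𝔟]; abel
  rw [h2] at h1
  have h3 := h1.trans (H.rho_mulPlace_le m hmg)
  have h4 := degree_mono h3
  rw [map_add, degree_mulPlace H.hresk] at h4
  have h5 := H.degree_le_degree_rho 𝔟 h𝔟big
  linarith

/-- `ρ` is additive in large degree. -/
theorem rho_add (𝔞 𝔟 : Divisor K F) (h𝔞 : (n₀ : ℤ) + 2 * g ≤ Divisor.degree 𝔞)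
    (h𝔟 : (n₀ : ℤ) + 2 * g ≤ Divisor.degree 𝔟) : R.rho (𝔞 + 𝔟) = R.rho 𝔞 + R.rho 𝔟 := by
  have := H.hpdF
  have := H.hpdk
  have hne𝔞 : riemannRochSpace 𝔞 ≠ ⊥ := H.rr_ne_bot_of_degree (by linarith)
  have hne𝔟 : riemannRochSpace 𝔟 ≠ ⊥ := H.rr_ne_bot_of_degree (by linarith)
  have h1 := R.rho_add_le H.hresF H.hresk Pinf hne𝔞 hne𝔟
  have hsum : (n₀ : ℤ) + 2 * g ≤ Divisor.degree (𝔞 + 𝔟) := by
    rw [map_add]; linarith
  refine (dv_eq_of_le_of_degree_le H.hresk h1 ?_).symm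
  rw [H.degree_rho _ hsum, map_add, map_add, H.degree_rho _ h𝔞, H.degree_rho _ h𝔟]

/-- Independence of the shift. -/
theorem rhoExt_eq (𝔡 : Divisor K F) (c : ℕ) (hc : (n₀ : ℤ) + 2 * g ≤ c)
    (hc' : (n₀ : ℤ) + 2 * g ≤ Divisor.degree 𝔡 + c) :
    R.rhoExt Pinf (n₀ + 2 * g) 𝔡 = R.rho (𝔡 + mulPlace Pinf c) - R.rho (mulPlace Pinf c) := by
  set c' : ℕ := RedData.shift (n₀ + 2 * g) 𝔡 with hc'def
  have hs1 : (n₀ : ℤ) + 2 * g ≤ c' := by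
    have := shift_ge (n₀ + 2 * g) 𝔡
    push_cast at this; exact this
  have hs2 : (n₀ : ℤ) + 2 * g ≤ Divisor.degree 𝔡 + c' := by
    have := shift_ge' (n₀ + 2 * g) 𝔡
    push_cast at this; exact this
  have hd1 : (n₀ : ℤ) + 2 * g ≤ Divisor.degree (𝔡 + mulPlace Pinf c) := by
    rw [map_add, degree_mulPlace H.hresF]; exact hc'
  have hd2 : (n₀ : ℤ) + 2 * g ≤ Divisor.degree (𝔡 + mulPlace Pinf c') := by
    rw [map_add, degree_mulPlace H.hresF]; exact hs2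
  have hd3 : (n₀ : ℤ) + 2 * g ≤ Divisor.degree (mulPlace Pinf (c : ℤ)) := by
    rw [degree_mulPlace H.hresF]; exact hc
  have hd4 : (n₀ : ℤ) + 2 * g ≤ Divisor.degree (mulPlace Pinf (c' : ℤ)) := by
    rw [degree_mulPlace H.hresF]; exact hs1
  have e1 := H.rho_add _ _ hd1 hd4
  have e2 := H.rho_add _ _ hd2 hd3
  have e3 : 𝔡 + mulPlace Pinf (c : ℤ) + mulPlace Pinf (c' : ℤ) =
      𝔡 + mulPlace Pinf (c' : ℤ) + mulPlace Pinf (c : ℤ) := by abel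
  rw [e3, e2] at e1
  rw [RedData.rhoExt, ← hc'def]
  rw [sub_eq_sub_iff_add_eq_add]
  exact e1

/-- `ρ̃` is additive. -/
theorem rhoExt_add (𝔡 𝔡' : Divisor K F) :
    R.rhoExt Pinf (n₀ + 2 * g) (𝔡 + 𝔡') =
      R.rhoExt Pinf (n₀ + 2 * g) 𝔡 + R.rhoExt Pinf (n₀ + 2 * g) 𝔡' := by
  set c : ℕ := RedData.shift (n₀ + 2 * g) 𝔡 with hc
  set c' : ℕ := RedData.shift (n₀ + 2 * g) 𝔡' with hc'
  have hs1 : (n₀ : ℤ) + 2 * g ≤ c := by
    have := shift_ge (n₀ + 2 * g) 𝔡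
    push_cast at this; exact this
  have hs2 : (n₀ : ℤ) + 2 * g ≤ Divisor.degree 𝔡 + c := by
    have := shift_ge' (n₀ + 2 * g) 𝔡
    push_cast at this; exact this
  have hs1' : (n₀ : ℤ) + 2 * g ≤ c' := by
    have := shift_ge (n₀ + 2 * g) 𝔡'
    push_cast at this; exact this
  have hs2' : (n₀ : ℤ) + 2 * g ≤ Divisor.degree 𝔡' + c' := by
    have := shift_ge' (n₀ + 2 * g) 𝔡'
    push_cast at this; exact this
  have hpos : (0 : ℤ) ≤ (n₀ : ℤ) + 2 * g := by positivity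
  rw [H.rhoExt_eq (𝔡 + 𝔡') (c + c') (by push_cast; linarith)
    (by rw [map_add]; push_cast; linarith)]
  have hd1 : (n₀ : ℤ) + 2 * g ≤ Divisor.degree (𝔡 + mulPlace Pinf c) := by
    rw [map_add, degree_mulPlace H.hresF]; exact hs2
  have hd2 : (n₀ : ℤ) + 2 * g ≤ Divisor.degree (𝔡' + mulPlace Pinf c') := by
    rw [map_add, degree_mulPlace H.hresF]; exact hs2'
  have hd3 : (n₀ : ℤ) + 2 * g ≤ Divisor.degree (mulPlace Pinf (c : ℤ)) := by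
    rw [degree_mulPlace H.hresF]; exact hs1
  have hd4 : (n₀ : ℤ) + 2 * g ≤ Divisor.degree (mulPlace Pinf (c' : ℤ)) := by
    rw [degree_mulPlace H.hresF]; exact hs1'
  have e1 : 𝔡 + 𝔡' + mulPlace Pinf ((c + c' : ℕ) : ℤ) =
      (𝔡 + mulPlace Pinf (c : ℤ)) + (𝔡' + mulPlace Pinf (c' : ℤ)) := by
    push_cast
    rw [mulPlace_add]; abel
  have e2 : mulPlace Pinf ((c + c' : ℕ) : ℤ) = mulPlace Pinf (c : ℤ) + mulPlace Pinf (c' : ℤ) := by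
    push_cast
    rw [mulPlace_add]
  rw [e1, e2, H.rho_add _ _ hd1 hd2, H.rho_add _ _ hd3 hd4, RedData.rhoExt, RedData.rhoExt,
    ← hc, ← hc']
  abel

/-- `ρ̃ = ρ` in large degree. -/
theorem rhoExt_eq_rho (𝔞 : Divisor K F) (h𝔞 : (n₀ : ℤ) + 2 * g ≤ Divisor.degree 𝔞) :
    R.rhoExt Pinf (n₀ + 2 * g) 𝔞 = R.rho 𝔞 := by
  set c : ℕ := RedData.shift (n₀ + 2 * g) 𝔞 with hc
  have hs1 : (n₀ : ℤ) + 2 * g ≤ c := by
    have := shift_ge (n₀ + 2 * g) 𝔞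
    push_cast at this; exact this
  have hd3 : (n₀ : ℤ) + 2 * g ≤ Divisor.degree (mulPlace Pinf (c : ℤ)) := by
    rw [degree_mulPlace H.hresF]; exact hs1
  rw [RedData.rhoExt, ← hc, H.rho_add _ _ h𝔞 hd3]
  abel

/-- `ρ̃` preserves degrees. -/
theorem degree_rhoExt (𝔡 : Divisor K F) :
    Divisor.degree (R.rhoExt Pinf (n₀ + 2 * g) 𝔡) = Divisor.degree 𝔡 := by
  set c : ℕ := RedData.shift (n₀ + 2 * g) 𝔡 with hc
  have hs1 : (n₀ : ℤ) + 2 * g ≤ c := by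
    have := shift_ge (n₀ + 2 * g) 𝔡
    push_cast at this; exact this
  have hs2 : (n₀ : ℤ) + 2 * g ≤ Divisor.degree 𝔡 + c := by
    have := shift_ge' (n₀ + 2 * g) 𝔡
    push_cast at this; exact this
  have hd1 : (n₀ : ℤ) + 2 * g ≤ Divisor.degree (𝔡 + mulPlace Pinf c) := by
    rw [map_add, degree_mulPlace H.hresF]; exact hs2
  have hd3 : (n₀ : ℤ) + 2 * g ≤ Divisor.degree (mulPlace Pinf (c : ℤ)) := by
    rw [degree_mulPlace H.hresF]; exact hs1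
  rw [RedData.rhoExt, ← hc, map_sub, H.degree_rho _ hd1, H.degree_rho _ hd3, map_add]
  ring

/-- `ρ̃` is monotone. -/
theorem rhoExt_mono {𝔡 𝔡' : Divisor K F} (h : 𝔡 ≤ 𝔡') :
    R.rhoExt Pinf (n₀ + 2 * g) 𝔡 ≤ R.rhoExt Pinf (n₀ + 2 * g) 𝔡' := by
  have := H.hpdF
  have := H.hpdk
  set c : ℕ := RedData.shift (n₀ + 2 * g) 𝔡 + RedData.shift (n₀ + 2 * g) 𝔡' with hc
  have hpos : (0 : ℤ) ≤ (n₀ : ℤ) + 2 * g := by positivity
  have h1 := shift_ge (n₀ + 2 * g) 𝔡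
  have h2 := shift_ge' (n₀ + 2 * g) 𝔡
  have h1' := shift_ge (n₀ + 2 * g) 𝔡'
  have h2' := shift_ge' (n₀ + 2 * g) 𝔡'
  push_cast at h1 h2 h1' h2'
  have hc1 : (n₀ : ℤ) + 2 * g ≤ c := by rw [hc]; push_cast; linarith
  have hc2 : (n₀ : ℤ) + 2 * g ≤ Divisor.degree 𝔡 + c := by rw [hc]; push_cast; linarith
  have hc2' : (n₀ : ℤ) + 2 * g ≤ Divisor.degree 𝔡' + c := by rw [hc]; push_cast; linarith
  rw [H.rhoExt_eq 𝔡 c hc1 hc2, H.rhoExt_eq 𝔡' c hc1 hc2']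
  refine sub_le_sub_right ?_ _
  refine R.rho_mono H.hresF H.hresk Pinf (H.rr_ne_bot_of_degree ?_) (add_le_add_left h _)
  rw [map_add, degree_mulPlace H.hresF]
  linarith

theorem rhoExt_zero : R.rhoExt Pinf (n₀ + 2 * g) (0 : Divisor K F) = 0 := by
  have h := H.rhoExt_add 0 0
  rw [add_zero] at h
  exact left_eq_add.mp h

theorem rhoExt_nonneg {𝔡 : Divisor K F} (h : 0 ≤ 𝔡) : 0 ≤ R.rhoExt Pinf (n₀ + 2 * g) 𝔡 := by
  have := H.rhoExt_mono h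
  rwa [H.rhoExt_zero] at this

/-- `ρ̃ (div u) = div ū`. -/
theorem rhoExt_principal (u : R.O) (hu : R.red u ≠ 0) {Z : Divisor K F}
    (hZ : ∀ v : Place K F, Z v = v.ord (u : F)) {Z' : Divisor k Fb}
    (hZ' : ∀ v : Place k Fb, Z' v = v.ord (R.red u)) :
    R.rhoExt Pinf (n₀ + 2 * g) Z = Z' := by
  have := H.hpdF
  have := H.hpdk
  set c : ℕ := RedData.shift (n₀ + 2 * g) Z with hc
  have hs1 : (n₀ : ℤ) + 2 * g ≤ c := by
    have := shift_ge (n₀ + 2 * g) Z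
    push_cast at this; exact this
  have hne : riemannRochSpace (mulPlace Pinf (c : ℤ)) ≠ ⊥ := by
    refine H.rr_ne_bot_of_degree ?_
    rw [degree_mulPlace H.hresF]; linarith
  rw [RedData.rhoExt, ← hc, add_comm Z, R.rho_add_principal H.hresF H.hresk Pinf hne u hu hZ hZ']
  abel

/-- `ρ ≤ ρ̃` wherever `ρ` is defined. -/
theorem rho_le_rhoExt {𝔡 : Divisor K F} (h𝔡 : riemannRochSpace 𝔡 ≠ ⊥) :
    R.rho 𝔡 ≤ R.rhoExt Pinf (n₀ + 2 * g) 𝔡 := by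
  have := H.hpdF
  have := H.hpdk
  set c : ℕ := RedData.shift (n₀ + 2 * g) 𝔡 with hc
  have hs1 : (n₀ : ℤ) + 2 * g ≤ c := by
    have := shift_ge (n₀ + 2 * g) 𝔡
    push_cast at this; exact this
  have hne : riemannRochSpace (mulPlace Pinf (c : ℤ)) ≠ ⊥ := by
    refine H.rr_ne_bot_of_degree ?_
    rw [degree_mulPlace H.hresF]; linarith
  rw [RedData.rhoExt, ← hc, le_sub_iff_add_le]
  exact R.rho_add_le H.hresF H.hresk Pinf h𝔡 hne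

/-- The reduction of `L(𝔡)` lies in `L̄(ρ̃ 𝔡)`. -/
theorem redSpace_rr_le_rr_rhoExt (𝔡 : Divisor K F) :
    R.redSpace (riemannRochSpace 𝔡) ≤ riemannRochSpace (R.rhoExt Pinf (n₀ + 2 * g) 𝔡) := by
  have := H.hpdF
  have := H.hpdk
  by_cases h𝔡 : riemannRochSpace 𝔡 = ⊥
  · rintro _ ⟨f, hf, rfl⟩
    rw [h𝔡, Submodule.mem_bot] at hf
    have : f = 0 := Subtype.ext hf
    rw [this, map_zero]
    exact zero_mem _
  · exact (R.redSpace_rr_le_rr_rho H.hresF H.hresk Pinf h𝔡).trans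
      (rr_mono (H.rho_le_rhoExt h𝔡))

/-- **Semicontinuity.** -/
theorem finrank_rr_le_rhoExt (𝔡 : Divisor K F) :
    finrank K ↥(riemannRochSpace 𝔡) ≤
      finrank k ↥(riemannRochSpace (R.rhoExt Pinf (n₀ + 2 * g) 𝔡)) := by
  have := H.finite_rr_res (R.rhoExt Pinf (n₀ + 2 * g) 𝔡)
  rw [← H.finrank_redSpace_rr 𝔡]
  exact Submodule.finrank_mono (H.redSpace_rr_le_rr_rhoExt 𝔡)

/-- **Lifting of sections** in large degree: the reduction of `L(𝔞)` is all of `L̄(ρ̃ 𝔞)`. -/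
theorem redSpace_rr_eq (𝔞 : Divisor K F) (h𝔞 : (n₀ : ℤ) + 2 * g ≤ Divisor.degree 𝔞) :
    R.redSpace (riemannRochSpace 𝔞) = riemannRochSpace (R.rhoExt Pinf (n₀ + 2 * g) 𝔞) := by
  have := H.finite_rr_res (R.rhoExt Pinf (n₀ + 2 * g) 𝔞)
  refine Submodule.eq_of_le_of_finrank_le (H.redSpace_rr_le_rr_rhoExt 𝔞) ?_
  rw [H.finrank_redSpace_rr 𝔞]
  have h1 := H.riemann 𝔞
  have h2 := H.riemann_upper_res (R.rhoExt Pinf (n₀ + 2 * g) 𝔞)
    (by rw [H.degree_rhoExt]; linarith)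
  rw [H.degree_rhoExt] at h2
  have h3 : (finrank k ↥(riemannRochSpace (R.rhoExt Pinf (n₀ + 2 * g) 𝔞)) : ℤ) ≤
      finrank K ↥(riemannRochSpace 𝔞) := by linarith
  exact_mod_cast h3

end Hyp

end Fermat.Agent.DEU
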