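import Fermat.Agent.DEU.Main2

/-!
# DEU — Deuring's dimension count, part 3: the reduction of places

`Hyp.exists_reduction` : under the hypotheses `Hyp` there is a map
`r : Place K F → Place k Fb` with

* `r_* (div u) = div ū` for every `u ∈ O` with nonzero reduction;
* `red (L(D)) ⊆ L̄(r_* D)` and `dim L(D) ≤ dim L̄(r_* D)` (semicontinuity);
* `red (L(D)) = L̄(r_* D)` for `deg D ≥ n₀ + 2g` (lifting of sections);
* `r_* D = ρ D = dv (red (L(D)))` for `deg D ≥ n₀ + 2g` (so `r` is canonical);
* orthonormal bases (`Hyp.exists_orth`).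
-/

set_option autoImplicit false

open AlgebraicCurve Module

namespace Fermat.Agent.DEU

open Fermat.Agent.ES.R

variable {K F k Fb : Type*} [Field K] [Field F] [Algebra K F] [Field k] [Field Fb] [Algebra k Fb]

/-- An effective divisor of degree one is a place. -/
theorem exists_single_of_degree_one
    (hres : ∀ v : Place K F, Function.Bijective (algebraMap K v.ResidueField))
    {E : Divisor K F} (h0 : 0 ≤ E) (hdeg : Divisor.degree E = 1) :
    ∃ Q : Place K F, E = Finsupp.single Q 1 := by
  classical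
  have hE : E ≠ 0 := by
    intro h
    rw [h, map_zero] at hdeg
    exact zero_ne_one hdeg
  obtain ⟨Q, hQ⟩ := Finsupp.ne_iff.mp hE
  rw [Finsupp.zero_apply] at hQ
  have hQ0 : 0 ≤ E Q := by simpa using Finsupp.le_def.mp h0 Q
  have hQ1 : 1 ≤ E Q := by omega
  refine ⟨Q, ?_⟩
  have h1 : E - Finsupp.single Q 1 = 0 := by
    refine dv_eq_zero_of_nonneg_of_degree_le hres ?_ ?_
    · rw [Finsupp.le_def]
      intro v
      rw [Finsupp.zero_apply, Finsupp.sub_apply]
      by_cases hv : v = Q
      · subst hv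
        rw [Finsupp.single_eq_same]
        linarith
      · rw [Finsupp.single_eq_of_ne hv]
        have : 0 ≤ E v := by simpa using Finsupp.le_def.mp h0 v
        linarith
    · rw [map_sub, hdeg, Divisor.degree_single, place_deg_eq_one Q (hres Q)]
      simp
  exact sub_eq_zero.mp h1

namespace Hyp

variable {R : RedData K F k Fb} {Pinf : Place K F} {Qinf : Place k Fb} {g n₀ : ℕ}
  (H : Hyp R Pinf Qinf g n₀)

/-- `ρ̃` as a homomorphism. -/
noncomputable def rhoHom : Divisor K F →+ Divisor k Fb :=
  AddMonoidHom.mk' (R.rhoExt Pinf (n₀ + 2 * g)) H.rhoExt_add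

@[simp] theorem rhoHom_apply (D : Divisor K F) : H.rhoHom D = R.rhoExt Pinf (n₀ + 2 * g) D := rfl

include H in
theorem exists_place (P : Place K F) :
    ∃ Q : Place k Fb, R.rhoExt Pinf (n₀ + 2 * g) (Finsupp.single P 1) = Finsupp.single Q 1 := by
  refine exists_single_of_degree_one H.hresk (H.rhoExt_nonneg ?_) ?_
  · rw [Finsupp.le_def]
    intro v
    classical
    by_cases hv : v = P
    · subst hv; simp
    · rw [Finsupp.single_eq_of_ne hv]; simp
  · rw [H.degree_rhoExt, Divisor.degree_single, place_deg_eq_one P (H.hresF P)]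
    simp

/-- **The reduction of places.** -/
noncomputable def r (P : Place K F) : Place k Fb := (H.exists_place P).choose

theorem rhoExt_single (P : Place K F) :
    R.rhoExt Pinf (n₀ + 2 * g) (Finsupp.single P 1) = Finsupp.single (H.r P) 1 :=
  (H.exists_place P).choose_spec

theorem rhoHom_eq_mapDomain : H.rhoHom = Finsupp.mapDomain.addMonoidHom H.r := by
  refine Finsupp.addHom_ext fun P n => ?_
  rw [Finsupp.mapDomain.addMonoidHom_apply, Finsupp.mapDomain_single]
  have h1 : (Finsupp.single P n : Divisor K F) = n • Finsupp.single P 1 := by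
    rw [Finsupp.smul_single, smul_eq_mul, mul_one]
  rw [h1, map_zsmul, rhoHom_apply, H.rhoExt_single, Finsupp.smul_single, smul_eq_mul, mul_one]

theorem rhoExt_eq_mapDomain (D : Divisor K F) :
    R.rhoExt Pinf (n₀ + 2 * g) D = Finsupp.mapDomain H.r D := by
  rw [← rhoHom_apply, rhoHom_eq_mapDomain]
  rfl

theorem deg_r (P : Place K F) : (H.r P).deg = P.deg := by
  rw [place_deg_eq_one _ (H.hresk _), place_deg_eq_one _ (H.hresF _)]

/-- `r_* (div u) = div ū`. -/
theorem mapDomain_r_principal (u : R.O) (hu : R.red u ≠ 0) (D : Divisor K F)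
    (hD : ∀ P : Place K F, D P = P.ord (u : F)) (Q : Place k Fb) :
    Finsupp.mapDomain H.r D Q = Q.ord (R.red u) := by
  have := H.hpdk
  obtain ⟨Z', hZ', -⟩ := HasPrincipalDivisors.exists_divisor (K := k) (R.red u) hu
  rw [← H.rhoExt_eq_mapDomain, H.rhoExt_principal u hu hD hZ', hZ']

/-- `red (L(D)) ⊆ L̄(r_* D)`. -/
theorem redSpace_rr_le_mapDomain (D : Divisor K F) :
    R.redSpace (riemannRochSpace D) ≤ riemannRochSpace (Finsupp.mapDomain H.r D) := by
  rw [← H.rhoExt_eq_mapDomain]
  exact H.redSpace_rr_le_rr_rhoExt D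

/-- semicontinuity -/
theorem finrank_rr_le_mapDomain (D : Divisor K F) :
    finrank K ↥(riemannRochSpace D) ≤ finrank k ↥(riemannRochSpace (Finsupp.mapDomain H.r D)) := by
  rw [← H.rhoExt_eq_mapDomain]
  exact H.finrank_rr_le_rhoExt D

/-- lifting of sections in large degree -/
theorem redSpace_rr_eq_mapDomain (D : Divisor K F)
    (hD : (n₀ : ℤ) + 2 * g ≤ Divisor.degree D) :
    R.redSpace (riemannRochSpace D) = riemannRochSpace (Finsupp.mapDomain H.r D) := by
  rw [← H.rhoExt_eq_mapDomain]
  exact H.redSpace_rr_eq D hD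

/-- `r_* D` is the least divisor bounding the reduction of `L(D)`, in large degree. -/
theorem mapDomain_r_eq_rho (D : Divisor K F) (hD : (n₀ : ℤ) + 2 * g ≤ Divisor.degree D) :
    Finsupp.mapDomain H.r D = R.rho D := by
  rw [← H.rhoExt_eq_mapDomain]
  exact H.rhoExt_eq_rho D hD

theorem isLeast_mapDomain_r (D : Divisor K F) (hD : (n₀ : ℤ) + 2 * g ≤ Divisor.degree D) :
    IsLeast (bounds (R.redSpace (riemannRochSpace D))) (Finsupp.mapDomain H.r D) := by
  have := H.hpdF
  have := H.hpdk
  rw [H.mapDomain_r_eq_rho D hD]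
  have hne : riemannRochSpace D ≠ ⊥ := H.rr_ne_bot_of_degree (by linarith)
  have := R.finite_redSpace_rr H.hresF Pinf D
  exact dv_isLeast H.hresk _ (R.redSpace_ne_bot hne)

/-- **Orthonormal bases** of the spaces `L(D)`. -/
theorem exists_orth (D : Divisor K F) :
    ∃ (n : ℕ) (e : Fin n → F) (he : ∀ i, e i ∈ R.O),
      Submodule.span K (Set.range e) = riemannRochSpace D ∧
      LinearIndependent k (fun i => R.red ⟨e i, he i⟩) ∧
      ∀ i, R.red ⟨e i, he i⟩ ∈ riemannRochSpace (Finsupp.mapDomain H.r D) := by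
  classical
  have hfin := H.finite_rr D
  have hfin' : Module.Finite k ↥(R.redSpace (riemannRochSpace D)) := inferInstance
  set n := finrank K ↥(riemannRochSpace D) with hn
  have hn' : finrank k ↥(R.redSpace (riemannRochSpace D)) = n := H.finrank_redSpace_rr D
  let b := Module.finBasisOfFinrankEq k ↥(R.redSpace (riemannRochSpace D)) hn'
  have hex : ∀ i : Fin n, ∃ f : R.O, (f : F) ∈ riemannRochSpace D ∧ R.red f = (b i : Fb) :=
    fun i => (b i).2
  choose f hfD hfred using hex
  have hlik : LinearIndependent k (fun i => R.red (f i)) := by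
    have h1 : LinearIndependent k (fun i => ((b i : ↥(R.redSpace (riemannRochSpace D))) : Fb)) :=
      b.linearIndependent.map' (R.redSpace (riemannRochSpace D)).subtype
        (Submodule.ker_subtype _)
    convert h1 using 2
    exact hfred _
  have hliK := R.linearIndependent_of_red f hlik
  let e' : Fin n → ↥(riemannRochSpace D) := fun i => ⟨(f i : F), hfD i⟩
  have hliK' : LinearIndependent K e' :=
    LinearIndependent.of_comp (riemannRochSpace D).subtype hliK
  have hspan' : Submodule.span K (Set.range e') = ⊤ :=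
    hliK'.span_eq_top_of_card_eq_finrank' (by rw [Fintype.card_fin])
  refine ⟨n, fun i => (f i : F), fun i => (f i).2, ?_, ?_, ?_⟩
  · have h2 : Set.range (fun i => (f i : F)) = (riemannRochSpace D).subtype '' Set.range e' := by
      rw [← Set.range_comp]
      rfl
    rw [h2, Submodule.span_image, hspan', Submodule.map_subtype_top]
  · exact hlik
  · intro i
    exact H.redSpace_rr_le_mapDomain D (R.red_mem_redSpace (f i) (hfD i))

/-- **Deuring's reduction of places** (summary). -/
theorem exists_reduction (H : Hyp R Pinf Qinf g n₀) :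
    ∃ r : Place K F → Place k Fb,
      (∀ P, (r P).deg = P.deg) ∧
      (∀ u : R.O, R.red u ≠ 0 → ∀ D : Divisor K F, (∀ P : Place K F, D P = P.ord (u : F)) →
        ∀ Q : Place k Fb, Finsupp.mapDomain r D Q = Q.ord (R.red u)) ∧
      (∀ D : Divisor K F,
        R.redSpace (riemannRochSpace D) ≤ riemannRochSpace (Finsupp.mapDomain r D)) ∧
      (∀ D : Divisor K F, (n₀ : ℤ) + 2 * g ≤ Divisor.degree D →
        IsLeast (bounds (R.redSpace (riemannRochSpace D))) (Finsupp.mapDomain r D)) ∧
      (∀ D : Divisor K F, (n₀ : ℤ) + 2 * g ≤ Divisor.degree D →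
        R.redSpace (riemannRochSpace D) = riemannRochSpace (Finsupp.mapDomain r D)) ∧
      (∀ D : Divisor K F, ∃ (n : ℕ) (e : Fin n → F) (he : ∀ i, e i ∈ R.O),
        Submodule.span K (Set.range e) = riemannRochSpace D ∧
        LinearIndependent k (fun i => R.red ⟨e i, he i⟩) ∧
        ∀ i, R.red ⟨e i, he i⟩ ∈ riemannRochSpace (Finsupp.mapDomain r D)) :=
  ⟨H.r, H.deg_r, H.mapDomain_r_principal, H.redSpace_rr_le_mapDomain, H.isLeast_mapDomain_r,
    H.redSpace_rr_eq_mapDomain, H.exists_orth⟩

end Hyp

end Fermat.Agent.DEU
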