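import Fermat.Agent.ES.Kronecker

/-!
# DEU / MPR-res, step (ii): `p`-power roots in `k((q))`

`k` a perfect field of characteristic `p`.  A Laurent series is a `p`-th power iff all its
exponents are divisible by `p`; every non-constant Laurent series is `w ^ (p ^ e)` with `w` not a
`p`-th power (`resLaurent_exists_root`).
-/

set_option autoImplicit false
set_option linter.unusedSectionVars false
set_option linter.style.haveILetI false

open ModularCurve HahnSeries

namespace Fermat.Agent.DEU

open Fermat.Agent.ES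

variable {k : Type*} [Field k] (p : ℕ) [Fact p.Prime] [CharP k p]

theorem resLaurent_pow_eq (u : LaurentSeries k) :
    haveI : NeZero p := ⟨(Fact.out : p.Prime).ne_zero⟩
    u ^ p = qExpand k p (coeffMap (frobenius k p) u) := by
  haveI : NeZero p := ⟨(Fact.out : p.Prime).ne_zero⟩
  exact kron_frobenius_pow p u

theorem resLaurent_coeff_pow_mul (u : LaurentSeries k) (n : ℤ) :
    (u ^ p).coeff ((p : ℤ) * n) = (u.coeff n) ^ p := by
  haveI : NeZero p := ⟨(Fact.out : p.Prime).ne_zero⟩
  rw [resLaurent_pow_eq, qExpand_coeff_mul]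
  rfl

theorem resLaurent_coeff_pow_of_not_dvd (u : LaurentSeries k) {m : ℤ} (h : ¬ (p : ℤ) ∣ m) :
    (u ^ p).coeff m = 0 := by
  haveI : NeZero p := ⟨(Fact.out : p.Prime).ne_zero⟩
  rw [resLaurent_pow_eq]
  exact qExpand_coeff_of_not_dvd p _ h

variable [PerfectRing k p]

/-- A Laurent series with exponents divisible by `p` is a `p`-th power. -/
theorem resLaurent_exists_pow_eq (y : LaurentSeries k)
    (h : ∀ m : ℤ, ¬ (p : ℤ) ∣ m → y.coeff m = 0) : ∃ w : LaurentSeries k, w ^ p = y := by
  haveI : NeZero p := ⟨(Fact.out : p.Prime).ne_zero⟩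
  refine ⟨coeffMap ((frobeniusEquiv k p).symm : k →+* k) (kronCompress p y), ?_⟩
  rw [resLaurent_pow_eq]
  have h1 : coeffMap (frobenius k p)
      (coeffMap ((frobeniusEquiv k p).symm : k →+* k) (kronCompress p y)) = kronCompress p y := by
    ext n
    change frobenius k p ((frobeniusEquiv k p).symm ((kronCompress p y).coeff n)) = _
    exact frobenius_apply_frobeniusEquiv_symm k p _
  rw [h1]
  exact qExpand_kronCompress p y h

/-- Every non-constant Laurent series is `w ^ (p ^ e)` with `w` not a `p`-th power. -/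
theorem resLaurent_exists_root (y : LaurentSeries k) (hy : ∃ n : ℤ, n ≠ 0 ∧ y.coeff n ≠ 0) :
    ∃ (e : ℕ) (w : LaurentSeries k), w ^ (p ^ e) = y ∧ ∀ u : LaurentSeries k, u ^ p ≠ w := by
  have hp : p.Prime := Fact.out
  obtain ⟨n, hn0, hn⟩ := hy
  induction hN : n.natAbs using Nat.strong_induction_on generalizing y n with
  | _ N ih =>
    by_cases hpow : ∃ u : LaurentSeries k, u ^ p = y
    · obtain ⟨u, rfl⟩ := hpow
      have hdvd : (p : ℤ) ∣ n := by
        by_contra hnd
        exact hn (resLaurent_coeff_pow_of_not_dvd p u hnd)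
      obtain ⟨m, rfl⟩ := hdvd
      rw [resLaurent_coeff_pow_mul] at hn
      have hm : u.coeff m ≠ 0 := fun h0 => hn (by rw [h0, zero_pow hp.ne_zero])
      have hm0 : m ≠ 0 := fun h0 => hn0 (by rw [h0, mul_zero])
      have hlt : m.natAbs < N := by
        rw [← hN, Int.natAbs_mul, Int.natAbs_natCast]
        have : 0 < m.natAbs := Int.natAbs_pos.mpr hm0
        calc m.natAbs = 1 * m.natAbs := (one_mul _).symm
          _ < p * m.natAbs := Nat.mul_lt_mul_of_pos_right hp.one_lt this
      obtain ⟨e, w, hw, hwp⟩ := ih m.natAbs hlt u m hm0 hm rfl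
      exact ⟨e + 1, w, by rw [pow_succ, pow_mul, hw], hwp⟩
    · exact ⟨0, y, by simp, fun u hu => hpow ⟨u, hu⟩⟩

end Fermat.Agent.DEU
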