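import Fermat.Agent.DEU.ResFund
import Fermat.Agent.DEU.ResSepMain
import Fermat.Agent.S24.PrincipalDegree
import Fermat.Agent.S24.Residue
import Fermat.Agent.S24.Transc

/-!
# DEU / MPR-res, step (iv): principal divisors in characteristic `p`

`k` algebraically closed of characteristic `p`, `k ⊂ F ⊂ E` fields, `F` finite over `k(x)` with `x`
transcendental, and every transcendental `y ∈ F` is `z ^ (p ^ e)` with `z ∈ F` not a `p`-th power in
`E`.  Then `F / k` has principal divisors (`resPD_hasPrincipalDivisors`).

Proof: `z` and `z⁻¹` are separating (`resSep_isSeparable`), so the fundamental identity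
(`resFund_sum_ord_eq_finrank`) holds for both; `div z` has degree `0` and `div y = p ^ e • div z`.
-/

set_option autoImplicit false
set_option linter.unusedSectionVars false
set_option linter.unusedVariables false
set_option linter.style.haveILetI false

noncomputable section

open AlgebraicCurve IntermediateField

namespace Fermat.Agent.DEU

open Fermat.Agent.S24

section Generic

variable {K F : Type*} [Field K] [Field F] [Algebra K F]

/-- the degree of a divisor when all places have degree one -/
theorem resPD_degree_eq_sum (hdeg : ∀ v : Place K F, v.deg = 1) (D : Divisor K F) :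
    Divisor.degree D = ∑ v ∈ D.support, D v := by
  rw [Divisor.degree, Finsupp.liftAddHom_apply, Finsupp.sum]
  refine Finset.sum_congr rfl fun v _ => ?_
  simp [hdeg v]

/-- **The divisor of a separating element**: if the fundamental identity holds for `z` and `z⁻¹`,
then `z` has a divisor, of degree `0`. -/
theorem resPD_exists_divisor_of_sum (hdeg : ∀ v : Place K F, v.deg = 1) (z : F)
    (hp : ∃ V : Finset (Place K F), (∀ v, v ∈ V ↔ 0 < v.ord z) ∧
      ∑ v ∈ V, v.ord z = (Module.finrank K⟮z⟯ F : ℤ))
    (hm : ∃ V : Finset (Place K F), (∀ v, v ∈ V ↔ 0 < v.ord z⁻¹) ∧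
      ∑ v ∈ V, v.ord z⁻¹ = (Module.finrank K⟮z⁻¹⟯ F : ℤ)) :
    ∃ D : Divisor K F, (∀ v : Place K F, D v = v.ord z) ∧ Divisor.degree D = 0 := by
  classical
  obtain ⟨Vp, hVp, hsp⟩ := hp
  obtain ⟨Vm, hVm, hsm⟩ := hm
  rw [pd_finrank_eq_of_eq (pd_adjoin_inv_eq (K := K) z)] at hsm
  have hsuppD : ∀ v : Place K F, v.ord z ≠ 0 → v ∈ Vp ∪ Vm := by
    intro v hv
    rw [Finset.mem_union, hVp, hVm, Place.ord_inv]
    rcases lt_or_gt_of_ne hv with h | h
    · right; omega
    · left; exact h
  set D : Divisor K F := Finsupp.onFinset (Vp ∪ Vm) (fun v => v.ord z) hsuppD with hDdef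
  have hD : ∀ v : Place K F, D v = v.ord z := fun v => rfl
  refine ⟨D, hD, ?_⟩
  have hdisj : Disjoint Vp Vm := by
    rw [Finset.disjoint_left]
    intro v hv hv'
    have h1 := (hVp v).mp hv
    have h2 := (hVm v).mp hv'
    rw [v.ord_inv] at h2
    omega
  have hsupp : D.support = Vp ∪ Vm := by
    ext v
    rw [Finsupp.mem_support_iff, Finset.mem_union, hVp, hVm, hD v, v.ord_inv]
    omega
  rw [resPD_degree_eq_sum hdeg, hsupp, Finset.sum_union hdisj]
  have e1 : ∑ v ∈ Vp, D v = ∑ v ∈ Vp, v.ord z := Finset.sum_congr rfl fun v _ => hD v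
  have e2 : ∑ v ∈ Vm, D v = -∑ v ∈ Vm, v.ord z⁻¹ := by
    rw [← Finset.sum_neg_distrib]
    exact Finset.sum_congr rfl fun v _ => by rw [hD v, v.ord_inv, neg_neg]
  rw [e1, e2, hsp, hsm]
  ring

/-- the divisor of a power -/
theorem resPD_exists_divisor_pow {z : F} (n : ℕ)
    (h : ∃ D : Divisor K F, (∀ v : Place K F, D v = v.ord z) ∧ Divisor.degree D = 0) :
    ∃ D : Divisor K F, (∀ v : Place K F, D v = v.ord (z ^ n)) ∧ Divisor.degree D = 0 := by
  obtain ⟨D, hD, hdeg⟩ := h
  refine ⟨(n : ℤ) • D, fun v => ?_, ?_⟩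
  · rw [Finsupp.smul_apply, smul_eq_mul, hD v, ← zpow_natCast, Place.ord_zpow]
  · rw [map_zsmul, hdeg, smul_zero]

end Generic

section CharP

variable {k E : Type*} [Field k] [Field E] [Algebra k E] [IsAlgClosed k]

/-- **MPR-res (iv).**  Principal divisors for a function field of one variable in
characteristic `p`, all of whose transcendental elements are `p`-power powers of elements that are
not `p`-th powers in an ambient field `E`. -/
theorem resPD_hasPrincipalDivisors (p : ℕ) [Fact p.Prime] [CharP k p]
    (F : IntermediateField k E) (x : F) (hx : Transcendental k x) [FiniteDimensional k⟮x⟯ F]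
    (hroot : ∀ y : F, Transcendental k y →
      ∃ (e : ℕ) (z : F), z ^ (p ^ e) = y ∧ ∀ w : E, w ^ p ≠ (z : E)) :
    AlgebraicCurve.HasPrincipalDivisors k F where
  exists_divisor g hg := by
    classical
    have hp : p.Prime := Fact.out
    have halgx : Algebra.IsAlgebraic k⟮x⟯ F := Algebra.IsAlgebraic.of_finite _ _
    have hdeg : ∀ v : Place k F, v.deg = 1 := fun v => deg_eq_one x hx halgx v
    by_cases hgt : Transcendental k g
    · obtain ⟨e, z, hzg, hz⟩ := hroot g hgt
      have hzt : Transcendental k z := by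
        intro hzalg
        apply hgt
        rw [← hzg]
        exact hzalg.pow _
      have hzt' : Transcendental k z⁻¹ := pd_transcendental_inv hzt
      have hz0 : z ≠ 0 := by
        rintro rfl
        exact hzt (isAlgebraic_zero)
      have hz' : ∀ w : E, w ^ p ≠ ((z⁻¹ : F) : E) := by
        intro w hw
        apply hz w⁻¹
        rw [inv_pow, hw]
        simp
      haveI hfd : FiniteDimensional k⟮z⟯ F :=
        pd_finiteDimensional_adjoin_of_transcendental x hx z hzt
      haveI hfd' : FiniteDimensional k⟮z⁻¹⟯ F :=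
        pd_finiteDimensional_adjoin_of_transcendental x hx z⁻¹ hzt'
      haveI : Algebra.IsAlgebraic k⟮z⟯ F := Algebra.IsAlgebraic.of_finite _ _
      haveI : Algebra.IsAlgebraic k⟮z⁻¹⟯ F := Algebra.IsAlgebraic.of_finite _ _
      haveI : PerfectRing k p := inferInstance
      haveI hsep : Algebra.IsSeparable k⟮z⟯ F := resSep_isSeparable p F z hz
      haveI hsep' : Algebra.IsSeparable k⟮z⁻¹⟯ F := resSep_isSeparable p F z⁻¹ hz'
      have h1 := resPD_exists_divisor_of_sum hdeg z (resFund_sum_ord_eq_finrank z hzt)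
        (resFund_sum_ord_eq_finrank z⁻¹ hzt')
      have h2 := resPD_exists_divisor_pow (p ^ e) h1
      rw [hzg] at h2
      exact h2
    · have halg : IsAlgebraic k g := not_not.mp hgt
      obtain ⟨c, rfl⟩ := mem_range_algebraMap_of_isAlgebraic halg
      exact ⟨0, fun v => by simp [PlaceAux.ord_algebraMap], map_zero _⟩

end CharP

end Fermat.Agent.DEU
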