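import Mathlib

/-!
# DEU / MPR-res, step 1: a criterion for separating elements (MacLane)

`k` perfect of characteristic `p`, `k ⊂ F ⊂ E` fields, `z ∈ F` not a `p`-th power in `E`, `F`
algebraic over `k(z)`.  Then `F / k(z)` is separable (`resSep_isSeparable`).

* `resSep_li` : `1, z, …, z^{p-1}` are linearly independent over `E^p`;
* `resSep_decomp` : every element of `k(z)` is `Σ_{i<p} aᵢ^p zⁱ` with `aᵢ ∈ k(z)`.
-/

set_option autoImplicit false
set_option linter.unusedSectionVars false
set_option linter.style.haveILetI false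

open Polynomial IntermediateField

namespace Fermat.Agent.DEU

/-- If `z` is not a `p`-th power in `E`, then `1, z, …, z^{p-1}` are linearly independent over
`E^p`. -/
theorem resSep_li {E : Type*} [Field E] (p : ℕ) [Fact p.Prime] [CharP E p] (z : E)
    (hz : ∀ w : E, w ^ p ≠ z) (b : Fin p → E) (h : ∑ i, (b i) ^ p * z ^ (i : ℕ) = 0) :
    ∀ i, b i = 0 := by
  classical
  have hp : p.Prime := Fact.out
  set S : Subfield E := (frobenius E p).fieldRange with hS
  have hmemS : ∀ w : E, w ^ p ∈ S := fun w => ⟨w, by simp [frobenius_def]⟩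
  have hzS : z ∉ S := by
    rintro ⟨w, hw⟩
    exact hz w (by simpa [frobenius_def] using hw)
  let P : S[X] := X ^ p - C ⟨z ^ p, hmemS z⟩
  have hP : aeval z P = 0 := by
    simp only [P, map_sub, map_pow, aeval_X, aeval_C]
    exact sub_self _
  have hPmonic : P.Monic := monic_X_pow_sub_C _ hp.ne_zero
  have hint : IsIntegral S z := ⟨P, hPmonic, hP⟩
  have hmdvd : minpoly S z ∣ P := minpoly.dvd S z hP
  have hPmap : P.map (algebraMap S E) = (X - C z) ^ p := by
    simp only [P, Polynomial.map_sub, Polynomial.map_pow, map_X, map_C]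
    rw [sub_pow_char, ← C_pow]
    rfl
  have hmap : (minpoly S z).map (algebraMap S E) ∣ (X - C z) ^ p := by
    rw [← hPmap]
    exact Polynomial.map_dvd (algebraMap S E) hmdvd
  obtain ⟨d, hd, hassoc⟩ := (dvd_prime_pow (prime_X_sub_C z) p).1 hmap
  have heq : (minpoly S z).map (algebraMap S E) = (X - C z) ^ d :=
    eq_of_monic_of_associated ((minpoly.monic hint).map _) ((monic_X_sub_C z).pow d) hassoc
  have hdeg : (minpoly S z).natDegree = d := by
    have := congrArg natDegree heq
    rw [natDegree_map, (monic_X_sub_C z).natDegree_pow, natDegree_X_sub_C, mul_one] at this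
    exact this
  have hdp : p ≤ d := by
    by_contra hlt
    rw [not_le] at hlt
    have hd1 : 0 < d := by
      rw [← hdeg]; exact minpoly.natDegree_pos hint
    have hnc : algebraMap S E (minpoly S z).nextCoeff = d • (-z) := by
      rw [← nextCoeff_map (algebraMap S E).injective, heq, (monic_X_sub_C z).nextCoeff_pow,
        nextCoeff_X_sub_C]
    have hmem : d • (-z) ∈ S := by
      rw [← hnc]; exact (minpoly S z).nextCoeff.2
    have hdne : (d : E) ≠ 0 := by
      intro h0
      have := (CharP.cast_eq_zero_iff E p d).mp h0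
      exact absurd (Nat.le_of_dvd hd1 this) (not_le.mpr hlt)
    apply hzS
    have hz' : z = -((d : E)⁻¹ * (d • (-z))) := by
      rw [nsmul_eq_mul]
      field_simp
    rw [hz']
    exact S.neg_mem (S.mul_mem (S.inv_mem (natCast_mem S d)) hmem)
  -- the polynomial `Q`
  let c : Fin p → S := fun i => ⟨(b i) ^ p, hmemS (b i)⟩
  let Q : S[X] := ∑ i : Fin p, C (c i) * X ^ (i : ℕ)
  have hQ : aeval z Q = 0 := by
    simp only [Q, map_sum, map_mul, aeval_C, map_pow, aeval_X]
    exact h
  have hQdeg : Q.degree < p := degree_sum_fin_lt c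
  have hQ0 : Q = 0 := by
    by_contra hne
    have h1 := minpoly.degree_le_of_ne_zero S z hne hQ
    have h2 : (minpoly S z).degree = d := by
      rw [degree_eq_natDegree (minpoly.ne_zero hint), hdeg]
    rw [h2] at h1
    have h3 : (d : WithBot ℕ) < p := lt_of_le_of_lt h1 hQdeg
    exact absurd (by exact_mod_cast h3) (not_lt.mpr hdp)
  intro i
  have hci : Q.coeff i = c i := by
    simp only [Q, finsetSum_coeff, coeff_C_mul, coeff_X_pow]
    rw [Finset.sum_eq_single i]
    · simp
    · intro j _ hji
      have : (i : ℕ) ≠ (j : ℕ) := fun h => hji (Fin.ext h.symm)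
      simp [this]
    · intro h; exact absurd (Finset.mem_univ i) h
  rw [hQ0, coeff_zero] at hci
  have : (b i) ^ p = 0 := by
    have := congrArg (fun s : S => (s : E)) hci
    simpa [c] using this.symm
  exact pow_eq_zero_iff hp.ne_zero |>.mp this

/-! ### Decomposition of `k(z)` over its `p`-th powers -/

section Decomp

variable {k M : Type*} [Field k] [Field M] [Algebra k M] (p : ℕ) [Fact p.Prime] [CharP k p]
  [PerfectRing k p] (z : M)

/-- `c = Σ_{i<p} aᵢ^p zⁱ` with `aᵢ ∈ k(z)` -/
def ResSepT (c : M) : Prop :=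
  ∃ a : Fin p → M, (∀ i, a i ∈ k⟮z⟯) ∧ c = ∑ i, (a i) ^ p * z ^ (i : ℕ)

variable {p z}

omit [PerfectRing k p] in
theorem ResSepT.mem {c : M} (h : ResSepT (k := k) p z c) : c ∈ k⟮z⟯ := by
  obtain ⟨a, ha, rfl⟩ := h
  refine sum_mem fun i _ => mul_mem (pow_mem (ha i) _) (pow_mem (mem_adjoin_simple_self k z) _)

omit [PerfectRing k p] in
theorem ResSepT.zero : ResSepT (k := k) p z 0 :=
  ⟨fun _ => 0, fun _ => zero_mem _, by simp [(Fact.out : p.Prime).ne_zero]⟩

omit [PerfectRing k p] in
theorem ResSepT.add {c c' : M} (h : ResSepT (k := k) p z c) (h' : ResSepT (k := k) p z c') :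
    ResSepT (k := k) p z (c + c') := by
  haveI : CharP M p := charP_of_injective_algebraMap (algebraMap k M).injective p
  obtain ⟨a, ha, rfl⟩ := h
  obtain ⟨a', ha', rfl⟩ := h'
  refine ⟨fun i => a i + a' i, fun i => add_mem (ha i) (ha' i), ?_⟩
  rw [← Finset.sum_add_distrib]
  refine Finset.sum_congr rfl fun i _ => ?_
  rw [add_pow_char, add_mul]

omit [PerfectRing k p] in
theorem ResSepT.sum {ι : Type*} (s : Finset ι) (f : ι → M)
    (h : ∀ i ∈ s, ResSepT (k := k) p z (f i)) : ResSepT (k := k) p z (∑ i ∈ s, f i) := by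
  classical
  induction s using Finset.induction_on with
  | empty => simpa using ResSepT.zero
  | insert i s hi ih =>
    rw [Finset.sum_insert hi]
    exact (h i (Finset.mem_insert_self i s)).add
      (ih fun j hj => h j (Finset.mem_insert_of_mem hj))

omit [PerfectRing k p] in
theorem ResSepT.monomial {d : M} (hd : d ∈ k⟮z⟯) (n : ℕ) :
    ResSepT (k := k) p z (d ^ p * z ^ n) := by
  classical
  have hp : p.Prime := Fact.out
  have hlt : n % p < p := Nat.mod_lt _ hp.pos
  refine ⟨fun i => if i = ⟨n % p, hlt⟩ then d * z ^ (n / p) else 0, fun i => ?_, ?_⟩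
  · by_cases hi : i = ⟨n % p, hlt⟩
    · simp only [hi, if_true]
      exact mul_mem hd (pow_mem (mem_adjoin_simple_self k z) _)
    · simp only [hi, if_false]; exact zero_mem _
  · rw [Finset.sum_eq_single (⟨n % p, hlt⟩ : Fin p)]
    · simp only [if_true]
      rw [mul_pow, ← pow_mul, mul_assoc, ← pow_add]
      congr 2
      exact (Nat.div_add_mod' n p).symm
    · intro j _ hj
      simp [hj, hp.ne_zero]
    · intro h; exact absurd (Finset.mem_univ _) h

omit [PerfectRing k p] in
theorem ResSepT.mul {c c' : M} (h : ResSepT (k := k) p z c) (h' : ResSepT (k := k) p z c') :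
    ResSepT (k := k) p z (c * c') := by
  obtain ⟨a, ha, rfl⟩ := h
  obtain ⟨a', ha', rfl⟩ := h'
  rw [Finset.sum_mul_sum]
  refine ResSepT.sum _ _ fun i _ => ResSepT.sum _ _ fun j _ => ?_
  have : a i ^ p * z ^ (i : ℕ) * (a' j ^ p * z ^ (j : ℕ)) =
      (a i * a' j) ^ p * z ^ ((i : ℕ) + (j : ℕ)) := by
    rw [mul_pow, pow_add]; ring
  rw [this]
  exact ResSepT.monomial (mul_mem (ha i) (ha' j)) _

omit [PerfectRing k p] in
theorem ResSepT.one : ResSepT (k := k) p z 1 := by
  have := ResSepT.monomial (k := k) (p := p) (z := z) (one_mem _) 0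
  simpa using this

omit [PerfectRing k p] in
theorem ResSepT.pow {c : M} (h : ResSepT (k := k) p z c) (n : ℕ) :
    ResSepT (k := k) p z (c ^ n) := by
  induction n with
  | zero => simpa using ResSepT.one
  | succ n ih => rw [pow_succ]; exact ih.mul h

omit [PerfectRing k p] in
theorem ResSepT.inv {c : M} (h : ResSepT (k := k) p z c) : ResSepT (k := k) p z c⁻¹ := by
  have hp : p.Prime := Fact.out
  rcases eq_or_ne c 0 with rfl | hc
  · simpa using ResSepT.zero
  · have h1 : c⁻¹ = (c⁻¹) ^ p * z ^ 0 * c ^ (p - 1) := by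
      have : c ^ p = c ^ (p - 1) * c := by
        rw [← pow_succ, Nat.sub_add_cancel hp.one_le]
      rw [pow_zero, mul_one, inv_pow, this]
      field_simp
    rw [h1]
    exact (ResSepT.monomial (inv_mem h.mem) 0).mul (h.pow _)

theorem resSep_decomp {c : M} (hc : c ∈ k⟮z⟯) : ResSepT (k := k) p z c := by
  induction hc using IntermediateField.adjoin_induction with
  | mem x hx =>
    rw [Set.mem_singleton_iff] at hx
    subst hx
    have := ResSepT.monomial (k := k) (p := p) (z := x) (one_mem _) 1
    simpa using this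
  | algebraMap x =>
    obtain ⟨y, rfl⟩ := (frobeniusEquiv k p).surjective x
    have := ResSepT.monomial (k := k) (p := p) (z := z) ((k⟮z⟯).algebraMap_mem y) 0
    simpa [frobeniusEquiv_apply, frobenius_def, map_pow] using this
  | add x y _ _ hx hy => exact hx.add hy
  | inv x _ hx => exact hx.inv
  | mul x y _ _ hx hy => exact hx.mul hy

end Decomp

end Fermat.Agent.DEU
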