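import Mathlib
import Fermat.Agent.DEU.ResSep

/-!
# DEU / MPR-root: `p`-th roots of elements of a separably generated field

`k` perfect of characteristic `p`, `k ⊂ F ⊂ E` fields, `x ∈ F` not a `p`-th power in `E`, and
`F / k(x)` separable.  Then `F` is closed under `p`-th roots in `E`:
`resRoot_mem : w ^ p ∈ F → w ∈ F`.

Proof: `F = k(x) · F^p` (separability) and `k(x) = ⊕_{j<p} k(x)^p x^j` (`resSep_decomp`), so every
`y ∈ F` is `Σ_{j<p} a_j^p x^j` with `a_j ∈ F` (`resRoot_decomp`); if `w^p = y` then
`(a₀ - w)^p + Σ_{j ≥ 1} a_j^p x^j = 0` and `resSep_li` gives `w = a₀`.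
-/

set_option autoImplicit false
set_option linter.unusedSectionVars false
set_option linter.style.haveILetI false

open Polynomial IntermediateField

namespace Fermat.Agent.DEU

section Decomp

variable {F : Type*} [Field F] (p : ℕ) [Fact p.Prime] [CharP F p] (x : F)

/-- `c = Σ_{i<p} aᵢ^p xⁱ` with `aᵢ ∈ F` -/
def ResRootT (c : F) : Prop :=
  ∃ a : Fin p → F, c = ∑ i, (a i) ^ p * x ^ (i : ℕ)

variable {p x}

theorem ResRootT.zero : ResRootT p x 0 :=
  ⟨fun _ => 0, by simp [(Fact.out : p.Prime).ne_zero]⟩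

theorem ResRootT.add {c c' : F} (h : ResRootT p x c) (h' : ResRootT p x c') :
    ResRootT p x (c + c') := by
  obtain ⟨a, rfl⟩ := h
  obtain ⟨a', rfl⟩ := h'
  refine ⟨fun i => a i + a' i, ?_⟩
  rw [← Finset.sum_add_distrib]
  refine Finset.sum_congr rfl fun i _ => ?_
  rw [add_pow_char, add_mul]

theorem ResRootT.sum {ι : Type*} (s : Finset ι) (f : ι → F)
    (h : ∀ i ∈ s, ResRootT p x (f i)) : ResRootT p x (∑ i ∈ s, f i) := by
  classical
  induction s using Finset.induction_on with
  | empty => simpa using ResRootT.zero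
  | insert i s hi ih =>
    rw [Finset.sum_insert hi]
    exact (h i (Finset.mem_insert_self i s)).add
      (ih fun j hj => h j (Finset.mem_insert_of_mem hj))

theorem ResRootT.monomial (d : F) (n : ℕ) : ResRootT p x (d ^ p * x ^ n) := by
  classical
  have hp : p.Prime := Fact.out
  have hlt : n % p < p := Nat.mod_lt _ hp.pos
  refine ⟨fun i => if i = ⟨n % p, hlt⟩ then d * x ^ (n / p) else 0, ?_⟩
  rw [Finset.sum_eq_single (⟨n % p, hlt⟩ : Fin p)]
  · simp only [if_true]
    rw [mul_pow, ← pow_mul, mul_assoc, ← pow_add]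
    congr 2
    exact (Nat.div_add_mod' n p).symm
  · intro j _ hj
    simp [hj, hp.ne_zero]
  · intro h; exact absurd (Finset.mem_univ _) h

theorem ResRootT.mul {c c' : F} (h : ResRootT p x c) (h' : ResRootT p x c') :
    ResRootT p x (c * c') := by
  obtain ⟨a, rfl⟩ := h
  obtain ⟨a', rfl⟩ := h'
  rw [Finset.sum_mul_sum]
  refine ResRootT.sum _ _ fun i _ => ResRootT.sum _ _ fun j _ => ?_
  have : a i ^ p * x ^ (i : ℕ) * (a' j ^ p * x ^ (j : ℕ)) =
      (a i * a' j) ^ p * x ^ ((i : ℕ) + (j : ℕ)) := by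
    rw [mul_pow, pow_add]; ring
  rw [this]
  exact ResRootT.monomial _ _

theorem ResRootT.pow_self (u : F) : ResRootT p x (u ^ p) := by
  have := ResRootT.monomial (p := p) (x := x) u 0
  simpa using this

end Decomp

/-- If `F / k(x)` is separable (`k` perfect of characteristic `p`), every element of `F` is
`Σ_{j<p} a_j^p x^j` with `a_j ∈ F`. -/
theorem resRoot_decomp {k F : Type*} [Field k] [Field F] [Algebra k F] (p : ℕ) [Fact p.Prime]
    [CharP k p] [PerfectRing k p] (x : F) [Algebra.IsSeparable k⟮x⟯ F] (y : F) :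
    haveI : CharP F p := charP_of_injective_algebraMap (algebraMap k F).injective p
    ResRootT p x y := by
  haveI : CharP F p := charP_of_injective_algebraMap (algebraMap k F).injective p
  haveI : CharP k⟮x⟯ p := charP_of_injective_algebraMap (algebraMap k k⟮x⟯).injective p
  haveI : ExpChar k⟮x⟯ p := ExpChar.prime Fact.out
  have hspan : Submodule.span k⟮x⟯ (Set.range (id : F → F)) = ⊤ := by
    rw [Set.range_id, Submodule.span_univ]
  have h1 := Field.span_map_pow_expChar_pow_eq_top_of_isSeparable (F := k⟮x⟯) (E := F) p 1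
    (v := (id : F → F)) hspan
  have hy : y ∈ Submodule.span k⟮x⟯ (Set.range fun u : F => id u ^ p ^ 1) := by
    rw [h1]; exact Submodule.mem_top
  induction hy using Submodule.span_induction with
  | mem z hz =>
    obtain ⟨u, rfl⟩ := hz
    simp only [id, pow_one]
    exact ResRootT.pow_self u
  | zero => exact ResRootT.zero
  | add z z' _ _ hz hz' => exact hz.add hz'
  | smul c z _ hz =>
    have hc : ResRootT p x (c : F) := by
      obtain ⟨a, -, ha⟩ := resSep_decomp (k := k) (p := p) (z := x) c.2
      exact ⟨a, ha⟩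
    have : c • z = (c : F) * z := rfl
    rw [this]
    exact hc.mul hz

/-- **MPR-root.** `k` perfect of characteristic `p`, `k ⊂ F ⊂ E`, `x ∈ F` not a `p`-th power in
`E`, `F / k(x)` separable: then `F` is closed under `p`-th roots in `E`. -/
theorem resRoot_mem {k E : Type*} [Field k] [Field E] [Algebra k E] (p : ℕ) [Fact p.Prime]
    [CharP k p] [PerfectRing k p] (F : IntermediateField k E) (x : F)
    (hx : ∀ w : E, w ^ p ≠ (x : E)) [Algebra.IsSeparable k⟮x⟯ F] (w : E) (hw : w ^ p ∈ F) :
    w ∈ F := by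
  classical
  have hp : p.Prime := Fact.out
  haveI : CharP E p := charP_of_injective_algebraMap (algebraMap k E).injective p
  haveI : CharP F p := charP_of_injective_algebraMap (algebraMap k F).injective p
  obtain ⟨a, ha⟩ := resRoot_decomp (k := k) (F := F) p x ⟨w ^ p, hw⟩
  have ha' : w ^ p = ∑ i, ((a i : F) : E) ^ p * (x : E) ^ (i : ℕ) := by
    have := congrArg (fun y : F => (y : E)) ha
    simpa using this
  have hp0 : 0 < p := hp.pos
  set i0 : Fin p := ⟨0, hp0⟩ with hi0
  set b : Fin p → E := fun i => if i = i0 then (a i : E) - w else (a i : E) with hb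
  have hsum : ∑ i, (b i) ^ p * (x : E) ^ (i : ℕ) = 0 := by
    have h1 : ∀ i : Fin p, (b i) ^ p * (x : E) ^ (i : ℕ) =
        ((a i : F) : E) ^ p * (x : E) ^ (i : ℕ) - (if i = i0 then w ^ p else 0) := by
      intro i
      by_cases hi : i = i0
      · subst hi
        simp only [hb, if_true, hi0, pow_zero, mul_one]
        rw [sub_pow_char]
      · simp only [hb, hi, if_false, sub_zero]
    rw [Finset.sum_congr rfl fun i _ => h1 i, Finset.sum_sub_distrib, ← ha',
      Finset.sum_ite_eq' Finset.univ i0 (fun _ => w ^ p)]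
    simp
  have hb0 := resSep_li p (x : E) hx b hsum i0
  simp only [hb, if_true] at hb0
  have : w = (a i0 : E) := (sub_eq_zero.mp hb0).symm
  rw [this]
  exact (a i0).2

end Fermat.Agent.DEU
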