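import Fermat.Agent.DEU.ResSepMain
import Fermat.Agent.DEU.ResRoot
import Fermat.Agent.DEU.ResLaurent
import Fermat.Agent.DEU.ResPD
import Fermat.Agent.S24.Residue
import Fermat.Agent.INJ.BGFin
import Fermat.Agent.S28.Red
import Fermat.Prelude.Thm_ModularCurve_coeff_jqModC_neg_one

/-!
# DEU / MPR-res: the residue side `F̄ = modularFunctionFieldFullC k N`, `k` perfect of char `p`

* `resSide_jq_not_pow` : `j̄` is not a `p`-th power in `k((q))`;
* `resSide_isSeparable` : `F̄ / k(j̄)` is separable;
* `resSide_hroot` : every transcendental `y ∈ F̄` is `z ^ (p ^ e)` with `z ∈ F̄` not a `p`-th power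
  in `k((q))` (so `F̄ / k(z)` is separable, `resSide_isSeparable_of_not_pow`).
-/

set_option autoImplicit false
set_option linter.unusedSectionVars false
set_option linter.style.haveILetI false
set_option synthInstance.maxHeartbeats 400000
set_option maxHeartbeats 1600000

open ModularCurve HahnSeries IntermediateField

namespace Fermat.Agent.DEU

variable (k : Type*) [Field k] (p : ℕ) [Fact p.Prime] [CharP k p] (N : ℕ) [NeZero N]

/-- `j̄` as an element of `F̄`. -/
noncomputable def resSideJ : ↥(modularFunctionFieldFullC k N) :=
  ⟨jqModC k, jqModC_mem_full k N⟩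

@[simp] theorem coe_resSideJ : ((resSideJ k N : ↥(modularFunctionFieldFullC k N)) :
    LaurentSeries k) = jqModC k := rfl

theorem resSide_jq_not_pow (w : LaurentSeries k) : w ^ p ≠ jqModC k := by
  intro h
  have h1 : (jqModC k).coeff (-1 : ℤ) = 1 := coeff_jqModC_neg_one k
  have hnd : ¬ (p : ℤ) ∣ (-1 : ℤ) := by
    intro hd
    have := Int.eq_one_of_dvd_one (by positivity) ((dvd_neg).mp hd)
    have hp : p.Prime := Fact.out
    exact hp.one_lt.ne' (by exact_mod_cast this)
  rw [← h, resLaurent_coeff_pow_of_not_dvd p w hnd] at h1
  exact zero_ne_one h1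

theorem resSide_transcendental_J : Transcendental k (resSideJ k N) := by
  intro h
  have h1 : IsAlgebraic k ((resSideJ k N : ↥(modularFunctionFieldFullC k N)) :
      LaurentSeries k) := by
    have := h.algHom (modularFunctionFieldFullC k N).val
    simpa using this
  exact Fermat.Agent.S28.red_transcendental_jqModC k h1

theorem resSide_finiteDimensional :
    FiniteDimensional k⟮resSideJ k N⟯ ↥(modularFunctionFieldFullC k N) :=
  Fermat.Agent.INJ.bgFin_finiteDimensional_full k N

/-- a transcendental element of `F̄` is not constant as a Laurent series -/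
theorem resSide_exists_coeff_ne_zero (y : ↥(modularFunctionFieldFullC k N))
    (hy : Transcendental k y) : ∃ n : ℤ, n ≠ 0 ∧ (y : LaurentSeries k).coeff n ≠ 0 := by
  by_contra hcon
  push Not at hcon
  apply hy
  have h1 : (y : LaurentSeries k) = HahnSeries.C ((y : LaurentSeries k).coeff 0) := by
    ext n
    by_cases hn : n = 0
    · subst hn; simp
    · rw [hcon n hn]
      simp [HahnSeries.C_apply, HahnSeries.coeff_single_of_ne hn]
  have h2 : y = algebraMap k ↥(modularFunctionFieldFullC k N) ((y : LaurentSeries k).coeff 0) := by
    apply Subtype.ext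
    have h3 : ((algebraMap k ↥(modularFunctionFieldFullC k N) ((y : LaurentSeries k).coeff 0) :
        ↥(modularFunctionFieldFullC k N)) : LaurentSeries k) =
          algebraMap k (LaurentSeries k) ((y : LaurentSeries k).coeff 0) := rfl
    rw [h3, LaurentSeries.algebraMap_apply]
    exact h1
  rw [h2]
  exact isAlgebraic_algebraMap _

variable [PerfectRing k p]

include p

/-- an element of `F̄` that is not a `p`-th power in `k((q))` is separating -/
theorem resSide_isSeparable_of_not_pow (z : ↥(modularFunctionFieldFullC k N))
    (hz : ∀ w : LaurentSeries k, w ^ p ≠ (z : LaurentSeries k))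
    [Algebra.IsAlgebraic k⟮z⟯ ↥(modularFunctionFieldFullC k N)] :
    Algebra.IsSeparable k⟮z⟯ ↥(modularFunctionFieldFullC k N) :=
  resSep_isSeparable p (modularFunctionFieldFullC k N) z hz

/-- `F̄ / k(j̄)` is separable. -/
theorem resSide_isSeparable :
    Algebra.IsSeparable k⟮resSideJ k N⟯ ↥(modularFunctionFieldFullC k N) := by
  haveI := resSide_finiteDimensional k N
  haveI : Algebra.IsAlgebraic k⟮resSideJ k N⟯ ↥(modularFunctionFieldFullC k N) :=
    Algebra.IsAlgebraic.of_finite _ _
  exact resSide_isSeparable_of_not_pow k p N (resSideJ k N) (resSide_jq_not_pow k p)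

/-- `F̄` is closed under `p ^ e`-th roots in `k((q))`. -/
theorem resSide_root_mem (e : ℕ) (w : LaurentSeries k)
    (hw : w ^ (p ^ e) ∈ modularFunctionFieldFullC k N) : w ∈ modularFunctionFieldFullC k N := by
  haveI := resSide_isSeparable k p N
  induction e generalizing w with
  | zero => simpa using hw
  | succ e ih =>
    refine ih w ?_
    refine resRoot_mem p (modularFunctionFieldFullC k N) (resSideJ k N)
      (resSide_jq_not_pow k p) (w ^ (p ^ e)) ?_
    rw [← pow_mul, ← pow_succ]
    exact hw

/-- **every transcendental element of `F̄` is a `p`-power of a separating element** -/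
theorem resSide_hroot (y : ↥(modularFunctionFieldFullC k N)) (hy : Transcendental k y) :
    ∃ (e : ℕ) (z : ↥(modularFunctionFieldFullC k N)), z ^ (p ^ e) = y ∧
      ∀ w : LaurentSeries k, w ^ p ≠ (z : LaurentSeries k) := by
  obtain ⟨e, w, hw, hwp⟩ := resLaurent_exists_root p (y : LaurentSeries k)
    (resSide_exists_coeff_ne_zero k N y hy)
  have hwF : w ∈ modularFunctionFieldFullC k N :=
    resSide_root_mem k p N e w (by rw [hw]; exact y.2)
  exact ⟨e, ⟨w, hwF⟩, Subtype.ext hw, hwp⟩

omit [PerfectRing k p] in
/-- **MPR-res (b).** The residue side has principal divisors (any characteristic `p > 0`). -/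
theorem resSide_hasPrincipalDivisors [IsAlgClosed k] :
    AlgebraicCurve.HasPrincipalDivisors k ↥(modularFunctionFieldFullC k N) := by
  haveI := resSide_finiteDimensional k N
  haveI : PerfectRing k p := inferInstance
  exact resPD_hasPrincipalDivisors p (modularFunctionFieldFullC k N) (resSideJ k N)
    (resSide_transcendental_J k N) (resSide_hroot k p N)

omit [Fact p.Prime] [CharP k p] [PerfectRing k p] in
/-- **MPR-res (a).** Every place of the residue side has residue field `k`. -/
theorem resSide_residue_bijective [IsAlgClosed k]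
    (v : AlgebraicCurve.Place k ↥(modularFunctionFieldFullC k N)) :
    Function.Bijective (algebraMap k v.ResidueField) := by
  haveI := resSide_finiteDimensional k N
  exact Fermat.Agent.S24.algebraMap_residueField_bijective (resSideJ k N)
    (resSide_transcendental_J k N) (Algebra.IsAlgebraic.of_finite _ _) v

end Fermat.Agent.DEU
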