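import Fermat.Agent.DEU.Main3
import Fermat.Agent.DEU.Inst
import Fermat.Agent.DEU.ResSide
import Fermat.Agent.ES.Riemann
import Fermat.Agent.RED.ResField

/-!
# DEU — the concrete hypotheses `Hyp` for `F = FF N`, `F̄ = modularFunctionFieldFullC k N`

`modHyp_of_anchor` : all fields of `Hyp (deuInst_redData N A hRedF) Pinf Qinf (gN N) n₀` except
`anchor` and `bound` are on main:

* `hresF`, `hpdF` : `ES/HModular.lean`;
* `hresk`, `hpdk` : `DEU/ResSide.lean` (characteristic `ℓ`);
* `riemann` : `ES/Riemann.lean` (`stmtR`);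
* `q2` : `DEU/Inst.lean` (`deuInst_q2`).
-/

set_option autoImplicit false
set_option linter.unusedSectionVars false
set_option linter.style.haveILetI false
set_option synthInstance.maxHeartbeats 400000
set_option maxHeartbeats 1600000

open ModularCurve AlgebraicCurve HahnSeries Module

namespace Fermat.Agent.DEU

open Fermat.Agent.ES Fermat.Agent.S24 Fermat.Agent.ES.M

variable (N : ℕ) [NeZero N] (A : ValuationSubring Kb)

/-- the residue field of a valuation ring of `ℚ̄` is algebraically closed -/
theorem modHyp_isAlgClosed : IsAlgClosed (kA A) :=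
  Fermat.Agent.RED.isAlgClosed_residueField A

/-- the residue side has residue fields `k` -/
theorem modHyp_hresk (v : Place (kA A) ↥(modularFunctionFieldFullC (kA A) N)) :
    Function.Bijective (algebraMap (kA A) v.ResidueField) :=
  haveI := modHyp_isAlgClosed A
  resSide_residue_bijective (kA A) 0 N v

/-- the residue side has principal divisors -/
theorem modHyp_hpdk {ℓ : ℕ} (hℓ : ℓ.Prime) (hA : A.LiesOverPrime ℓ) :
    HasPrincipalDivisors (kA A) ↥(modularFunctionFieldFullC (kA A) N) :=
  haveI := modHyp_isAlgClosed A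
  haveI : Fact ℓ.Prime := ⟨hℓ⟩
  haveI : CharP (kA A) ℓ := kron_charP_residueField hℓ hA
  resSide_hasPrincipalDivisors (kA A) ℓ N

/-- **the concrete `Hyp`**, from the anchor and the bound (I2). -/
theorem modHyp_of_anchor {ℓ : ℕ} (hℓ : ℓ.Prime) (hA : A.LiesOverPrime ℓ) (hRedF : StmtRedF N A)
    (Pinf : Place Kb (FF N)) (Qinf : Place (kA A) ↥(modularFunctionFieldFullC (kA A) N))
    (n₀ : ℕ)
    (hanchor : ∀ m : ℕ,
      (deuInst_redData N A hRedF).redSpace (riemannRochSpace (mulPlace Pinf m)) ≤
        riemannRochSpace (mulPlace Qinf m))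
    (hbound : (finrank (kA A) ↥(riemannRochSpace (mulPlace Qinf n₀)) : ℤ) + gN N ≤ n₀ + 1) :
    Hyp (deuInst_redData N A hRedF) Pinf Qinf (gN N) n₀ where
  hresF := Fermat.Agent.ES.H.residue_bijective_FF N
  hresk := modHyp_hresk N A
  hpdF := Fermat.Agent.ES.H.hasPrincipalDivisors_FF N
  hpdk := modHyp_hpdk N A hℓ hA
  riemann := Fermat.Agent.ES.R.stmtR N
  q2 := fun V _ => deuInst_q2 N A hRedF V
  anchor := hanchor
  bound := hbound

end Fermat.Agent.DEU
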