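import Fermat.Agent.DEU.Main3
import Fermat.Agent.W1.PlanGeo2

/-!
# DEU — bridge to the reduction package `W1.PRData` of WALL 1

From a Gauss valuation ring `O` with residue map `red` (all axioms of `W1.PRData.IsPR` except
`r_div`) and the hypotheses `Hyp` of Deuring's dimension count we get a reduction of places `r`
such that `⟨res, O, red, r⟩` is a `PRData` with `IsPR`, `Semicont`, `Orth`, and Riemann's theorem
on the residue side with the same `g`.
-/

set_option autoImplicit false

open AlgebraicCurve Module

namespace Fermat.Agent.DEU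

open Fermat.Agent.W1

variable {K F k Fk : Type} [Field K] [Field F] [Algebra K F] [Field k] [Field Fk] [Algebra k Fk]

/-- The `RedData` of a Gauss valuation ring. -/
def redDataOfVal (A : ValuationSubring K) (res : A →+* k) (O : ValuationSubring F)
    (red : O →+* Fk) (hres : Function.Surjective res)
    (hmem : ∀ a : K, algebraMap K F a ∈ O ↔ a ∈ A)
    (hred0 : ∀ x : O, red x = 0 ↔ (x : F) ∈ O.nonunits)
    (hredalg : ∀ (a : A) (h : algebraMap K F (a : K) ∈ O),
      red ⟨algebraMap K F (a : K), h⟩ = algebraMap k Fk (res a))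
    (hprim : ∀ f : F, f ≠ 0 → ∃ a : K, a ≠ 0 ∧ ∃ h : algebraMap K F a * f ∈ O,
      red ⟨algebraMap K F a * f, h⟩ ≠ 0) : RedData K F k Fk where
  A := A
  res := res
  res_surjective := hres
  O := O.toSubring
  red := red
  algebraMap_mem := fun a => (hmem a).mpr a.2
  red_algebraMap := fun a => hredalg a ((hmem a).mpr a.2)
  inv_mem := fun f hf => by
    have h1 : (f : F) ∉ O.nonunits := fun h => hf ((hred0 f).mpr h)
    have h2 : (f : F) ∈ O := f.2
    rcases eq_or_ne (f : F) 0 with h0 | h0
    · rw [h0, inv_zero]; exact O.zero_mem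
    · by_contra hinv
      apply h1
      rw [ValuationSubring.mem_nonunits_iff_exists_mem_maximalIdeal]
      refine ⟨h2, ?_⟩
      rw [IsLocalRing.mem_maximalIdeal, mem_nonunits_iff]
      intro hu
      obtain ⟨v, hv⟩ := hu.exists_right_inv
      apply hinv
      have h3 : (f : F) * (v : F) = 1 := by
        have := congrArg (Subtype.val) hv
        simpa using this
      have h4 : ((f : F))⁻¹ = (v : F) := (eq_inv_of_mul_eq_one_right h3).symm ▸ rfl
      rw [h4]
      exact v.2
  exists_scale := hprim

/-- **DEU ⇒ the reduction package of WALL 1.** -/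
theorem exists_isPR (A : ValuationSubring K) (res : A →+* k) (O : ValuationSubring F)
    (red : O →+* Fk) (hres : Function.Surjective res)
    (hres0 : ∀ a : A, res a = 0 ↔ (a : K) ∈ A.nonunits)
    (hmem : ∀ a : K, algebraMap K F a ∈ O ↔ a ∈ A)
    (hredsurj : Function.Surjective red)
    (hred0 : ∀ x : O, red x = 0 ↔ (x : F) ∈ O.nonunits)
    (hredalg : ∀ (a : A) (h : algebraMap K F (a : K) ∈ O),
      red ⟨algebraMap K F (a : K), h⟩ = algebraMap k Fk (res a))
    (hprim : ∀ f : F, f ≠ 0 → ∃ a : K, a ≠ 0 ∧ ∃ h : algebraMap K F a * f ∈ O,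
      red ⟨algebraMap K F a * f, h⟩ ≠ 0)
    (Pinf : Place K F) (Qinf : Place k Fk) (g n₀ : ℕ)
    (H : Hyp (redDataOfVal A res O red hres hmem hred0 hredalg hprim) Pinf Qinf g n₀) :
    ∃ r : Place K F → Place k Fk,
      (PRData.mk res O red r : PRData K F k Fk A).IsPR ∧
      (PRData.mk res O red r : PRData K F k Fk A).Semicont ∧
      (PRData.mk res O red r : PRData K F k Fk A).Orth ∧
      GPRiemannUpper k Fk g ∧ GPRiemannLower k Fk g := by
  refine ⟨H.r, ?_, ?_, ?_, ?_, ?_⟩
  · exact
      { res_surjective := hres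
        res_eq_zero_iff := hres0
        algebraMap_mem_iff := hmem
        red_surjective := hredsurj
        red_eq_zero_iff := hred0
        red_algebraMap := hredalg
        prim := hprim
        r_div := fun u hu D hD Q => H.mapDomain_r_principal u hu D hD Q }
  · intro D
    exact H.finrank_rr_le_mapDomain D
  · intro D
    exact H.exists_orth D
  · exact ⟨(n₀ : ℤ) + g, fun 𝔟 h𝔟 => H.riemann_upper_res 𝔟 h𝔟⟩
  · exact fun 𝔟 => H.riemann_lower_res 𝔟

end Fermat.Agent.DEU
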