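import Fermat.Agent.DEU.Inst
import Fermat.Agent.DEU.ToW1
import Fermat.Agent.INJ.NFEmb

/-!
# DEU / ModPR, piece MPR-val: the Gauss valuation ring of `F_N` at `A`

`A ⊂ ℚ̄` a valuation ring, `k = kA A` its residue field, `F = FF N`, `F̄ = modularFunctionFieldFullC k N`.

* abstract (`R : RedData K F k Fb`): `deuVal_mem_or_inv_mem`, `RedData.valO : ValuationSubring F`
  (carrier `R.O`), `deuVal_red_eq_zero_iff`, `deuVal_res_eq_zero_iff`, `deuVal_algebraMap_mem_iff`;
* concrete: `deuValO N A : ValuationSubring (FF N)` with `(deuValO N A).toSubring = deuInstO N A`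
  (`rfl`), `deuValRed N A hRedF : deuValO N A →+* F̄` (`= deuInstRed`), and the hypotheses of
  `DEU.exists_isPR` / fields of `W1.PRData.IsPR`:
  `deuVal_res_surjective`, `deuVal_res_eq_zero_iff'`, `deuVal_algebraMap_mem_iff'`,
  `deuVal_red_surjective`, `deuVal_red_eq_zero_iff'`, `deuVal_red_algebraMap`, `deuVal_prim`,
  and `deuVal_redDataOfVal_eq : redDataOfVal … = deuInst_redData N A hRedF`.
-/

set_option autoImplicit false
set_option synthInstance.maxHeartbeats 400000
set_option maxHeartbeats 1000000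

noncomputable section

namespace Fermat.Agent.DEU

open ModularCurve AlgebraicCurve HahnSeries Fermat.Agent.ES Fermat.Agent.S24 Fermat.Agent.ES.M
  Fermat.Agent.INJ

/-! ## Abstract part -/

section Abstract

variable {K F k Fb : Type*} [Field K] [Field F] [Algebra K F] [Field k] [Field Fb] [Algebra k Fb]
  (R : RedData K F k Fb)

/-- `O` is a valuation ring of `F`. -/
theorem deuVal_mem_or_inv_mem (x : F) : x ∈ R.O ∨ x⁻¹ ∈ R.O := by
  rcases eq_or_ne x 0 with rfl | hx
  · exact Or.inl R.O.zero_mem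
  obtain ⟨c, hc, h, hred⟩ := R.exists_scale x hx
  rcases R.A.mem_or_inv_mem c with hcA | hcA
  · -- `x⁻¹ = c · (c x)⁻¹`
    right
    have h1 : (algebraMap K F c * x)⁻¹ ∈ R.O := R.inv_mem ⟨_, h⟩ hred
    have h2 : algebraMap K F c ∈ R.O := R.algebraMap_mem ⟨c, hcA⟩
    have h3 : x⁻¹ = algebraMap K F c * (algebraMap K F c * x)⁻¹ := by
      have hc' : algebraMap K F c ≠ 0 := by
        intro h0
        exact hc ((map_eq_zero (algebraMap K F)).mp h0)
      rw [mul_inv, ← mul_assoc, mul_inv_cancel₀ hc', one_mul]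
    rw [h3]
    exact R.O.mul_mem h2 h1
  · -- `x = c⁻¹ · (c x)`
    left
    have h2 : algebraMap K F c⁻¹ ∈ R.O := R.algebraMap_mem ⟨c⁻¹, hcA⟩
    have h3 : x = algebraMap K F c⁻¹ * (algebraMap K F c * x) := by
      rw [← mul_assoc, ← map_mul, inv_mul_cancel₀ hc, map_one, one_mul]
    rw [h3]
    exact R.O.mul_mem h2 h

/-- the Gauss valuation ring of a constant reduction -/
def RedData.valO : ValuationSubring F :=
  { R.O with mem_or_inv_mem' := deuVal_mem_or_inv_mem R }

@[simp] theorem RedData.valO_toSubring : R.valO.toSubring = R.O := rfl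

theorem RedData.mem_valO {x : F} : x ∈ R.valO ↔ x ∈ R.O := Iff.rfl

/-- an element of `O` is a unit of `O` iff its reduction is nonzero -/
theorem deuVal_isUnit_iff (x : R.O) : IsUnit x ↔ R.red x ≠ 0 := by
  constructor
  · intro hu h0
    obtain ⟨y, hy⟩ := hu.exists_right_inv
    have := congrArg R.red hy
    rw [map_mul, h0, zero_mul, map_one] at this
    exact zero_ne_one this
  · intro h
    exact IsUnit.of_mul_eq_one _ (R.mul_inv_cancel x h)

/-- the kernel of the reduction is the set of non-units of the valuation ring -/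
theorem deuVal_red_eq_zero_iff (x : R.O) : R.red x = 0 ↔ (x : F) ∈ R.valO.nonunits := by
  have hx : (x : F) ∈ R.valO := x.2
  constructor
  · intro h0
    rw [ValuationSubring.mem_nonunits_iff_exists_mem_maximalIdeal]
    refine ⟨hx, ?_⟩
    rw [IsLocalRing.mem_maximalIdeal, mem_nonunits_iff]
    intro hu
    have hu' : IsUnit x := hu
    exact (deuVal_isUnit_iff R x).mp hu' h0
  · intro hn
    by_contra h0
    rw [ValuationSubring.mem_nonunits_iff_exists_mem_maximalIdeal] at hn
    obtain ⟨hx', hm⟩ := hn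
    rw [IsLocalRing.mem_maximalIdeal, mem_nonunits_iff] at hm
    apply hm
    have hu : IsUnit x := (deuVal_isUnit_iff R x).mpr h0
    exact hu

/-- the kernel of the residue map on constants is the set of non-units of `A` -/
theorem deuVal_res_eq_zero_iff (a : R.A) : R.res a = 0 ↔ (a : K) ∈ R.A.nonunits := by
  rw [ValuationSubring.coe_mem_nonunits_iff, IsLocalRing.mem_maximalIdeal, mem_nonunits_iff]
  constructor
  · intro h0 hu
    obtain ⟨b, hb⟩ := hu.exists_right_inv
    have := congrArg R.res hb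
    rw [map_mul, h0, zero_mul, map_one] at this
    exact zero_ne_one this
  · intro hnu
    by_contra h0
    apply hnu
    obtain ⟨b, hb⟩ := R.res_surjective (R.res a)⁻¹
    -- `a b - 1` is in the kernel of `res`, hence a non-unit; `A` is local
    have h1 : R.res (a * b) = 1 := by rw [map_mul, hb, mul_inv_cancel₀ h0]
    have h2 : IsUnit (a * b) := by
      by_contra hnu'
      have h3 : IsUnit (1 - a * b) := by
        rcases IsLocalRing.isUnit_or_isUnit_one_sub_self (a * b) with h | h
        · exact absurd h hnu'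
        · exact h
      obtain ⟨c, hc⟩ := h3.exists_right_inv
      have := congrArg R.res hc
      rw [map_mul, map_sub, map_one, h1, sub_self, zero_mul] at this
      exact zero_ne_one this
    exact isUnit_of_mul_isUnit_left h2

/-- a constant lies in `O` iff it lies in `A` -/
theorem deuVal_algebraMap_mem_iff (a : K) : algebraMap K F a ∈ R.O ↔ a ∈ R.A := by
  constructor
  · intro h
    by_contra haA
    have ha0 : a ≠ 0 := fun h0 => haA (h0 ▸ R.A.zero_mem)
    have hinv : a⁻¹ ∈ R.A := (R.A.mem_or_inv_mem a).resolve_left haA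
    -- `a⁻¹` is a non-unit of `A`
    have hnu : (a⁻¹ : K) ∈ R.A.nonunits := by
      rw [ValuationSubring.mem_nonunits_iff_exists_mem_maximalIdeal]
      refine ⟨hinv, ?_⟩
      rw [IsLocalRing.mem_maximalIdeal, mem_nonunits_iff]
      intro hu
      obtain ⟨b, hb⟩ := hu.exists_right_inv
      have hb' : a⁻¹ * (b : K) = 1 := by
        have := congrArg Subtype.val hb
        simpa using this
      have hba : (b : K) = a := by
        have h1 : a * (a⁻¹ * (b : K)) = a * 1 := by rw [hb']
        rw [← mul_assoc, mul_inv_cancel₀ ha0, one_mul, mul_one] at h1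
        exact h1
      exact haA (hba ▸ b.2)
    have hres : R.res ⟨a⁻¹, hinv⟩ = 0 := (deuVal_res_eq_zero_iff R ⟨a⁻¹, hinv⟩).mpr hnu
    have h1 : (⟨algebraMap K F a, h⟩ : R.O) * R.const ⟨a⁻¹, hinv⟩ = 1 := by
      apply Subtype.ext
      rw [Subring.coe_mul, RedData.coe_const, Subring.coe_one]
      show algebraMap K F a * algebraMap K F a⁻¹ = 1
      rw [← map_mul, mul_inv_cancel₀ ha0, map_one]
    have := congrArg R.red h1
    rw [map_mul, RedData.red_const, hres, map_zero, mul_zero, map_one] at this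
    exact zero_ne_one this
  · intro h
    exact R.algebraMap_mem ⟨a, h⟩

end Abstract

/-! ## The concrete Gauss valuation ring of `F_N` -/

section Concrete

variable (N : ℕ) [NeZero N] (A : ValuationSubring Kb)

/-- `deuInstO N A` is a valuation ring of `F_N` (no good-reduction hypothesis). -/
theorem deuVal_mem_or_inv_mem' (x : FF N) : x ∈ deuInstO N A ∨ x⁻¹ ∈ deuInstO N A := by
  rcases eq_or_ne x 0 with rfl | hx
  · exact Or.inl (deuInstO N A).zero_mem
  obtain ⟨c, hc, w, hw0, hw⟩ := deuInst_exists_scale N A x hx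
  have hc' : algebraMap Kb (FF N) c ≠ 0 := by
    intro h0
    exact hc ((map_eq_zero (algebraMap Kb (FF N))).mp h0)
  rcases A.mem_or_inv_mem c with hcA | hcA
  · right
    have h1 : (algebraMap Kb (FF N) c * x)⁻¹ ∈ deuInstO N A :=
      ⟨_, deuInst_gaussRed_inv N A hw hw0⟩
    have h2 : algebraMap Kb (FF N) c ∈ deuInstO N A :=
      ⟨_, deuInst_gaussRed_const N A ⟨c, hcA⟩⟩
    have h3 : x⁻¹ = algebraMap Kb (FF N) c * (algebraMap Kb (FF N) c * x)⁻¹ := by
      rw [mul_inv, ← mul_assoc, mul_inv_cancel₀ hc', one_mul]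
    rw [h3]
    exact (deuInstO N A).mul_mem h2 h1
  · left
    have h2 : algebraMap Kb (FF N) c⁻¹ ∈ deuInstO N A :=
      ⟨_, deuInst_gaussRed_const N A ⟨c⁻¹, hcA⟩⟩
    have h3 : x = algebraMap Kb (FF N) c⁻¹ * (algebraMap Kb (FF N) c * x) := by
      rw [← mul_assoc, ← map_mul, inv_mul_cancel₀ hc, map_one, one_mul]
    rw [h3]
    exact (deuInstO N A).mul_mem h2 ⟨w, hw⟩

/-- **the Gauss valuation ring of `F_N` at `A`** -/
def deuValO : ValuationSubring (FF N) :=
  { deuInstO N A with mem_or_inv_mem' := deuVal_mem_or_inv_mem' N A }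

@[simp] theorem deuValO_toSubring : (deuValO N A).toSubring = deuInstO N A := rfl

theorem mem_deuValO {x : FF N} : x ∈ deuValO N A ↔ GaussInt N A x := Iff.rfl

theorem mem_deuValO_iff_mem_deuInstO {x : FF N} : x ∈ deuValO N A ↔ x ∈ deuInstO N A := Iff.rfl

/-- **the reduction map on the Gauss valuation ring** (`= deuInstRed`) -/
def deuValRed (hRedF : StmtRedF N A) :
    ↥(deuValO N A) →+* ↥(modularFunctionFieldFullC (kA A) N) :=
  deuInstRed N A hRedF

theorem deuValRed_apply (hRedF : StmtRedF N A) (x : FF N) (h : x ∈ deuValO N A) :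
    deuValRed N A hRedF ⟨x, h⟩ = deuInstRed N A hRedF ⟨x, h⟩ := rfl

/-- `GaussRed` is the graph of `deuValRed` -/
theorem deuValRed_iff (hRedF : StmtRedF N A) (x : FF N) (w : LaurentSeries (kA A)) :
    GaussRed N A x w ↔ ∃ h : x ∈ deuValO N A,
      ((deuValRed N A hRedF ⟨x, h⟩ : ↥(modularFunctionFieldFullC (kA A) N)) :
        LaurentSeries (kA A)) = w :=
  deuInstRed_iff N A hRedF x w

/-! ### Surjectivity of the reduction -/

omit [NeZero N] in
/-- the generators `j(q^d)`, `d ∣ N`, of `F̄` are reductions -/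
theorem deuVal_gaussRed_gen {d : ℕ} [NeZero d] (hd : d ∣ N) :
    GaussRed N A ⟨qExpand Kb d (jqModC Kb), nf_fullC_le_bar N (jqModCd_mem_full Kb N hd)⟩
      (qExpand (kA A) d (jqModC (kA A))) := by
  have hI : kronIncl A (jqNModC A d) = qExpand Kb d (jqModC Kb) := coeffMap_jqNModC A.subtype d
  have hR : kronRed A (jqNModC A d) = qExpand (kA A) d (jqModC (kA A)) :=
    coeffMap_jqNModC (IsLocalRing.residue A) d
  refine ⟨jqNModC A d, 1, ?_, ?_, ?_, ?_, ?_⟩
  · rw [hI]
    exact nf_fullC_le_bar N (jqModCd_mem_full Kb N hd)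
  · rw [map_one]; exact one_mem _
  · rw [map_one]; exact one_ne_zero
  · rw [map_one, mul_one, hI]
  · rw [map_one, mul_one, hR]

omit [NeZero N] in
/-- every element of `F̄` is the reduction of an element of `F` -/
theorem deuVal_exists_gaussRed (w : LaurentSeries (kA A))
    (hw : w ∈ modularFunctionFieldFullC (kA A) N) : ∃ x : FF N, GaussRed N A x w := by
  unfold modularFunctionFieldFullC at hw
  induction hw using IntermediateField.adjoin_induction with
  | mem w hw =>
    obtain ⟨d, hd0, hdN, rfl⟩ := hw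
    exact ⟨_, deuVal_gaussRed_gen N A hdN⟩
  | algebraMap c =>
    obtain ⟨a, rfl⟩ := IsLocalRing.residue_surjective c
    refine ⟨algebraMap Kb (FF N) (a : Kb), ?_⟩
    rw [algebraMap_eq_hahnC]
    exact deuInst_gaussRed_const N A a
  | add x y _ _ hx hy =>
    obtain ⟨x', hx'⟩ := hx
    obtain ⟨y', hy'⟩ := hy
    exact ⟨x' + y', deuInst_gaussRed_add N A hx' hy'⟩
  | inv x _ hx =>
    obtain ⟨x', hx'⟩ := hx
    rcases eq_or_ne x 0 with rfl | hx0
    · rw [inv_zero]
      exact ⟨0, deuInst_gaussRed_zero N A⟩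
    · exact ⟨x'⁻¹, deuInst_gaussRed_inv N A hx' hx0⟩
  | mul x y _ _ hx hy =>
    obtain ⟨x', hx'⟩ := hx
    obtain ⟨y', hy'⟩ := hy
    exact ⟨x' * y', deuInst_gaussRed_mul N A hx' hy'⟩

omit [NeZero N] in
/-- **`red` is surjective onto `F̄`.** -/
theorem deuInstRed_surjective (hRedF : StmtRedF N A) :
    Function.Surjective (deuInstRed N A hRedF) := by
  intro w
  obtain ⟨x, hx⟩ := deuVal_exists_gaussRed N A (w : LaurentSeries (kA A)) w.2
  refine ⟨⟨x, ⟨_, hx⟩⟩, ?_⟩
  apply Subtype.ext
  rw [deuInstRed_coe]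
  exact deuInstRedFun_eq N A hx

/-! ### The hypotheses of `DEU.exists_isPR` -/

omit [NeZero N] in
/-- `hres` -/
theorem deuVal_res_surjective : Function.Surjective (IsLocalRing.residue A) :=
  IsLocalRing.residue_surjective

omit [NeZero N] in
/-- `hres0` -/
theorem deuVal_res_eq_zero_iff' (a : A) :
    IsLocalRing.residue A a = 0 ↔ (a : Kb) ∈ A.nonunits := by
  rw [ValuationSubring.coe_mem_nonunits_iff, IsLocalRing.residue_eq_zero_iff]

/-- `hmem` -/
theorem deuVal_algebraMap_mem_iff' (hRedF : StmtRedF N A) (a : Kb) :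
    algebraMap Kb (FF N) a ∈ deuValO N A ↔ a ∈ A :=
  deuVal_algebraMap_mem_iff (deuInst_redData N A hRedF) a

/-- `hredsurj` -/
theorem deuVal_red_surjective (hRedF : StmtRedF N A) :
    Function.Surjective (deuValRed N A hRedF) :=
  deuInstRed_surjective N A hRedF

/-- `hred0` -/
theorem deuVal_red_eq_zero_iff' (hRedF : StmtRedF N A) (x : deuValO N A) :
    deuValRed N A hRedF x = 0 ↔ (x : FF N) ∈ (deuValO N A).nonunits :=
  deuVal_red_eq_zero_iff (deuInst_redData N A hRedF) x

/-- `hredalg` -/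
theorem deuVal_red_algebraMap (hRedF : StmtRedF N A) (a : A)
    (h : algebraMap Kb (FF N) (a : Kb) ∈ deuValO N A) :
    deuValRed N A hRedF ⟨algebraMap Kb (FF N) (a : Kb), h⟩
      = algebraMap (kA A) ↥(modularFunctionFieldFullC (kA A) N) (IsLocalRing.residue A a) :=
  (deuInst_redData N A hRedF).red_algebraMap a

/-- `hprim` -/
theorem deuVal_prim (hRedF : StmtRedF N A) (f : FF N) (hf : f ≠ 0) :
    ∃ a : Kb, a ≠ 0 ∧ ∃ h : algebraMap Kb (FF N) a * f ∈ deuValO N A,
      deuValRed N A hRedF ⟨algebraMap Kb (FF N) a * f, h⟩ ≠ 0 :=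
  (deuInst_redData N A hRedF).exists_scale f hf

/-- the `RedData` of the Gauss valuation ring is `deuInst_redData` -/
theorem deuVal_redDataOfVal_eq (hRedF : StmtRedF N A) :
    redDataOfVal A (IsLocalRing.residue A) (deuValO N A) (deuValRed N A hRedF)
        (deuVal_res_surjective A) (deuVal_algebraMap_mem_iff' N A hRedF)
        (deuVal_red_eq_zero_iff' N A hRedF) (deuVal_red_algebraMap N A hRedF)
        (deuVal_prim N A hRedF)
      = deuInst_redData N A hRedF := rfl

end Concrete

end Fermat.Agent.DEU
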