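import Fermat.Agent.DEU.Anchor
import Fermat.Agent.DEU.ModHyp
import Fermat.Agent.DEU.Val
import Fermat.Agent.DEU.EquivMod
import Fermat.Agent.DEU.Inf
import Fermat.Agent.W1.ModPRNice
import Fermat.Agent.W1.PlanGeo4

/-!
# DEU — assembly of the reduction package `W1.ModPR` for `X₀(N)` (piece MPR-asm)

`modPR_of_hyp` : from the hypotheses `Hyp` of Deuring's dimension count at `(N, A)` (with `Qinf` the
`q`-order place of `F̄`), the good function `j` and the finiteness of the ramification of `j̄`, the
package `W1.ModPR N A (gN N) R (jF N)` with `R = ⟨residue, deuValO, deuValRed, H.r⟩`.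
-/

set_option autoImplicit false
set_option linter.unusedSectionVars false
set_option linter.style.haveILetI false
set_option synthInstance.maxHeartbeats 400000
set_option maxHeartbeats 1600000

open ModularCurve AlgebraicCurve HahnSeries Module

namespace Fermat.Agent.DEU

open Fermat.Agent.ES Fermat.Agent.S24 Fermat.Agent.ES.M Fermat.Agent.W1 Fermat.Agent.PR

variable (N : ℕ) [NeZero N] (A : ValuationSubring Kb) (hRedF : StmtRedF N A)

/-- the reduction data of `X₀(N)` at `A` with a given reduction of places -/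
noncomputable def modPRData
    (r : Place Kb (FF N) → Place (kA A) ↥(modularFunctionFieldFullC (kA A) N)) :
    PRData Kb (FF N) (kA A) ↥(modularFunctionFieldFullC (kA A) N) A where
  res := IsLocalRing.residue A
  O := deuValO N A
  red := deuValRed N A hRedF
  r := r

variable {N A hRedF}
variable {Pinf : Place Kb (FF N)} {Qinf : Place (kA A) ↥(modularFunctionFieldFullC (kA A) N)}
  {n₀ : ℕ}

theorem modPR_isPR (H : Hyp (deuInst_redData N A hRedF) Pinf Qinf (gN N) n₀) :
    (modPRData N A hRedF H.r).IsPR where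
  res_surjective := deuVal_res_surjective A
  res_eq_zero_iff := deuVal_res_eq_zero_iff' A
  algebraMap_mem_iff := deuVal_algebraMap_mem_iff' N A hRedF
  red_surjective := deuVal_red_surjective N A hRedF
  red_eq_zero_iff := deuVal_red_eq_zero_iff' N A hRedF
  red_algebraMap := deuVal_red_algebraMap N A hRedF
  prim := deuVal_prim N A hRedF
  r_div := fun u hu D hD Q => H.mapDomain_r_principal u hu D hD Q

theorem modPR_orth (H : Hyp (deuInst_redData N A hRedF) Pinf Qinf (gN N) n₀) :
    (modPRData N A hRedF H.r).Orth :=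
  fun D => H.exists_orth D

theorem modPR_upper_k (H : Hyp (deuInst_redData N A hRedF) Pinf Qinf (gN N) n₀) :
    GPRiemannUpper (kA A) ↥(modularFunctionFieldFullC (kA A) N) (gN N) :=
  ⟨(n₀ : ℤ) + gN N, fun 𝔟 h𝔟 => H.riemann_upper_res 𝔟 h𝔟⟩

theorem modPR_nice (H : Hyp (deuInst_redData N A hRedF) Pinf Qinf (gN N) n₀) :
    IsNiceCurve Kb (FF N) (gN N) :=
  haveI := H.hpdk
  nice_FF N (modPRData N A hRedF H.r) H.hresk Qinf (modPR_orth H) (modPR_upper_k H)

theorem modPR_nice_k (H : Hyp (deuInst_redData N A hRedF) Pinf Qinf (gN N) n₀)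
    (hQ : ∀ x : ↥(modularFunctionFieldFullC (kA A) N), x ≠ 0 →
      Qinf.ord x = (x : LaurentSeries (kA A)).order) :
    IsNiceCurve (kA A) ↥(modularFunctionFieldFullC (kA A) N) (gN N) where
  hres := H.hresk
  hpd := H.hpdk
  upper := modPR_upper_k H
  lower := fun 𝔟 => H.riemann_lower_res 𝔟
  infinite := by
    refine deuInf_infinite_k N A H.hpdk H.hresk (resSideJ (kA A) N) Qinf ?_
    have hne : resSideJ (kA A) N ≠ 0 := by
      intro h
      have := congrArg (fun x : ↥(modularFunctionFieldFullC (kA A) N) =>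
        (x : LaurentSeries (kA A)).coeff (-1)) h
      simp only [coe_resSideJ, ZeroMemClass.coe_zero, HahnSeries.coeff_zero] at this
      rw [coeff_jqModC_neg_one] at this
      exact one_ne_zero this
    rw [hQ _ hne, coe_resSideJ]
    have hj0 : jqModC (kA A) ≠ 0 := fun h => hne (Subtype.ext h)
    have hle : (jqModC (kA A)).order ≤ -1 :=
      HahnSeries.order_le_of_coeff_ne_zero (by rw [coeff_jqModC_neg_one]; exact one_ne_zero)
    omega

/-- **MPR-asm.** -/
theorem modPR_of_hyp (H : Hyp (deuInst_redData N A hRedF) Pinf Qinf (gN N) n₀)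
    (hQ : ∀ x : ↥(modularFunctionFieldFullC (kA A) N), x ≠ 0 →
      Qinf.ord x = (x : LaurentSeries (kA A)).order)
    (hgood : (modPRData N A hRedF H.r).GoodFn (jF N))
    (hram : ∀ ht : jF N ∈ deuValO N A,
      {Q : Place (kA A) ↥(modularFunctionFieldFullC (kA A) N) |
        ¬ ∃ c : kA A, Q.ord (deuValRed N A hRedF ⟨jF N, ht⟩ - algebraMap _ _ c) = 1}.Finite) :
    ModPR N A (gN N) (modPRData N A hRedF H.r) (jF N) where
  isPR := modPR_isPR H
  res_eq := rfl
  orth := modPR_orth H
  nice := modPR_nice H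
  nice_k := modPR_nice_k H hQ
  good := hgood
  ram := hram
  t_fixed := deuInf_smul_jF N
  decomp := fun σ hσ =>
    ⟨fun Q => prSemilinear N (prResAut σ hσ) • Q,
      fun P => deuEqMod_r_decomposition N A hRedF H.hresF ((n₀ : ℤ) + 2 * gN N) H.r
        (fun D hD => H.isLeast_mapDomain_r D hD) σ hσ P,
      fun _ hE => deuEqMod_mapDomain_principal _ hE⟩
  inertia := fun σ hσ P =>
    deuEqMod_r_inertia N A hRedF H.hresF ((n₀ : ℤ) + 2 * gN N) H.r
      (fun D hD => H.isLeast_mapDomain_r D hD) σ hσ P

end Fermat.Agent.DEU
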