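import Fermat.Agent.DEU.Ram
import Fermat.Agent.DEU.ResSide
import Fermat.Agent.DEU.Inst
import Fermat.Agent.RED.ResField
import Fermat.Agent.W1.PlanGeo

/-!
# DEU / MPR-ram, instantiated at `F̄ = modularFunctionFieldFullC (kA A) N`, `t = j`

* `deuRamInst_gaussRed_jF` : `GaussRed N A (jF N) (jqModC (kA A))` (the reduction of `j` is `j̄`);
* `deuRamInst_jF_mem` : `jF N ∈ deuInstO N A`;
* `deuRamInst_red_jF` : `deuInstRed N A hRedF ⟨jF N, ht⟩ = resSideJ (kA A) N`;
* `deuRamInst_finite_resSideJ` : `j̄` is unramified outside a finite set of places of `F̄`;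
* `deuRamInst_finite` : the field `ram` of `W1.ModPR` for `red = deuInstRed N A hRedF`, `t = jF N`;
* `deuRamInst_finite_redData` : the same with `(deuInst_redData N A hRedF).red`;
* `deuRamInst_finite_of_eq` : robust form, for any `z ∈ F̄` with `q`-expansion `j̄`;
* `deuRamInst_ram` : exactly the field `ram` of `W1.ModPR N A g R (jF N)`, for any `R : PRData`
  with `GaussRed N A (jF N) (R.red ⟨jF N, ht⟩)`.
-/

set_option autoImplicit false
set_option linter.unusedSectionVars false
set_option linter.style.haveILetI false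
set_option synthInstance.maxHeartbeats 400000
set_option maxHeartbeats 1600000

noncomputable section

namespace Fermat.Agent.DEU

open ModularCurve AlgebraicCurve HahnSeries IntermediateField Fermat.Agent.ES Fermat.Agent.S24
  Fermat.Agent.ES.M

variable (N : ℕ) [NeZero N] (A : ValuationSubring Kb)

/-- `j` with coefficients in `A` -/
def deuRamInstJ : LaurentSeries A := coeffMap (Int.castRingHom A) (jqModC ℤ)

omit [NeZero N] in
theorem deuRamInst_kronIncl_J : kronIncl A (deuRamInstJ A) = jBar := by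
  have h1 : kronIncl A (deuRamInstJ A) =
      coeffMap (A.subtype.comp (Int.castRingHom A)) (jqModC ℤ) := by
    rw [deuRamInstJ]
    exact (coeffMap_coeffMap _ _ _)
  have h2 : jBar = coeffMap (algebraMap ℚ Kb) (jqModC ℚ) := rfl
  rw [h1, h2, RingHom.ext_int (A.subtype.comp (Int.castRingHom A)) (Int.castRingHom Kb),
    coeffMap_jqModC, coeffMap_jqModC]

omit [NeZero N] in
theorem deuRamInst_kronRed_J : kronRed A (deuRamInstJ A) = jqModC (kA A) := by
  have h1 : kronRed A (deuRamInstJ A) =
      coeffMap ((IsLocalRing.residue A).comp (Int.castRingHom A)) (jqModC ℤ) := by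
    rw [deuRamInstJ]
    exact (coeffMap_coeffMap _ _ _)
  rw [h1, coeffMap_jqModC]

/-- the Gauss reduction of `j` is `j̄` -/
theorem deuRamInst_gaussRed_jF : GaussRed N A (jF N) (jqModC (kA A)) := by
  refine ⟨deuRamInstJ A, 1, ?_, ?_, ?_, ?_, ?_⟩
  · rw [deuRamInst_kronIncl_J]
    exact (jF N).2
  · rw [map_one]
    exact one_mem _
  · rw [map_one]
    exact one_ne_zero
  · rw [map_one, mul_one, deuRamInst_kronIncl_J]
    rfl
  · rw [map_one, mul_one, deuRamInst_kronRed_J]

theorem deuRamInst_jF_mem : jF N ∈ deuInstO N A := ⟨_, deuRamInst_gaussRed_jF N A⟩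

/-- `red j = j̄` -/
theorem deuRamInst_red_jF (hRedF : StmtRedF N A) (ht : jF N ∈ deuInstO N A) :
    deuInstRed N A hRedF ⟨jF N, ht⟩ = resSideJ (kA A) N := by
  apply Subtype.ext
  rw [deuInstRed_coe, coe_resSideJ]
  exact deuInstRedFun_eq N A (x := ⟨jF N, ht⟩) (deuRamInst_gaussRed_jF N A)

/-- **MPR-ram on the residue side**: `j̄` is unramified outside a finite set of places of `F̄`
(`k` algebraically closed of characteristic `p`). -/
theorem deuRamInst_finite_resSideJ (k : Type) [Field k] [IsAlgClosed k] (p : ℕ) [Fact p.Prime]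
    [CharP k p] :
    {Q : Place k ↥(modularFunctionFieldFullC k N) |
      ¬ ∃ c : k, Q.ord (resSideJ k N - algebraMap k ↥(modularFunctionFieldFullC k N) c) = 1}.Finite := by
  haveI : PerfectRing k p := inferInstance
  haveI := resSide_finiteDimensional k N
  haveI := resSide_isSeparable k p N
  haveI := resSide_hasPrincipalDivisors k p N
  exact deuRam_finite_of_separable
    (fun Q => (resSide_residue_bijective k p N Q).2) (resSideJ k N)

/-- **MPR-ram, instantiated** (the field `ram` of `W1.ModPR` for `t = j`). -/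
theorem deuRamInst_finite (ℓ : ℕ) (hℓ : ℓ.Prime) (hA : A.LiesOverPrime ℓ)
    (hRedF : StmtRedF N A) (ht : jF N ∈ deuInstO N A) :
    {Q : Place (kA A) ↥(modularFunctionFieldFullC (kA A) N) |
      ¬ ∃ c : kA A, Q.ord (deuInstRed N A hRedF ⟨jF N, ht⟩ -
        algebraMap (kA A) ↥(modularFunctionFieldFullC (kA A) N) c) = 1}.Finite := by
  haveI : Fact ℓ.Prime := ⟨hℓ⟩
  haveI : CharP (kA A) ℓ := Fermat.Agent.RED.charP_residueField A hℓ hA
  haveI : IsAlgClosed (kA A) := Fermat.Agent.RED.isAlgClosed_residueField A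
  rw [deuRamInst_red_jF N A hRedF ht]
  exact deuRamInst_finite_resSideJ N (kA A) ℓ

/-- the same for the reduction map of `deuInst_redData` -/
theorem deuRamInst_finite_redData (ℓ : ℕ) (hℓ : ℓ.Prime) (hA : A.LiesOverPrime ℓ)
    (hRedF : StmtRedF N A) (ht : jF N ∈ (deuInst_redData N A hRedF).O) :
    {Q : Place (kA A) ↥(modularFunctionFieldFullC (kA A) N) |
      ¬ ∃ c : kA A, Q.ord ((deuInst_redData N A hRedF).red ⟨jF N, ht⟩ -
        algebraMap (kA A) ↥(modularFunctionFieldFullC (kA A) N) c) = 1}.Finite :=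
  deuRamInst_finite N A ℓ hℓ hA hRedF ht

/-- robust form: any element of `F̄` whose `q`-expansion is `j̄` -/
theorem deuRamInst_finite_of_eq (ℓ : ℕ) (hℓ : ℓ.Prime) (hA : A.LiesOverPrime ℓ)
    (z : ↥(modularFunctionFieldFullC (kA A) N))
    (hz : (z : LaurentSeries (kA A)) = jqModC (kA A)) :
    {Q : Place (kA A) ↥(modularFunctionFieldFullC (kA A) N) |
      ¬ ∃ c : kA A, Q.ord (z -
        algebraMap (kA A) ↥(modularFunctionFieldFullC (kA A) N) c) = 1}.Finite := by
  haveI : Fact ℓ.Prime := ⟨hℓ⟩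
  haveI : CharP (kA A) ℓ := Fermat.Agent.RED.charP_residueField A hℓ hA
  haveI : IsAlgClosed (kA A) := Fermat.Agent.RED.isAlgClosed_residueField A
  have hzJ : z = resSideJ (kA A) N := Subtype.ext (by rw [hz, coe_resSideJ])
  rw [hzJ]
  exact deuRamInst_finite_resSideJ N (kA A) ℓ

/-- **the field `ram` of `W1.ModPR N A g R (jF N)`**, for any reduction package whose reduction
map sends `j` to its Gauss reduction. -/
theorem deuRamInst_ram (ℓ : ℕ) (hℓ : ℓ.Prime) (hA : A.LiesOverPrime ℓ)
    (R : Fermat.Agent.W1.PRData (AlgebraicClosure ℚ) ↥(modularFunctionFieldBar N)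
      (IsLocalRing.ResidueField A) ↥(modularFunctionFieldFullC (IsLocalRing.ResidueField A) N) A)
    (hR : ∀ ht : jF N ∈ R.O, GaussRed N A (jF N)
      ((R.red ⟨jF N, ht⟩ : ↥(modularFunctionFieldFullC (IsLocalRing.ResidueField A) N)) :
        LaurentSeries (kA A))) :
    ∀ ht : jF N ∈ R.O,
      {Q : Place (IsLocalRing.ResidueField A)
          ↥(modularFunctionFieldFullC (IsLocalRing.ResidueField A) N) |
        ¬ ∃ c : IsLocalRing.ResidueField A,
          Q.ord (R.red ⟨jF N, ht⟩ - algebraMap _ _ c) = 1}.Finite := by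
  intro ht
  exact deuRamInst_finite_of_eq N A ℓ hℓ hA _
    (deuInst_gaussRed_unique N A (hR ht) (deuRamInst_gaussRed_jF N A))

end Fermat.Agent.DEU
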