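import Fermat.Agent.DEU.ModPRAsm
import Fermat.Agent.DEU.Good
import Fermat.Agent.DEU.RamInst
import Fermat.Agent.ES.LR.Final
import Fermat.Agent.ES.I2.Final
import Fermat.Agent.ES.I2aux.Target

/-!
# DEU — GEO-PR: the reduction package of `X₀(N)` at a prime `ℓ ∤ N`

* `hasModPR_of_stmtI2` : `W1.HasModPR N A` from the genus bound `StmtI2 N A` in characteristic `ℓ`
  (the only good-reduction input);
* `hasModPR_of_five_le` : unconditional for `ℓ ≥ 5` (`ES.I2.stmtI2All`);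
* `hasModPR_of_aux` : for `ℓ < 5`, `(5 - ℓ) ∣ N`, from `StmtI2AuxAll`.
-/

set_option autoImplicit false
set_option linter.unusedSectionVars false
set_option linter.style.haveILetI false
set_option synthInstance.maxHeartbeats 400000
set_option maxHeartbeats 1600000

open ModularCurve AlgebraicCurve HahnSeries Module

namespace Fermat.Agent.DEU

open Fermat.Agent.ES Fermat.Agent.S24 Fermat.Agent.ES.M Fermat.Agent.W1

/-- **GEO-PR.** The reduction package of `X₀(N)` at `A` over `ℓ ∤ N`, from the genus bound (I2). -/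
theorem hasModPR_of_stmtI2 (N : ℕ) [NeZero N] (ℓ : ℕ) (hℓ : ℓ.Prime) (hℓN : ¬ ℓ ∣ N)
    (A : ValuationSubring Kb) (hA : A.LiesOverPrime ℓ) (hI2 : StmtI2 N A) : HasModPR N A := by
  have hRedF : StmtRedF N A := stmtRedF N A ℓ hℓ hℓN hA
  obtain ⟨Pinf, Qinf, n₀, -, hQ, H⟩ := deuAnchor_hyp N A hRedF
    (Fermat.Agent.ES.LR.stmtLRa N ℓ hℓ A hA) hI2 (Fermat.Agent.ES.R.stmtR N)
    (modHyp_hresk N A) (modHyp_hpdk N A hℓ hA)
  refine ⟨gN N, modPRData N A hRedF H.r, jF N, modPR_of_hyp H hQ ?_ ?_⟩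
  · exact deuGood_good N A ℓ hℓ hℓN hA hRedF H.r
      (fun u hu D hD Q => H.mapDomain_r_principal u hu D hD Q)
  · intro ht
    exact deuRamInst_finite N A ℓ hℓ hA hRedF ht

/-- **GEO-PR for `ℓ ≥ 5`**, unconditional. -/
theorem hasModPR_of_five_le (N : ℕ) [NeZero N] (ℓ : ℕ) (hℓ : ℓ.Prime) (h5 : 5 ≤ ℓ)
    (hℓN : ¬ ℓ ∣ N) (A : ValuationSubring Kb) (hA : A.LiesOverPrime ℓ) : HasModPR N A :=
  hasModPR_of_stmtI2 N ℓ hℓ hℓN A hA (Fermat.Agent.ES.I2.stmtI2All N ℓ hℓ h5 hℓN A hA)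

/-- **GEO-PR for `ℓ ∈ {2, 3}`** at levels divisible by `5 - ℓ`, from `StmtI2AuxAll`. -/
theorem hasModPR_of_aux (haux : StmtI2AuxAll) (N : ℕ) [NeZero N] (ℓ : ℕ) (hℓ : ℓ.Prime)
    (h5 : ℓ < 5) (hℓN : ¬ ℓ ∣ N) (hdvd : (5 - ℓ) ∣ N) (A : ValuationSubring Kb)
    (hA : A.LiesOverPrime ℓ) : HasModPR N A :=
  hasModPR_of_stmtI2 N ℓ hℓ hℓN A hA (haux N ℓ hℓ h5 hℓN hdvd A hA)

/-- the form needed by `W1/S19Final.lean` (`StmtModPRS19`) -/
theorem hasModPR_s19 (haux : StmtI2AuxAll) (N : ℕ) [NeZero N] (ℓ : ℕ) (hℓ : ℓ.Prime)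
    (hℓN : ¬ ℓ ∣ N) (_hN : 2 ≤ N) (h : 5 ≤ ℓ ∨ (5 - ℓ) ∣ N) (A : ValuationSubring Kb)
    (hA : A.LiesOverPrime ℓ) : HasModPR N A := by
  rcases le_or_gt 5 ℓ with h5 | h5
  · exact hasModPR_of_five_le N ℓ hℓ h5 hℓN A hA
  · exact hasModPR_of_aux haux N ℓ hℓ h5 hℓN (h.resolve_left (not_le.mpr h5)) A hA

end Fermat.Agent.DEU
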