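import Mathlib

/-!
# DEU-ord: a subalgebra of `k((q))` with `R ∩ k[[q]] = k`

`R ≤ k((q))` a `k`-subalgebra all of whose elements of order `≥ 0` are constants, `w ∈ R` of order
`-n`, `n ≥ 1`.  Then

* `deuOrd_exists_generators` : `R = ∑_{i < n} k[w] · u_i` for suitable `u : Fin n → R`;
* `deuOrd_isIntegral` : every element of `R` is integral over `k[w] = Algebra.adjoin k {w}`;
* `deuOrd_span_eq_top`, `deuOrd_finrank_le` : if a field `F ⊇ R` consists of fractions of elements
  of `R`, then `[F : k(w)] ≤ n`.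
-/

set_option autoImplicit false

namespace Fermat.Agent.DEU

open HahnSeries Polynomial

section Laurent

variable {k : Type*} [Field k]

theorem deuOrd_algebraMap (a : k) : algebraMap k (LaurentSeries k) a = HahnSeries.C a := by
  rw [HahnSeries.algebraMap_apply' ℤ a]
  simp

theorem deuOrd_order_mul {x y : LaurentSeries k} (hx : x ≠ 0) (hy : y ≠ 0) :
    (x * y).order = x.order + y.order :=
  HahnSeries.order_mul_of_ne_zero
    (mul_ne_zero (HahnSeries.leadingCoeff_ne_zero.mpr hx) (HahnSeries.leadingCoeff_ne_zero.mpr hy))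

/-- If all coefficients of `y` at indices `≤ m` vanish and `y ≠ 0`, then `m < y.order`. -/
theorem deuOrd_lt_order {y : LaurentSeries k} (hy : y ≠ 0) {m : ℤ}
    (h : ∀ j : ℤ, j ≤ m → y.coeff j = 0) : m < y.order := by
  by_contra hcon
  push Not at hcon
  exact (HahnSeries.coeff_order_eq_zero.not.mpr hy) (h _ hcon)

/-- Cancelling the leading term: if `x, z ≠ 0` have the same order `m`, then
`x - (x.coeff m / z.coeff m) • z` is zero or of larger order. -/
theorem deuOrd_cancel {x z : LaurentSeries k} (hz : z ≠ 0) (hxz : x.order = z.order) :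
    x - HahnSeries.C (x.coeff x.order / z.coeff z.order) * z = 0 ∨
      x.order < (x - HahnSeries.C (x.coeff x.order / z.coeff z.order) * z).order := by
  by_cases h0 : x - HahnSeries.C (x.coeff x.order / z.coeff z.order) * z = 0
  · exact Or.inl h0
  · right
    apply deuOrd_lt_order h0
    intro j hj
    have hzc : z.coeff z.order ≠ 0 := HahnSeries.coeff_order_eq_zero.not.mpr hz
    rw [HahnSeries.coeff_sub, HahnSeries.C_mul_eq_smul, HahnSeries.coeff_smul, smul_eq_mul]
    rcases lt_or_eq_of_le hj with hlt | heq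
    · have hxj : x.coeff j = 0 := HahnSeries.coeff_eq_zero_of_lt_order hlt
      have hzj : z.coeff j = 0 := HahnSeries.coeff_eq_zero_of_lt_order (by rw [← hxz]; exact hlt)
      rw [hxj, hzj, mul_zero, sub_zero]
    · rw [heq]
      have : z.coeff x.order = z.coeff z.order := by rw [hxz]
      rw [this, div_mul_cancel₀ _ hzc, sub_self]

/-- nonzero elements of `R` have order `≤ 0` -/
theorem deuOrd_order_nonpos (R : Subalgebra k (LaurentSeries k))
    (h0 : ∀ x ∈ R, 0 ≤ x.order → x ∈ Set.range (algebraMap k (LaurentSeries k)))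
    {x : LaurentSeries k} (hx : x ∈ R) : x.order ≤ 0 := by
  by_contra hpos
  push Not at hpos
  obtain ⟨a, rfl⟩ := h0 x hx hpos.le
  rw [deuOrd_algebraMap, HahnSeries.order_C] at hpos
  exact lt_irrefl _ hpos

/-- **DEU-ord (i).**  `R = ∑_{i < n} k[w] · u_i`. -/
theorem deuOrd_exists_generators (R : Subalgebra k (LaurentSeries k))
    (h0 : ∀ x ∈ R, 0 ≤ x.order → x ∈ Set.range (algebraMap k (LaurentSeries k)))
    (w : LaurentSeries k) (hw : w ∈ R) (n : ℕ) (hn : 1 ≤ n) (hord : w.order = -(n : ℤ)) :
    ∃ u : Fin n → LaurentSeries k, (∀ i, u i ∈ R) ∧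
      ∀ x ∈ R, ∃ c : Fin n → Polynomial k, x = ∑ i, Polynomial.aeval w (c i) * u i := by
  classical
  have hw0 : w ≠ 0 := by
    rintro rfl
    rw [HahnSeries.order_zero] at hord
    omega
  -- pole orders in the class `i`
  let P : Fin n → ℕ → Prop := fun i m =>
    ∃ x ∈ R, x ≠ 0 ∧ x.order = -(m : ℤ) ∧ m % n = i.1
  have hchoice : ∀ i : Fin n, ∃ v : LaurentSeries k, v ∈ R ∧
      ∀ (m : ℕ), P i m → ∃ m₀ : ℕ, m₀ ≤ m ∧ m₀ % n = i.1 ∧ v ≠ 0 ∧ v.order = -(m₀ : ℤ) := by
    intro i
    by_cases h : ∃ m, P i m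
    · obtain ⟨v, hvR, hv0, hvord, hvmod⟩ := Nat.find_spec h
      exact ⟨v, hvR, fun m hm => ⟨Nat.find h, Nat.find_min' h hm, hvmod, hv0, hvord⟩⟩
    · exact ⟨0, R.zero_mem, fun m hm => absurd ⟨m, hm⟩ h⟩
  choose u huR hu using hchoice
  refine ⟨u, huR, ?_⟩
  -- strong induction on the pole order
  have key : ∀ m : ℕ, ∀ x ∈ R, x ≠ 0 → x.order = -(m : ℤ) →
      ∃ c : Fin n → Polynomial k, x = ∑ i, Polynomial.aeval w (c i) * u i := by
    intro m
    induction m using Nat.strong_induction_on with
    | _ m ih =>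
      intro x hx hx0 hxord
      let i : Fin n := ⟨m % n, Nat.mod_lt _ hn⟩
      obtain ⟨m₀, hm₀le, hm₀mod, hv0, hvord⟩ := hu i m ⟨x, hx, hx0, hxord, rfl⟩
      -- `m = m₀ + j * n`
      have hdiv : n ∣ m - m₀ := by
        have h1 : m₀ % n = m % n := hm₀mod
        exact (Nat.modEq_iff_dvd' hm₀le).mp h1
      obtain ⟨j, hj⟩ := hdiv
      have hm : m = m₀ + n * j := by omega
      set z : LaurentSeries k := w ^ j * u i with hz
      have hzR : z ∈ R := R.mul_mem (R.pow_mem hw j) (huR i)
      have hz0 : z ≠ 0 := mul_ne_zero (pow_ne_zero j hw0) hv0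
      have hzord : z.order = -(m : ℤ) := by
        rw [hz, deuOrd_order_mul (pow_ne_zero j hw0) hv0, HahnSeries.order_pow, hord, hvord, hm]
        simp only [nsmul_eq_mul, Nat.cast_add, Nat.cast_mul]
        ring
      have hxz : x.order = z.order := by rw [hxord, hzord]
      set a : k := x.coeff x.order / z.coeff z.order with ha
      have hterm : HahnSeries.C a * z =
          Polynomial.aeval w (Polynomial.C a * Polynomial.X ^ j) * u i := by
        rw [map_mul, Polynomial.aeval_C, map_pow, Polynomial.aeval_X, hz,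
          deuOrd_algebraMap]
        ring
      by_cases hy0' : x - HahnSeries.C a * z = 0
      · refine ⟨Pi.single i (Polynomial.C a * Polynomial.X ^ j), ?_⟩
        rw [Finset.sum_eq_single i]
        · rw [Pi.single_eq_same, ← hterm]
          exact sub_eq_zero.mp hy0'
        · intro b _ hb
          rw [Pi.single_eq_of_ne hb, map_zero, zero_mul]
        · intro h; exact absurd (Finset.mem_univ i) h
      · have hy := (deuOrd_cancel hz0 hxz).resolve_left hy0'
        set y : LaurentSeries k := x - HahnSeries.C a * z with hydef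
        have hyR : y ∈ R := by
          refine R.sub_mem hx (R.mul_mem ?_ hzR)
          rw [← deuOrd_algebraMap]
          exact R.algebraMap_mem a
        have hy0 : y ≠ 0 := hy0'
        have hynp : y.order ≤ 0 := deuOrd_order_nonpos R h0 hyR
        obtain ⟨m', hm'⟩ : ∃ m' : ℕ, y.order = -(m' : ℤ) :=
          ⟨(-y.order).toNat, by rw [Int.toNat_of_nonneg (by omega)]; ring⟩
        have hm'lt : m' < m := by
          rw [hxord, hm'] at hy
          omega
        obtain ⟨c', hc'⟩ := ih m' hm'lt y hyR hy0 hm'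
        refine ⟨c' + Pi.single i (Polynomial.C a * Polynomial.X ^ j), ?_⟩
        have hx_eq : x = y + HahnSeries.C a * z := by rw [hydef]; ring
        rw [hx_eq, hc', hterm]
        simp only [Pi.add_apply, map_add, add_mul, Finset.sum_add_distrib]
        congr 1
        rw [Finset.sum_eq_single i]
        · rw [Pi.single_eq_same]
        · intro b _ hb
          rw [Pi.single_eq_of_ne hb, map_zero, zero_mul]
        · intro h; exact absurd (Finset.mem_univ i) h
  intro x hx
  by_cases hx0 : x = 0
  · exact ⟨0, by simp [hx0]⟩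
  · have hnp := deuOrd_order_nonpos R h0 hx
    exact key (-x.order).toNat x hx hx0 (by rw [Int.toNat_of_nonneg (by omega)]; ring)

/-- **DEU-ord (ii).**  Every element of `R` is integral over `k[w]`. -/
theorem deuOrd_isIntegral (R : Subalgebra k (LaurentSeries k))
    (h0 : ∀ x ∈ R, 0 ≤ x.order → x ∈ Set.range (algebraMap k (LaurentSeries k)))
    (w : LaurentSeries k) (hw : w ∈ R) (n : ℕ) (hn : 1 ≤ n) (hord : w.order = -(n : ℤ)) :
    ∀ x ∈ R, IsIntegral (Algebra.adjoin k {w}) x := by
  classical
  obtain ⟨u, huR, hu⟩ := deuOrd_exists_generators R h0 w hw n hn hord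
  have hSR : Algebra.adjoin k {w} ≤ R := Algebra.adjoin_le (by simpa using hw)
  -- `R` as a subalgebra over `k[w]`
  let R' : Subalgebra (Algebra.adjoin k {w}) (LaurentSeries k) :=
    { R.toSubsemiring with
      algebraMap_mem' := fun s => hSR s.2 }
  have hmem : ∀ x, x ∈ R' ↔ x ∈ R := fun x => Iff.rfl
  have hfg : R'.toSubmodule.FG := by
    refine ⟨Finset.univ.image u, le_antisymm ?_ ?_⟩
    · refine Submodule.span_le.mpr ?_
      intro y hy
      simp only [Finset.coe_image, Finset.coe_univ, Set.image_univ, Set.mem_range] at hy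
      obtain ⟨i, rfl⟩ := hy
      exact huR i
    · intro x hx
      obtain ⟨c, hc⟩ := hu x hx
      rw [hc]
      refine Submodule.sum_mem _ fun i _ => ?_
      have h1 : Polynomial.aeval w (c i) * u i =
          (⟨Polynomial.aeval w (c i), Polynomial.aeval_mem_adjoin_singleton k w⟩ :
            Algebra.adjoin k {w}) • u i := rfl
      rw [h1]
      refine Submodule.smul_mem _ _ (Submodule.subset_span ?_)
      simp only [Finset.coe_image, Finset.coe_univ, Set.image_univ, Set.mem_range]
      exact ⟨i, rfl⟩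
  intro x hx
  exact IsIntegral.of_mem_of_fg R' hfg x hx

end Laurent

section Abstract

/-- In a field `F` over `K`: if a set `R` lies in the `K`-span `V` of finitely many `u i`, if
`R · u i ⊆ R`, and if every element of `F` is a fraction of elements of `R`, then `V = F`. -/
theorem deuOrd_span_eq_top {K F : Type*} [Field K] [Field F] [Algebra K F] {ι : Type*} [Finite ι]
    (u : ι → F) (R : Set F) (hR : ∀ x ∈ R, x ∈ Submodule.span K (Set.range u))
    (hmul : ∀ b ∈ R, ∀ i, b * u i ∈ R)
    (hfrac : ∀ x : F, ∃ a ∈ R, ∃ b ∈ R, b ≠ 0 ∧ x * b = a) :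
    Submodule.span K (Set.range u) = ⊤ := by
  classical
  set V : Submodule K F := Submodule.span K (Set.range u) with hV
  haveI : FiniteDimensional K V := FiniteDimensional.span_of_finite K (Set.finite_range u)
  have hstab : ∀ b ∈ R, ∀ v ∈ V, b * v ∈ V := by
    intro b hb v hv
    induction hv using Submodule.span_induction with
    | mem x hx =>
      obtain ⟨i, rfl⟩ := hx
      exact hR _ (hmul b hb i)
    | zero => rw [mul_zero]; exact V.zero_mem
    | add x y _ _ hx hy => rw [mul_add]; exact V.add_mem hx hy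
    | smul c x _ hx => rw [mul_smul_comm]; exact V.smul_mem c hx
  rw [eq_top_iff]
  intro x _
  obtain ⟨a, ha, b, hb, hb0, hxb⟩ := hfrac x
  let f : V →ₗ[K] V := (LinearMap.mulLeft K b).restrict (fun v hv => hstab b hb v hv)
  have hinj : Function.Injective f := by
    intro v₁ v₂ h
    have h' : b * (v₁ : F) = b * (v₂ : F) := congrArg Subtype.val h
    exact Subtype.ext (mul_left_cancel₀ hb0 h')
  have hsurj : Function.Surjective f := LinearMap.injective_iff_surjective.mp hinj
  obtain ⟨v, hv⟩ := hsurj ⟨a, hR a ha⟩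
  have hv' : b * (v : F) = a := congrArg Subtype.val hv
  have hxv : x = v := by
    apply mul_left_cancel₀ hb0
    rw [hv', mul_comm, hxb]
  rw [hxv]
  exact v.2

theorem deuOrd_finrank_le_card {K F : Type*} [Field K] [Field F] [Algebra K F] {ι : Type*}
    [Fintype ι]
    (u : ι → F) (R : Set F) (hR : ∀ x ∈ R, x ∈ Submodule.span K (Set.range u))
    (hmul : ∀ b ∈ R, ∀ i, b * u i ∈ R)
    (hfrac : ∀ x : F, ∃ a ∈ R, ∃ b ∈ R, b ≠ 0 ∧ x * b = a) :
    FiniteDimensional K F ∧ Module.finrank K F ≤ Fintype.card ι := by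
  have htop := deuOrd_span_eq_top (K := K) u R hR hmul hfrac
  haveI : FiniteDimensional K (Submodule.span K (Set.range u)) :=
    FiniteDimensional.span_of_finite K (Set.finite_range u)
  have hfd : FiniteDimensional K F := by
    have : FiniteDimensional K (⊤ : Submodule K F) := htop ▸ this
    exact Module.finite_def.mpr (htop ▸ Submodule.fg_span (Set.finite_range u))
  refine ⟨hfd, ?_⟩
  have h1 : Module.finrank K (Submodule.span K (Set.range u)) ≤ Fintype.card ι :=
    finrank_range_le_card u
  rw [htop, finrank_top] at h1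
  exact h1

end Abstract

section Field

variable {k : Type*} [Field k]

/-- **DEU-ord (iii).**  If a field `F` between `k` and `k((q))` contains `R` and consists of
fractions of elements of `R`, then `[F : k(w)] ≤ n`. -/
theorem deuOrd_finrank_le (R : Subalgebra k (LaurentSeries k))
    (h0 : ∀ x ∈ R, 0 ≤ x.order → x ∈ Set.range (algebraMap k (LaurentSeries k)))
    (w : LaurentSeries k) (hw : w ∈ R) (n : ℕ) (hn : 1 ≤ n) (hord : w.order = -(n : ℤ))
    (F : IntermediateField k (LaurentSeries k)) (hRF : ∀ x ∈ R, x ∈ F)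
    (hfrac : ∀ x ∈ F, ∃ a ∈ R, ∃ b ∈ R, b ≠ 0 ∧ x * b = a) :
    FiniteDimensional (IntermediateField.adjoin k {(⟨w, hRF w hw⟩ : F)}) F ∧
      Module.finrank (IntermediateField.adjoin k {(⟨w, hRF w hw⟩ : F)}) F ≤ n := by
  classical
  obtain ⟨u, huR, hu⟩ := deuOrd_exists_generators R h0 w hw n hn hord
  set w' : F := ⟨w, hRF w hw⟩ with hw'
  set K : IntermediateField k F := IntermediateField.adjoin k {w'} with hK
  let u' : Fin n → F := fun i => ⟨u i, hRF _ (huR i)⟩
  let R' : Set F := {x | (x : LaurentSeries k) ∈ R}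
  have haev : ∀ p : Polynomial k, ((Polynomial.aeval w' p : F) : LaurentSeries k) =
      Polynomial.aeval w p := by
    intro p
    exact (Polynomial.aeval_algebraMap_apply (LaurentSeries k) w' p).symm
  have haevK : ∀ p : Polynomial k, Polynomial.aeval w' p ∈ K := by
    intro p
    exact IntermediateField.algebra_adjoin_le_adjoin k _
      (Polynomial.aeval_mem_adjoin_singleton k w')
  have hR : ∀ x ∈ R', x ∈ Submodule.span K (Set.range u') := by
    intro x hx
    obtain ⟨c, hc⟩ := hu x hx
    have hx_eq : x = ∑ i, (⟨Polynomial.aeval w' (c i), haevK (c i)⟩ : K) • u' i := by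
      apply Subtype.ext
      rw [hc]
      simp only [IntermediateField.coe_sum]
      refine Finset.sum_congr rfl fun i _ => ?_
      rw [← haev]
      rfl
    rw [hx_eq]
    exact Submodule.sum_mem _ fun i _ =>
      Submodule.smul_mem _ _ (Submodule.subset_span ⟨i, rfl⟩)
  have hmul : ∀ b ∈ R', ∀ i, b * u' i ∈ R' := by
    intro b hb i
    exact R.mul_mem hb (huR i)
  have hfrac' : ∀ x : F, ∃ a ∈ R', ∃ b ∈ R', b ≠ 0 ∧ x * b = a := by
    intro x
    obtain ⟨a, ha, b, hb, hb0, hxb⟩ := hfrac x x.2
    refine ⟨⟨a, hRF a ha⟩, ha, ⟨b, hRF b hb⟩, hb, ?_, Subtype.ext hxb⟩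
    intro h
    exact hb0 (congrArg Subtype.val h)
  have := deuOrd_finrank_le_card (K := K) u' R' hR hmul hfrac'
  simpa using this

end Field

end Fermat.Agent.DEU
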