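import Fermat.Agent.DEU.Defs

/-!
# DEU — the reduction of a finite-dimensional subspace

`dim_k (R.redSpace V) ≤ dim_K V`: lifts of `k`-linearly independent reductions are `K`-linearly
independent (scale a relation by its coefficient of largest absolute value and reduce).
-/

set_option autoImplicit false

open AlgebraicCurve Module

namespace Fermat.Agent.DEU

variable {K F k Fb : Type*} [Field K] [Field F] [Algebra K F] [Field k] [Field Fb] [Algebra k Fb]

namespace RedData

variable (R : RedData K F k Fb)

/-- Lifts of linearly independent reductions are linearly independent. -/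
theorem linearIndependent_of_red {ι : Type*} [Finite ι] (f : ι → R.O)
    (h : LinearIndependent k (fun i => R.red (f i))) :
    LinearIndependent K (fun i => ((f i : R.O) : F)) := by
  classical
  have : Fintype ι := Fintype.ofFinite ι
  rw [Fintype.linearIndependent_iff]
  intro c hc
  by_contra hne
  push Not at hne
  obtain ⟨j, hj⟩ := hne
  -- the coefficient of largest absolute value
  obtain ⟨i₀, -, hi₀⟩ := Finset.exists_max_image (Finset.univ : Finset ι)
    (fun i => R.A.valuation (c i)) ⟨j, Finset.mem_univ j⟩
  have hci₀ : c i₀ ≠ 0 := by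
    intro h0
    have h1 := hi₀ j (Finset.mem_univ j)
    rw [h0, map_zero] at h1
    exact hj ((Valuation.zero_iff _).mp (le_antisymm h1 zero_le))
  have hv0 : R.A.valuation (c i₀) ≠ 0 := (Valuation.ne_zero_iff _).mpr hci₀
  have hmem : ∀ i, c i / c i₀ ∈ R.A := by
    intro i
    rw [← ValuationSubring.valuation_le_one_iff, map_div₀]
    exact div_le_one_of_le₀ (hi₀ i (Finset.mem_univ i)) zero_le
  let a : ι → R.A := fun i => ⟨c i / c i₀, hmem i⟩
  have hsum : ∑ i, R.const (a i) * f i = 0 := by
    apply Subtype.ext
    rw [Subring.coe_zero]
    have h1 : ((∑ i, R.const (a i) * f i : R.O) : F) =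
        ∑ i, algebraMap K F (c i / c i₀) * (f i : F) := by
      rw [← Subring.coe_subtype, map_sum]
      rfl
    rw [h1]
    have h2 : ∀ i, algebraMap K F (c i / c i₀) * (f i : F) =
        algebraMap K F (c i₀)⁻¹ * (c i • (f i : F)) := by
      intro i
      rw [Algebra.smul_def, ← mul_assoc, ← map_mul, inv_mul_eq_div]
    simp_rw [h2]
    rw [← Finset.mul_sum, hc, mul_zero]
  have hred := congrArg R.red hsum
  rw [map_sum, map_zero] at hred
  have hred' : ∑ i, R.res (a i) • R.red (f i) = 0 := by
    rw [← hred]
    refine Finset.sum_congr rfl fun i _ => ?_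
    rw [map_mul, red_const, Algebra.smul_def]
  have h3 := (Fintype.linearIndependent_iff.mp h) (fun i => R.res (a i)) hred' i₀
  have h4 : a i₀ = 1 := by
    apply Subtype.ext
    show c i₀ / c i₀ = 1
    exact div_self hci₀
  rw [h4, map_one] at h3
  exact one_ne_zero h3

/-- `dim (reduction of V) ≤ dim V` (as cardinals bounded by a natural number). -/
theorem rank_redSpace_le (V : Submodule K F) [Module.Finite K V] :
    Module.rank k ↥(R.redSpace V) ≤ (finrank K V : ℕ) := by
  classical
  refine rank_le fun s hs => ?_
  -- lift the elements of `s`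
  have hex : ∀ w : ↥(R.redSpace V), ∃ f : R.O, (f : F) ∈ V ∧ R.red f = (w : Fb) := fun w => w.2
  choose lift hliftV hliftred using hex
  have hli : LinearIndependent k (fun i : s => R.red (lift (i : ↥(R.redSpace V)))) := by
    have h1 : LinearIndependent k (fun i : s => (((i : ↥(R.redSpace V)) : Fb))) := by
      have := hs.map' (R.redSpace V).subtype (Submodule.ker_subtype _)
      exact this
    convert h1 using 2
    exact hliftred _
  have hK := R.linearIndependent_of_red (fun i : s => lift (i : ↥(R.redSpace V))) hli
  -- as a family in `V`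
  have hKV : LinearIndependent K (fun i : s => (⟨(lift (i : ↥(R.redSpace V)) : F),
      hliftV _⟩ : V)) := by
    refine LinearIndependent.of_comp V.subtype ?_
    exact hK
  have := hKV.fintype_card_le_finrank
  simpa using this

instance finite_redSpace (V : Submodule K F) [Module.Finite K V] :
    Module.Finite k ↥(R.redSpace V) :=
  Module.rank_lt_aleph0_iff.mp
    (lt_of_le_of_lt (R.rank_redSpace_le V) Cardinal.natCast_lt_aleph0)

theorem finrank_redSpace_le (V : Submodule K F) [Module.Finite K V] :
    finrank k ↥(R.redSpace V) ≤ finrank K V :=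
  finrank_le_of_rank_le (R.rank_redSpace_le V)

end RedData

end Fermat.Agent.DEU
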