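import Fermat.Agent.INJ.BGFin
import Fermat.Agent.S24.Residue
import Fermat.Agent.S28.Red
import Fermat.Agent.RED.ResField

/-!
# MPR-res (a): the residue fields of the places of the reduced modular function field  (helper51)

For an algebraically closed field `k` (of ANY characteristic) every place of
`F̄ = modularFunctionFieldFullC k N = k(j̄(q^d) : d ∣ N)` has residue field `k`:
`F̄` is finite over `k(j̄)` (`INJ.bgFin_finiteDimensional_full`), `j̄` is transcendental
(`S28.red_transcendental_jqModC`), and `S24.algebraMap_residueField_bijective` is
characteristic-free.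

* `deuResF_bijective k N v` : `Function.Bijective (algebraMap k v.ResidueField)`;
* `deuResF_bijective_kA N A v` : the same for `k = IsLocalRing.ResidueField A`,
  `A` a valuation subring of `ℚ̄`;
* `deuResF_deg_eq_one`, `deuResF_transcendental_j`, `deuResF_isAlgebraic`,
  `deuResF_finiteDimensional`.
-/

set_option autoImplicit false

noncomputable section

open AlgebraicCurve ModularCurve IntermediateField

namespace Fermat.Agent.DEU

section General

variable (k : Type*) [Field k] (N : ℕ) [NeZero N]

/-- `j̄` as an element of the reduced modular function field -/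
def deuResFJ : ↥(modularFunctionFieldFullC k N) := ⟨jqModC k, jqModC_mem_full k N⟩

omit [NeZero N] in
theorem deuResF_transcendental_j : Transcendental k (deuResFJ k N) := by
  intro h
  apply Fermat.Agent.S28.red_transcendental_jqModC k
  have h2 := h.algebraMap (A := LaurentSeries k)
  exact h2

theorem deuResF_finiteDimensional :
    FiniteDimensional k⟮deuResFJ k N⟯ ↥(modularFunctionFieldFullC k N) :=
  Fermat.Agent.INJ.bgFin_finiteDimensional_full k N

theorem deuResF_isAlgebraic :
    Algebra.IsAlgebraic k⟮deuResFJ k N⟯ ↥(modularFunctionFieldFullC k N) :=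
  haveI := deuResF_finiteDimensional k N
  Algebra.IsAlgebraic.of_finite _ _

variable [IsAlgClosed k]

/-- **MPR-res (a)**: every place of `k(j̄(q^d) : d ∣ N)` has residue field `k`
(`k` algebraically closed, any characteristic). -/
theorem deuResF_bijective (v : Place k ↥(modularFunctionFieldFullC k N)) :
    Function.Bijective (algebraMap k v.ResidueField) :=
  Fermat.Agent.S24.algebraMap_residueField_bijective (deuResFJ k N)
    (deuResF_transcendental_j k N) (deuResF_isAlgebraic k N) v

theorem deuResF_deg_eq_one (v : Place k ↥(modularFunctionFieldFullC k N)) : v.deg = 1 :=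
  Fermat.Agent.S24.deg_eq_one (deuResFJ k N) (deuResF_transcendental_j k N)
    (deuResF_isAlgebraic k N) v

end General

section Concrete

set_option synthInstance.maxHeartbeats 400000

variable (N : ℕ) [NeZero N] (A : ValuationSubring (AlgebraicClosure ℚ))

/-- **MPR-res (a)**, concrete form: `k = IsLocalRing.ResidueField A`. -/
theorem deuResF_bijective_kA
    (v : Place (IsLocalRing.ResidueField A)
      ↥(modularFunctionFieldFullC (IsLocalRing.ResidueField A) N)) :
    Function.Bijective (algebraMap (IsLocalRing.ResidueField A) v.ResidueField) :=
  haveI : IsAlgClosed (IsLocalRing.ResidueField A) :=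
    Fermat.Agent.RED.isAlgClosed_residueField A
  deuResF_bijective (IsLocalRing.ResidueField A) N v

theorem deuResF_deg_eq_one_kA
    (v : Place (IsLocalRing.ResidueField A)
      ↥(modularFunctionFieldFullC (IsLocalRing.ResidueField A) N)) : v.deg = 1 :=
  haveI : IsAlgClosed (IsLocalRing.ResidueField A) :=
    Fermat.Agent.RED.isAlgClosed_residueField A
  deuResF_deg_eq_one (IsLocalRing.ResidueField A) N v

end Concrete

end Fermat.Agent.DEU

end
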