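import Fermat.Agent.DEU.RedSpace
import Fermat.Agent.DEU.Dv

/-!
# DEU — the reduction `ρ 𝔞 = dv (reduction of L(𝔞))` of a divisor

Basic properties: `ρ 𝔞 + ρ 𝔟 ≤ ρ (𝔞 + 𝔟)`, monotonicity, `ρ (𝔞 + div u) = ρ 𝔞 + div ū`.
-/

set_option autoImplicit false

open AlgebraicCurve Module

namespace Fermat.Agent.DEU

open Fermat.Agent.ES.R

variable {K F k Fb : Type*} [Field K] [Field F] [Algebra K F] [Field k] [Field Fb] [Algebra k Fb]

/-! ### Generic facts on `L(𝔞)` -/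

theorem rr_mul_mem {𝔞 𝔟 : Divisor K F} {f f' : F} (hf : f ∈ riemannRochSpace 𝔞)
    (hf' : f' ∈ riemannRochSpace 𝔟) : f * f' ∈ riemannRochSpace (𝔞 + 𝔟) := by
  rw [mem_riemannRochSpace_iff] at hf hf' ⊢
  intro v
  rcases eq_or_ne f 0 with rfl | h0
  · left; simp
  rcases eq_or_ne f' 0 with rfl | h0'
  · left; simp
  right
  have h1 := (hf v).resolve_left h0
  have h2 := (hf' v).resolve_left h0'
  rw [v.ord_mul h0 h0', Finsupp.add_apply]
  linarith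

/-- `f ∈ L(𝔞 + div u) ↔ f u ∈ L(𝔞)`. -/
theorem mem_rr_add_div {𝔞 Z : Divisor K F} {u : F} (hu : u ≠ 0)
    (hZ : ∀ v : Place K F, Z v = v.ord u) {f : F} :
    f ∈ riemannRochSpace (𝔞 + Z) ↔ f * u ∈ riemannRochSpace 𝔞 := by
  rw [mem_riemannRochSpace_iff, mem_riemannRochSpace_iff]
  refine forall_congr' fun v => ?_
  rcases eq_or_ne f 0 with rfl | h0
  · simp
  have h1 : f * u ≠ 0 := mul_ne_zero h0 hu
  simp only [h0, h1, false_or]
  rw [v.ord_mul h0 hu, Finsupp.add_apply, hZ v]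
  constructor <;> intro h <;> linarith

/-- `f ∈ L(𝔞 - div u) ↔ f / u ∈ L(𝔞)` in the form with an inverse. -/
theorem mem_rr_add_div_inv {𝔞 Z : Divisor K F} {u : F} (hu : u ≠ 0)
    (hZ : ∀ v : Place K F, Z v = v.ord u) {f : F} (hf : f ∈ riemannRochSpace 𝔞) :
    f * u⁻¹ ∈ riemannRochSpace (𝔞 + Z) := by
  rw [mem_rr_add_div hu hZ, mul_assoc, inv_mul_cancel₀ hu, mul_one]
  exact hf

namespace RedData

variable (R : RedData K F k Fb)

/-- The reduction of a divisor `𝔞`: the least divisor `𝔟` of `Fb` such that the reduction of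
`L(𝔞)` lies in `L(𝔟)`. -/
noncomputable def rho (𝔞 : Divisor K F) : Divisor k Fb := dv (R.redSpace (riemannRochSpace 𝔞))

variable (hresF : ∀ v : Place K F, Function.Bijective (algebraMap K v.ResidueField))
  (hresk : ∀ v : Place k Fb, Function.Bijective (algebraMap k v.ResidueField))
  [HasPrincipalDivisors K F] [HasPrincipalDivisors k Fb] (P₀ : Place K F)

omit [HasPrincipalDivisors k Fb] in
include hresF P₀ in
theorem finite_redSpace_rr (𝔞 : Divisor K F) :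
    Module.Finite k ↥(R.redSpace (riemannRochSpace 𝔞)) := by
  have := rr_finite P₀ hresF 𝔞
  infer_instance

include hresF hresk P₀ in
theorem redSpace_rr_le_rr_rho {𝔞 : Divisor K F} (h𝔞 : riemannRochSpace 𝔞 ≠ ⊥) :
    R.redSpace (riemannRochSpace 𝔞) ≤ riemannRochSpace (R.rho 𝔞) := by
  have := R.finite_redSpace_rr hresF P₀ 𝔞
  exact le_rr_dv hresk _ (R.redSpace_ne_bot h𝔞)

include hresF hresk P₀ in
theorem rho_le_of_le_rr {𝔞 : Divisor K F} (h𝔞 : riemannRochSpace 𝔞 ≠ ⊥) {𝔟 : Divisor k Fb}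
    (h : R.redSpace (riemannRochSpace 𝔞) ≤ riemannRochSpace 𝔟) : R.rho 𝔞 ≤ 𝔟 := by
  have := R.finite_redSpace_rr hresF P₀ 𝔞
  exact dv_le_of_le_rr hresk _ (R.redSpace_ne_bot h𝔞) h

include hresF hresk P₀ in
theorem degree_rho_nonneg {𝔞 : Divisor K F} (h𝔞 : riemannRochSpace 𝔞 ≠ ⊥) :
    0 ≤ Divisor.degree (R.rho 𝔞) := by
  have := R.finite_redSpace_rr hresF P₀ 𝔞
  exact degree_dv_nonneg hresk _ (R.redSpace_ne_bot h𝔞)

include hresF hresk P₀ in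
theorem rho_mono {𝔞 𝔟 : Divisor K F} (h𝔞 : riemannRochSpace 𝔞 ≠ ⊥) (h : 𝔞 ≤ 𝔟) :
    R.rho 𝔞 ≤ R.rho 𝔟 := by
  have h𝔟 : riemannRochSpace 𝔟 ≠ ⊥ := fun hb => h𝔞 (eq_bot_iff.mpr (hb ▸ rr_mono h))
  have := R.finite_redSpace_rr hresF P₀ 𝔞
  have := R.finite_redSpace_rr hresF P₀ 𝔟
  exact dv_mono hresk (R.redSpace_ne_bot h𝔞) (R.redSpace_ne_bot h𝔟)
    (R.redSpace_mono (rr_mono h))

include hresF hresk P₀ in
/-- `ρ 𝔞 + ρ 𝔟 ≤ ρ (𝔞 + 𝔟)`. -/
theorem rho_add_le {𝔞 𝔟 : Divisor K F} (h𝔞 : riemannRochSpace 𝔞 ≠ ⊥)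
    (h𝔟 : riemannRochSpace 𝔟 ≠ ⊥) : R.rho 𝔞 + R.rho 𝔟 ≤ R.rho (𝔞 + 𝔟) := by
  have h𝔞𝔟 : riemannRochSpace (𝔞 + 𝔟) ≠ ⊥ := by
    obtain ⟨f, hf, hf0⟩ := (Submodule.ne_bot_iff _).mp h𝔞
    obtain ⟨f', hf', hf'0⟩ := (Submodule.ne_bot_iff _).mp h𝔟
    exact (Submodule.ne_bot_iff _).mpr ⟨f * f', rr_mul_mem hf hf', mul_ne_zero hf0 hf'0⟩
  have := R.finite_redSpace_rr hresF P₀ 𝔞
  have := R.finite_redSpace_rr hresF P₀ 𝔟
  have := R.finite_redSpace_rr hresF P₀ (𝔞 + 𝔟)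
  refine dv_add_le hresk (R.redSpace_ne_bot h𝔞) (R.redSpace_ne_bot h𝔟)
    (R.redSpace_ne_bot h𝔞𝔟) ?_
  rintro _ ⟨f, hf, rfl⟩ _ ⟨f', hf', rfl⟩
  refine ⟨f * f', ?_, map_mul _ _ _⟩
  rw [Subring.coe_mul]
  exact rr_mul_mem hf hf'

include hresF hresk P₀ in
/-- `ρ (𝔞 + div u) = ρ 𝔞 + div ū` for `u ∈ O` with nonzero reduction. -/
theorem rho_add_principal {𝔞 : Divisor K F} (h𝔞 : riemannRochSpace 𝔞 ≠ ⊥)
    (u : R.O) (hu : R.red u ≠ 0) {Z : Divisor K F} (hZ : ∀ v : Place K F, Z v = v.ord (u : F))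
    {Z' : Divisor k Fb} (hZ' : ∀ v : Place k Fb, Z' v = v.ord (R.red u)) :
    R.rho (𝔞 + Z) = R.rho 𝔞 + Z' := by
  have hu0 : (u : F) ≠ 0 := R.coe_ne_zero_of_red_ne_zero hu
  have := R.finite_redSpace_rr hresF P₀ 𝔞
  have hne := R.redSpace_ne_bot (k := k) (Fb := Fb) h𝔞
  have hleast := dv_isLeast hresk _ hne
  -- membership transfer
  have key : ∀ w : Fb, w ∈ R.redSpace (riemannRochSpace (𝔞 + Z)) ↔
      w * R.red u ∈ R.redSpace (riemannRochSpace 𝔞) := by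
    intro w
    constructor
    · rintro ⟨f, hf, rfl⟩
      refine ⟨f * u, ?_, map_mul _ _ _⟩
      rw [Subring.coe_mul]
      exact (mem_rr_add_div hu0 hZ).mp hf
    · rintro ⟨f, hf, hfw⟩
      refine ⟨f * R.inv u hu, ?_, ?_⟩
      · rw [Subring.coe_mul, R.coe_inv]
        exact mem_rr_add_div_inv hu0 hZ hf
      · rw [map_mul, R.red_inv, hfw, mul_assoc, mul_inv_cancel₀ hu, mul_one]
  have hb : ∀ D : Divisor k Fb, D ∈ bounds (R.redSpace (riemannRochSpace (𝔞 + Z))) ↔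
      D - Z' ∈ bounds (R.redSpace (riemannRochSpace 𝔞)) := by
    intro D
    constructor
    · intro hD w hw
      have h1 : w * (R.red u)⁻¹ ∈ R.redSpace (riemannRochSpace (𝔞 + Z)) := by
        rw [key, mul_assoc, inv_mul_cancel₀ hu, mul_one]
        exact hw
      have h2 := hD h1
      have h3 : w * (R.red u)⁻¹ * R.red u ∈ riemannRochSpace (D - Z') := by
        have hZn : ∀ v : Place k Fb, (-Z') v = v.ord (R.red u)⁻¹ := by
          intro v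
          rw [Finsupp.neg_apply, hZ' v, v.ord_inv]
        have := mem_rr_add_div_inv (inv_ne_zero hu) hZn h2
        rwa [inv_inv, ← sub_eq_add_neg] at this
      rwa [mul_assoc, inv_mul_cancel₀ hu, mul_one] at h3
    · intro hD w hw
      have h1 := hD ((key w).mp hw)
      have h2 := mem_rr_add_div_inv hu hZ' h1
      rwa [mul_assoc, mul_inv_cancel₀ hu, mul_one, sub_add_cancel] at h2
  refine dv_eq_of_isLeast ⟨?_, ?_⟩
  · rw [hb, add_sub_cancel_right]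
    exact hleast.1
  · intro D hD
    have := hleast.2 ((hb D).mp hD)
    exact le_sub_iff_add_le.mp this

end RedData

end Fermat.Agent.DEU
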